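import Mathlib.RingTheory.PowerSeries.Expand
import Mathlib.RingTheory.PowerSeries.Basic
import Mathlib.Algebra.Ring.Subring.Basic

/-!
# S16 upper bound: the trace–Sturm engine (pure power-series brick)

`Up p` is the operator `∑ a_n q^n ↦ ∑ a_{pn} q^n`; `V_p` is Mathlib's `PowerSeries.expand p hp`.
-/

namespace Fermat.Agent.S16.UB.Engine

open PowerSeries

variable {R : Type*} [CommRing R]

/-- The operator `U_p` on power series: `∑ a_n q^n ↦ ∑ a_{pn} q^n`. -/
noncomputable def Up (p : ℕ) (X : PowerSeries R) : PowerSeries R :=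
  PowerSeries.mk fun n => coeff (p * n) X

@[simp] lemma coeff_Up (p n : ℕ) (X : PowerSeries R) :
    coeff n (Up p X) = coeff (p * n) X := by
  simp [Up]

lemma Up_add (p : ℕ) (X Y : PowerSeries R) : Up p (X + Y) = Up p X + Up p Y := by
  ext n; simp

lemma Up_sub (p : ℕ) (X Y : PowerSeries R) : Up p (X - Y) = Up p X - Up p Y := by
  ext n; simp

/-- `U_p (V_p X * Y) = X * U_p Y`. -/
lemma Up_expand_mul (p : ℕ) (hp : p ≠ 0) (X Y : PowerSeries R) :
    Up p (expand p hp X * Y) = X * Up p Y := by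
  ext n
  rw [coeff_Up, coeff_mul, coeff_mul]
  symm
  apply Finset.sum_of_injOn (fun x : ℕ × ℕ => (p * x.1, p * x.2))
  · intro x _ y _ h
    simp only [Prod.mk.injEq] at h
    exact Prod.ext (Nat.eq_of_mul_eq_mul_left (Nat.pos_of_ne_zero hp) h.1)
      (Nat.eq_of_mul_eq_mul_left (Nat.pos_of_ne_zero hp) h.2)
  · intro x hx
    simp only [Finset.mem_coe, Finset.mem_antidiagonal] at hx ⊢
    rw [← mul_add, hx]
  · intro y hy hy'
    have hy1 : y.1 + y.2 = p * n := by simpa using hy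
    have hnd : ¬ p ∣ y.1 := by
      rintro ⟨a, ha⟩
      apply hy'
      have h2 : p ∣ y.2 := by
        have : p ∣ y.1 + y.2 := ⟨n, hy1⟩
        exact (Nat.dvd_add_right ⟨a, ha⟩).mp this
      obtain ⟨c, hc⟩ := h2
      refine ⟨(a, c), ?_, ?_⟩
      · simp only [Finset.mem_coe, Finset.mem_antidiagonal]
        apply Nat.eq_of_mul_eq_mul_left (Nat.pos_of_ne_zero hp)
        rw [mul_add, ← ha, ← hc, hy1]
      · exact Prod.ext ha.symm hc.symm
    rw [coeff_expand_of_not_dvd p hp X hnd, zero_mul]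
  · intro x _
    simp [coeff_expand_mul]

section congruences

variable (O : Subring R) (I : AddSubgroup R)

lemma coeff_mul_mem_O {X Y : PowerSeries R} (hX : ∀ n, coeff n X ∈ O) (hY : ∀ n, coeff n Y ∈ O) :
    ∀ n, coeff n (X * Y) ∈ O := by
  intro n
  rw [coeff_mul]
  exact Subring.sum_mem O fun x _ => O.mul_mem (hX _) (hY _)

lemma coeff_pow_mem_O {X : PowerSeries R} (hX : ∀ n, coeff n X ∈ O) (N : ℕ) :
    ∀ n, coeff n (X ^ N) ∈ O := by
  induction N with
  | zero =>
    intro n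
    rw [pow_zero, coeff_one]
    split_ifs
    · exact O.one_mem
    · exact O.zero_mem
  | succ N ih =>
    rw [pow_succ]
    exact coeff_mul_mem_O O ih hX

lemma coeff_expand_mem_O (p : ℕ) (hp : p ≠ 0) {X : PowerSeries R} (hX : ∀ n, coeff n X ∈ O) :
    ∀ n, coeff n (expand p hp X) ∈ O := by
  intro n
  rw [coeff_expand]
  split_ifs
  · exact hX _
  · exact O.zero_mem

variable {O I}

lemma coeff_mul_mem_I_left (hOI : ∀ x ∈ O, ∀ y ∈ I, x * y ∈ I) {X Y : PowerSeries R}
    (hX : ∀ n, coeff n X ∈ I) (hY : ∀ n, coeff n Y ∈ O) : ∀ n, coeff n (X * Y) ∈ I := by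
  intro n
  rw [coeff_mul]
  refine AddSubgroup.sum_mem I fun x _ => ?_
  rw [mul_comm]
  exact hOI _ (hY _) _ (hX _)

lemma coeff_mul_mem_I_right (hOI : ∀ x ∈ O, ∀ y ∈ I, x * y ∈ I) {X Y : PowerSeries R}
    (hX : ∀ n, coeff n X ∈ O) (hY : ∀ n, coeff n Y ∈ I) : ∀ n, coeff n (X * Y) ∈ I := by
  intro n
  rw [coeff_mul]
  exact AddSubgroup.sum_mem I fun x _ => hOI _ (hX _) _ (hY _)

/-- Congruent series with `O`-coefficients have congruent powers. -/
lemma coeff_pow_sub_pow_mem_I (hOI : ∀ x ∈ O, ∀ y ∈ I, x * y ∈ I) {X X' : PowerSeries R}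
    (hX : ∀ n, coeff n X ∈ O) (hX' : ∀ n, coeff n X' ∈ O)
    (h : ∀ n, coeff n (X - X') ∈ I) (N : ℕ) : ∀ n, coeff n (X ^ N - X' ^ N) ∈ I := by
  induction N with
  | zero => intro n; simp
  | succ N ih =>
    intro n
    have e : X ^ (N + 1) - X' ^ (N + 1) = (X ^ N - X' ^ N) * X + X' ^ N * (X - X') := by ring
    rw [e, map_add]
    exact I.add_mem (coeff_mul_mem_I_left hOI ih hX n)
      (coeff_mul_mem_I_right hOI (coeff_pow_mem_O O hX' N) h n)

/-- If the coefficients of `Q` below `m` lie in `I`, then the coefficients of `Q ^ N` below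
`N * m` lie in `I`, and the coefficient at `N * m` is `(coeff m Q) ^ N` modulo `I`. -/
lemma low_coeff_pow (hOI : ∀ x ∈ O, ∀ y ∈ I, x * y ∈ I) {Q : PowerSeries R} {m : ℕ}
    (hQ : ∀ n, coeff n Q ∈ O) (hQlow : ∀ n < m, coeff n Q ∈ I) (N : ℕ) :
    (∀ n < N * m, coeff n (Q ^ N) ∈ I) ∧ coeff (N * m) (Q ^ N) - (coeff m Q) ^ N ∈ I := by
  induction N with
  | zero => simp
  | succ N ih =>
    obtain ⟨ih1, ih2⟩ := ih
    have hO := coeff_pow_mem_O O hQ N
    have key : ∀ n, ∀ x ∈ Finset.antidiagonal n, (x.1 < N * m ∨ x.2 < m) →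
        coeff x.1 (Q ^ N) * coeff x.2 Q ∈ I := by
      intro n x _ hx
      rcases hx with hx | hx
      · rw [mul_comm]; exact hOI _ (hQ _) _ (ih1 _ hx)
      · exact hOI _ (hO _) _ (hQlow _ hx)
    constructor
    · intro n hn
      rw [pow_succ, coeff_mul]
      refine AddSubgroup.sum_mem I fun x hx => key n x hx ?_
      have hx' : x.1 + x.2 = n := by simpa using hx
      by_contra hcon
      rw [not_or, not_lt, not_lt] at hcon
      have : (N + 1) * m ≤ n := by
        calc (N + 1) * m = N * m + m := by ring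
          _ ≤ x.1 + x.2 := Nat.add_le_add hcon.1 hcon.2
          _ = n := hx'
      omega
    · rw [pow_succ, coeff_mul]
      have hmem : (N * m, m) ∈ Finset.antidiagonal ((N + 1) * m) := by
        simp only [Finset.mem_antidiagonal]; ring
      rw [← Finset.add_sum_erase _ _ hmem]
      have hrest : ∑ x ∈ (Finset.antidiagonal ((N + 1) * m)).erase (N * m, m),
          coeff x.1 (Q ^ N) * coeff x.2 Q ∈ I := by
        refine AddSubgroup.sum_mem I fun x hx => ?_
        have hx1 := Finset.ne_of_mem_erase hx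
        have hx2 := Finset.mem_of_mem_erase hx
        refine key _ x hx2 ?_
        have hx' : x.1 + x.2 = (N + 1) * m := by simpa using hx2
        by_contra hcon
        rw [not_or, not_lt, not_lt] at hcon
        apply hx1
        have h3 : (N + 1) * m = N * m + m := by ring
        exact Prod.ext (by simp only; omega) (by simp only; omega)
      have e : coeff (N * m) (Q ^ N) * coeff m Q +
          ∑ x ∈ (Finset.antidiagonal ((N + 1) * m)).erase (N * m, m),
            coeff x.1 (Q ^ N) * coeff x.2 Q - coeff m Q ^ (N + 1)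
          = coeff m Q * (coeff (N * m) (Q ^ N) - coeff m Q ^ N) +
            ∑ x ∈ (Finset.antidiagonal ((N + 1) * m)).erase (N * m, m),
              coeff x.1 (Q ^ N) * coeff x.2 Q := by ring
      rw [e]
      exact I.add_mem (hOI _ (hQ _) _ ih2) hrest

end congruences

/-- If `coeff 0 D = 0`, then `D ^ a` vanishes below `q ^ a` and its coefficient at `q ^ a` is
`(coeff 1 D) ^ a`. -/
lemma coeff_pow_of_coeff_zero {D : PowerSeries R} (hD0 : coeff 0 D = 0) (a : ℕ) :
    (∀ i < a, coeff i (D ^ a) = 0) ∧ coeff a (D ^ a) = (coeff 1 D) ^ a := by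
  obtain ⟨D', rfl⟩ : (X : PowerSeries R) ∣ D := by
    rw [X_dvd_iff]
    simpa using hD0
  rw [mul_pow]
  constructor
  · intro i hi
    rw [coeff_X_pow_mul', if_neg (Nat.not_le.mpr hi)]
  · rw [coeff_X_pow_mul', if_pos le_rfl, Nat.sub_self, coeff_zero_eq_constantCoeff_apply,
      map_pow, ← coeff_zero_eq_constantCoeff_apply]
    congr 1
    exact (coeff_succ_X_mul (R := R) 0 D').symm

/-- `expand p (D ^ a)` vanishes below `q ^ (p * a)` when `coeff 0 D = 0`, and its coefficient at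
`q ^ (p * a)` is `(coeff 1 D) ^ a`. -/
lemma coeff_expand_pow_of_coeff_zero (p : ℕ) (hp : p ≠ 0) {D : PowerSeries R}
    (hD0 : coeff 0 D = 0) (a : ℕ) :
    (∀ i < p * a, coeff i (expand p hp (D ^ a)) = 0) ∧
      coeff (p * a) (expand p hp (D ^ a)) = (coeff 1 D) ^ a := by
  obtain ⟨h1, h2⟩ := coeff_pow_of_coeff_zero hD0 a
  constructor
  · intro i hi
    rw [coeff_expand]
    split_ifs with h
    · apply h1
      exact Nat.div_lt_of_lt_mul hi
    · rfl
  · rw [coeff_expand_mul, h2]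

section engine

variable (O : Subring R) (I : AddSubgroup R)

/-- Units modulo `I` stay away from `I`: if `x * e ≡ 1` and `u * v ≡ 1` modulo `I` then
`u * x ^ N ∉ I`. -/
lemma unit_mul_pow_not_mem (hOI : ∀ x ∈ O, ∀ y ∈ I, x * y ∈ I) (h1 : (1 : R) ∉ I)
    {x e u v : R} (hx : x ∈ O) (he : e ∈ O) (hxe : x * e - 1 ∈ I)
    (hv : v ∈ O) (huv : u * v - 1 ∈ I) (N : ℕ) : u * x ^ N ∉ I := by
  intro hmem
  have hxeO : x * e ∈ O := O.mul_mem hx he
  have hpow : ∀ N : ℕ, (x * e) ^ N - 1 ∈ I := by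
    intro N
    induction N with
    | zero => simp
    | succ N ih =>
      have e1 : (x * e) ^ (N + 1) - 1 = (x * e) * ((x * e) ^ N - 1) + (x * e - 1) := by ring
      rw [e1]
      exact I.add_mem (hOI _ hxeO _ ih) hxe
  have h2 : (v * e ^ N) * (u * x ^ N) ∈ I := hOI _ (O.mul_mem hv (O.pow_mem he N)) _ hmem
  have h3 : (x * e) ^ N * (u * v - 1) ∈ I := hOI _ (O.pow_mem hxeO N) _ huv
  have e2 : (1 : R) = (v * e ^ N) * (u * x ^ N) - (x * e) ^ N * (u * v - 1) - ((x * e) ^ N - 1) := by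
    ring
  apply h1
  rw [e2]
  exact I.sub_mem (I.sub_mem h2 h3) (hpow N)

/-- **Trace–Sturm engine A.**  `A`, `B` are the `q`-expansions of `F`, `F#`; `D` that of `Δ`;
`T` is the `q`-expansion of `Tr (F ^ N * Δ(pz) ^ p)`, a level-one form for which `hSturm` is the
integral Sturm bound (`b` = its Sturm index).  If `B ≡ V_p Q` modulo `I` with `Q` of order
`m` modulo `I` (unit leading coefficient), `N * m + 1 < p ^ 2` and `b < N * m + 1`: contradiction. -/
theorem engineA (hOI : ∀ x ∈ O, ∀ y ∈ I, x * y ∈ I) (h1 : (1 : R) ∉ I)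
    (p : ℕ) (hp : p ≠ 0) (N m b : ℕ) (A B Q D : PowerSeries R)
    (hA : ∀ n, coeff n A ∈ O) (hB : ∀ n, coeff n B ∈ O) (hQ : ∀ n, coeff n Q ∈ O)
    (hD : ∀ n, coeff n D ∈ O) (hD0 : coeff 0 D = 0) (hD1 : coeff 1 D = 1)
    (hBQ : ∀ n, coeff n (B - expand p hp Q) ∈ I)
    (hQlow : ∀ n < m, coeff n Q ∈ I) (hQm : ∃ e ∈ O, coeff m Q * e - 1 ∈ I)
    (u : R) (huO : u ∈ O) (hu : ∃ v ∈ O, u * v - 1 ∈ I)
    (hsmall : N * m + 1 < p ^ 2) (hbig : b < N * m + 1)
    (T : PowerSeries R) (hT : T = A ^ N * expand p hp (D ^ p) + C u * Up p (B ^ N * D ^ p))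
    (hSturm : (∀ n, coeff n T ∈ O) → (∀ n ≤ b, coeff n T ∈ I) → ∀ n, coeff n T ∈ I) :
    False := by
  obtain ⟨e, heO, hcme⟩ := hQm
  obtain ⟨v, hvO, huv⟩ := hu
  -- integrality of everything in sight
  have hDp := coeff_pow_mem_O O hD p
  have hEDp := coeff_expand_mem_O O p hp hDp
  have hAN := coeff_pow_mem_O O hA N
  have hBN := coeff_pow_mem_O O hB N
  have hQN := coeff_pow_mem_O O hQ N
  have hEQ := coeff_expand_mem_O O p hp hQ
  have hW : ∀ n, coeff n (Up p (D ^ p)) ∈ O := fun n => by rw [coeff_Up]; exact hDp _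
  have hTO : ∀ n, coeff n T ∈ O := by
    intro n
    rw [hT, map_add, coeff_C_mul, coeff_Up]
    exact O.add_mem (coeff_mul_mem_O O hAN hEDp n)
      (O.mul_mem huO (coeff_mul_mem_O O hBN hDp _))
  -- first summand vanishes below `p ^ 2`
  have hfirst : ∀ n < p ^ 2, coeff n (A ^ N * expand p hp (D ^ p)) = 0 := by
    intro n hn
    have hdvd : (X : PowerSeries R) ^ (p ^ 2) ∣ A ^ N * expand p hp (D ^ p) := by
      apply dvd_mul_of_dvd_right
      rw [X_pow_dvd_iff]
      intro i hi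
      exact (coeff_expand_pow_of_coeff_zero p hp hD0 p).1 i (by rwa [← pow_two])
    exact (X_pow_dvd_iff.mp hdvd) n hn
  -- second summand: congruent to `Q ^ N * U_p (D ^ p)`
  have hcong : ∀ n, coeff n (Up p (B ^ N * D ^ p)) - coeff n (Q ^ N * Up p (D ^ p)) ∈ I := by
    intro n
    have h3 := coeff_pow_sub_pow_mem_I hOI hB hEQ hBQ N
    have h4 := coeff_mul_mem_I_left hOI h3 hDp (p * n)
    rw [← Up_expand_mul p hp, coeff_Up, coeff_Up, ← map_sub, map_pow, ← sub_mul]
    exact h4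
  -- low coefficients of `Q ^ N * U_p (D ^ p)`
  obtain ⟨hlow, hlead⟩ := low_coeff_pow hOI hQ hQlow N
  obtain ⟨hDlow, hDlead⟩ := coeff_pow_of_coeff_zero hD0 p
  have hp1 : 1 ≤ p := Nat.pos_of_ne_zero hp
  have hW0 : coeff 0 (Up p (D ^ p)) = 0 := by
    rw [coeff_Up, mul_zero]; exact hDlow 0 hp1
  have hW1 : coeff 1 (Up p (D ^ p)) = 1 := by
    rw [coeff_Up, mul_one, hDlead, hD1, one_pow]
  have hterm : ∀ n, ∀ x ∈ Finset.antidiagonal n, x.1 < N * m →
      coeff x.1 (Q ^ N) * coeff x.2 (Up p (D ^ p)) ∈ I := by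
    intro n x _ hx
    rw [mul_comm]
    exact hOI _ (hW _) _ (hlow _ hx)
  have hZlow : ∀ n ≤ N * m, coeff n (Q ^ N * Up p (D ^ p)) ∈ I := by
    intro n hn
    rw [coeff_mul]
    refine AddSubgroup.sum_mem I fun x hx => ?_
    have hx' : x.1 + x.2 = n := by simpa using hx
    by_cases h0 : x.2 = 0
    · rw [h0, hW0, mul_zero]; exact I.zero_mem
    · exact hterm n x hx (by omega)
  have hZlead : coeff (N * m + 1) (Q ^ N * Up p (D ^ p)) - (coeff m Q) ^ N ∈ I := by
    rw [coeff_mul]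
    have hmem : (N * m, 1) ∈ Finset.antidiagonal (N * m + 1) := by simp
    rw [← Finset.add_sum_erase _ _ hmem, hW1, mul_one]
    have hrest : ∑ x ∈ (Finset.antidiagonal (N * m + 1)).erase (N * m, 1),
        coeff x.1 (Q ^ N) * coeff x.2 (Up p (D ^ p)) ∈ I := by
      refine AddSubgroup.sum_mem I fun x hx => ?_
      have hx1 := Finset.ne_of_mem_erase hx
      have hx2 := Finset.mem_of_mem_erase hx
      have hx' : x.1 + x.2 = N * m + 1 := by simpa using hx2
      by_cases h0 : x.2 = 0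
      · rw [h0, hW0, mul_zero]; exact I.zero_mem
      · refine hterm _ x hx2 ?_
        by_contra hcon
        apply hx1
        exact Prod.ext (by simp only; omega) (by simp only; omega)
    have e3 : coeff (N * m) (Q ^ N) + ∑ x ∈ (Finset.antidiagonal (N * m + 1)).erase (N * m, 1),
        coeff x.1 (Q ^ N) * coeff x.2 (Up p (D ^ p)) - coeff m Q ^ N
        = (coeff (N * m) (Q ^ N) - coeff m Q ^ N) +
          ∑ x ∈ (Finset.antidiagonal (N * m + 1)).erase (N * m, 1),
            coeff x.1 (Q ^ N) * coeff x.2 (Up p (D ^ p)) := by ring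
    rw [e3]
    exact I.add_mem hlead hrest
  -- coefficients of `T` below the Sturm bound lie in `I`
  have hTlow : ∀ n ≤ b, coeff n T ∈ I := by
    intro n hn
    have hn1 : n ≤ N * m := by omega
    rw [hT, map_add, hfirst n (by omega), zero_add, coeff_C_mul]
    apply hOI _ huO
    have := I.add_mem (hcong n) (hZlow n hn1)
    simpa using this
  have hall := hSturm hTO hTlow (N * m + 1)
  rw [hT, map_add, hfirst _ hsmall, zero_add, coeff_C_mul] at hall
  -- but the coefficient at `N * m + 1` is a unit modulo `I`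
  have h5 : coeff (N * m + 1) (Up p (B ^ N * D ^ p)) - (coeff m Q) ^ N ∈ I := by
    have := I.add_mem (hcong (N * m + 1)) hZlead
    simpa using this
  have h6 : u * (coeff m Q) ^ N ∈ I := by
    have h7 := hOI _ huO _ h5
    have e4 : u * coeff m Q ^ N = u * coeff (N * m + 1) (Up p (B ^ N * D ^ p)) -
        u * (coeff (N * m + 1) (Up p (B ^ N * D ^ p)) - coeff m Q ^ N) := by ring
    rw [e4]
    exact I.sub_mem hall h7
  exact unit_mul_pow_not_mem O I hOI h1 (hQ m) heO hcme hvO huv N h6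

/-- **Trace–Sturm engine B (q-expansion principle).**  `Xs`, `Ys` are the `q`-expansions of `F`,
`F#`; `T` is the `q`-expansion of `Tr (F# * Δ(pz) ^ a)`, a level-one form with Sturm index `b`.
If `F ≡ 0` modulo `I` while `F#` has order `m₀` modulo `I` (unit leading coefficient) and
`b < m₀ + p * a`: contradiction. -/
theorem engineB (hOI : ∀ x ∈ O, ∀ y ∈ I, x * y ∈ I) (h1 : (1 : R) ∉ I)
    (p : ℕ) (hp : p ≠ 0) (a m₀ b : ℕ) (Xs Ys D : PowerSeries R)
    (hXO : ∀ n, coeff n Xs ∈ O) (hXI : ∀ n, coeff n Xs ∈ I) (hY : ∀ n, coeff n Ys ∈ O)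
    (hD : ∀ n, coeff n D ∈ O) (hD0 : coeff 0 D = 0) (hD1 : coeff 1 D = 1)
    (hYlow : ∀ n < m₀, coeff n Ys ∈ I) (hYm : ∃ e ∈ O, coeff m₀ Ys * e - 1 ∈ I)
    (u : R) (huO : u ∈ O) (hbig : b < m₀ + p * a)
    (T : PowerSeries R) (hT : T = Ys * expand p hp (D ^ a) + C u * Up p (Xs * D ^ a))
    (hSturm : (∀ n, coeff n T ∈ O) → (∀ n ≤ b, coeff n T ∈ I) → ∀ n, coeff n T ∈ I) :
    False := by
  obtain ⟨e, heO, hcme⟩ := hYm
  have hDa := coeff_pow_mem_O O hD a
  have hEDa := coeff_expand_mem_O O p hp hDa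
  obtain ⟨hElow, hElead⟩ := coeff_expand_pow_of_coeff_zero p hp hD0 a
  have hTO : ∀ n, coeff n T ∈ O := by
    intro n
    rw [hT, map_add, coeff_C_mul, coeff_Up]
    exact O.add_mem (coeff_mul_mem_O O hY hEDa n)
      (O.mul_mem huO (coeff_mul_mem_O O hXO hDa _))
  have hsecond : ∀ n, u * coeff n (Up p (Xs * D ^ a)) ∈ I := by
    intro n
    rw [coeff_Up]
    exact hOI _ huO _ (coeff_mul_mem_I_left hOI hXI hDa _)
  have hterm : ∀ n, ∀ x ∈ Finset.antidiagonal n, (x.2 < p * a ∨ x.1 < m₀) →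
      coeff x.1 Ys * coeff x.2 (expand p hp (D ^ a)) ∈ I := by
    intro n x _ hx
    rcases hx with hx | hx
    · rw [hElow _ hx, mul_zero]; exact I.zero_mem
    · rw [mul_comm]; exact hOI _ (hEDa _) _ (hYlow _ hx)
  have hTlow : ∀ n ≤ b, coeff n T ∈ I := by
    intro n hn
    rw [hT, map_add, coeff_C_mul]
    refine I.add_mem ?_ (hsecond n)
    rw [coeff_mul]
    refine AddSubgroup.sum_mem I fun x hx => hterm n x hx ?_
    have hx' : x.1 + x.2 = n := by simpa using hx
    omega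
  have hall := hSturm hTO hTlow (m₀ + p * a)
  rw [hT, map_add, coeff_C_mul] at hall
  have hlead : coeff (m₀ + p * a) (Ys * expand p hp (D ^ a)) - coeff m₀ Ys ∈ I := by
    rw [coeff_mul]
    have hmem : (m₀, p * a) ∈ Finset.antidiagonal (m₀ + p * a) := by simp
    rw [← Finset.add_sum_erase _ _ hmem, hElead, hD1, one_pow, mul_one, add_sub_cancel_left]
    refine AddSubgroup.sum_mem I fun x hx => ?_
    have hx1 := Finset.ne_of_mem_erase hx
    have hx2 := Finset.mem_of_mem_erase hx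
    have hx' : x.1 + x.2 = m₀ + p * a := by simpa using hx2
    refine hterm _ x hx2 ?_
    by_contra hcon
    rw [not_or, not_lt, not_lt] at hcon
    apply hx1
    exact Prod.ext (by simp only; omega) (by simp only; omega)
  have h6 : 1 * (coeff m₀ Ys) ^ 1 ∈ I := by
    have e4 : 1 * coeff m₀ Ys ^ 1 =
        (coeff (m₀ + p * a) (Ys * expand p hp (D ^ a)) + u * coeff (m₀ + p * a) (Up p (Xs * D ^ a)))
        - u * coeff (m₀ + p * a) (Up p (Xs * D ^ a))
        - (coeff (m₀ + p * a) (Ys * expand p hp (D ^ a)) - coeff m₀ Ys) := by ring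
    rw [e4]
    exact I.sub_mem (I.sub_mem hall (hsecond _)) hlead
  exact unit_mul_pow_not_mem O I hOI h1 (hY m₀) heO hcme O.one_mem (by simp) 1 h6

end engine

end Fermat.Agent.S16.UB.Engine
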