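import Mathlib
import Fermat.Agent.S23.LevelOne
import Fermat.Agent.S23.LevelOneSpan

/-!
# Level-one Sturm bound for an arbitrary additive subgroup of `ℂ`

Brick (U2) of the S16 upper-bound toolkit.  If `f` is a level-one modular form of weight `w`
and the `q`-expansion coefficients `a_i(f)` with `12 * i ≤ w` all lie in an additive subgroup
`A ≤ ℂ`, then *all* `q`-expansion coefficients of `f` lie in `A`.

Typical uses: `A = ℓ ^ r • 𝒪` for a ring `𝒪 ⊆ ℂ` of `ℓ`-integral numbers (Sturm bound
mod `ℓ ^ r`), `A = ⊥` (classical Sturm bound), `A = ℤ` (integrality).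
-/

set_option autoImplicit false

open UpperHalfPlane ModularForm ModularFormClass EisensteinSeries
open scoped MatrixGroups

namespace Fermat.Agent.S16.UB.LevelOneSturm

open Fermat.Agent.S23.LevelOne

noncomputable section

/-- Multiplying a series by an integral series: the `n`-th coefficient of the product is a
`ℤ`-combination of the coefficients of index `≤ n`. -/
theorem coeff_map_mul_mem (A : AddSubgroup ℂ) (P : PowerSeries ℤ) (R : PowerSeries ℂ) (n : ℕ)
    (h : ∀ j ≤ n, PowerSeries.coeff j R ∈ A) :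
    PowerSeries.coeff n (PowerSeries.map (Int.castRingHom ℂ) P * R) ∈ A := by
  rw [PowerSeries.coeff_mul]
  refine A.sum_mem fun x hx => ?_
  rw [PowerSeries.coeff_map]
  have hj : x.2 ≤ n := by
    have := Finset.HasAntidiagonal.mem_antidiagonal.mp hx
    omega
  have := A.zsmul_mem (h x.2 hj) (PowerSeries.coeff x.1 P)
  simpa [zsmul_eq_mul] using this

/-- The integral series `u` with `Δ = q * u`. -/
def deltaShift : PowerSeries ℤ := PowerSeries.mk fun n => PowerSeries.coeff (n + 1) deltaZ

theorem deltaZ_eq_X_mul : deltaZ = PowerSeries.X * deltaShift := by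
  ext n
  rcases n with _ | n
  · simp [coeff_zero_deltaZ]
  · rw [show n + 1 = n + 1 from rfl, PowerSeries.coeff_succ_X_mul]
    simp [deltaShift]

theorem constantCoeff_deltaShift : PowerSeries.constantCoeff deltaShift = 1 := by
  have : PowerSeries.coeff 0 deltaShift = 1 := by
    simp [deltaShift, coeff_one_deltaZ]
  simpa using this

theorem exists_deltaShift_inv : ∃ v : PowerSeries ℤ, v * deltaShift = 1 := by
  have hu : IsUnit deltaShift := by
    rw [PowerSeries.isUnit_iff_constantCoeff, constantCoeff_deltaShift]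
    exact isUnit_one
  obtain ⟨u, hu⟩ := hu
  exact ⟨(u⁻¹ : (PowerSeries ℤ)ˣ), by rw [← hu]; exact Units.inv_mul u⟩

/-- Dividing by `Δ`: if `R = Δ * S` then the `i`-th coefficient of `S` is a `ℤ`-combination of
the coefficients of `R` of index `≤ i + 1`. -/
theorem coeff_mem_of_deltaZ_mul (A : AddSubgroup ℂ) (R S : PowerSeries ℂ)
    (hRS : R = PowerSeries.map (Int.castRingHom ℂ) deltaZ * S) (i : ℕ)
    (h : ∀ j ≤ i + 1, PowerSeries.coeff j R ∈ A) : PowerSeries.coeff i S ∈ A := by
  obtain ⟨v, hv⟩ := exists_deltaShift_inv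
  have key : PowerSeries.map (Int.castRingHom ℂ) v * R = PowerSeries.X * S := by
    rw [hRS, deltaZ_eq_X_mul, map_mul, PowerSeries.map_X, ← mul_assoc, ← mul_assoc,
      mul_comm (PowerSeries.map (Int.castRingHom ℂ) v) PowerSeries.X,
      mul_assoc PowerSeries.X, ← map_mul, hv, map_one, mul_one]
  have h1 := coeff_map_mul_mem A v R (i + 1) h
  rw [key, PowerSeries.coeff_succ_X_mul] at h1
  exact h1

/-- **Level-one Sturm bound for an additive subgroup** (natural-number weight). -/
theorem coeff_mem_nat (A : AddSubgroup ℂ) : ∀ (k : ℕ) (f : ModularForm 𝒮ℒ (k : ℤ)),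
    (∀ i : ℕ, 12 * i ≤ k → PowerSeries.coeff i (qExpansion 1 f) ∈ A) →
    ∀ i : ℕ, PowerSeries.coeff i (qExpansion 1 f) ∈ A := by
  intro k
  induction k using Nat.strong_induction_on with
  | h k ih =>
  intro f hf i
  rcases Nat.even_or_odd k with hk | hk
  swap
  · rw [ModularForm.levelOne_odd_weight_eq_zero (by exact_mod_cast hk) f]
    have : qExpansion 1 ((0 : ModularForm 𝒮ℒ (k : ℤ)) : ℍ → ℂ) = 0 := by
      rw [FunLike.coe_zero]; exact qExpansion_zero 1
    rw [this]
    simp
  rcases eq_or_ne k 2 with rfl | hk2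
  · have h0 : f = 0 := rank_zero_iff_forall_zero.mp levelOne_weight_two_rank_zero f
    rw [h0]
    have : qExpansion 1 ((0 : ModularForm 𝒮ℒ ((2 : ℕ) : ℤ)) : ℍ → ℂ) = 0 := by
      rw [FunLike.coe_zero]; exact qExpansion_zero 1
    rw [this]
    simp
  · obtain ⟨a, b, hab⟩ : ∃ a b : ℕ, 4 * a + 6 * b = k := by
      obtain ⟨r, hr⟩ := hk
      rcases Nat.even_or_odd r with ⟨s, hs⟩ | ⟨s, hs⟩
      · exact ⟨s, 0, by omega⟩
      · exact ⟨s - 1, 1, by omega⟩
    set M : ModularForm 𝒮ℒ (k : ℤ) := ModularForm.mcast (by rw [hab]) (mono a b) with hM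
    have hMq : qExpansion 1 M = PowerSeries.map (Int.castRingHom ℂ) (e4Z ^ a * e6Z ^ b) := by
      rw [hM, ModularForm.qExpansion_mcast, qExpansion_mono, map_mul, map_pow, map_pow,
        map_e4Z, map_e6Z]
    have hM0 : (qExpansion 1 M).coeff 0 = 1 := by
      rw [hM, ModularForm.qExpansion_mcast, qExpansion_mono]
      simp [constantCoeff_E₄, constantCoeff_E₆]
    have hg := (isCuspForm_iff_coeffZero_eq_zero _).mp (sub_smul_isCuspForm f M hM0)
    set c := (qExpansion 1 f).coeff 0 with hc
    have hcA : c ∈ A := hf 0 (by simp)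
    set g : CuspForm 𝒮ℒ (k : ℤ) := toCuspForm (f - c • M) hg with hgdef
    set H := CuspForm.discriminantEquiv g with hH
    -- `q`-expansion identities
    have hgq : qExpansion 1 g = qExpansion 1 f - c • qExpansion 1 M := by
      have h1 : (g : ℍ → ℂ) = ((f - c • M : ModularForm 𝒮ℒ (k : ℤ)) : ℍ → ℂ) := by
        funext z; rfl
      rw [h1, FunLike.coe_sub, ModularForm.qExpansion_sub one_pos one_mem_strictPeriods_SL,
        FunLike.coe_smul, ModularForm.qExpansion_smul one_pos one_mem_strictPeriods_SL]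
    have hgH : qExpansion 1 g =
        PowerSeries.map (Int.castRingHom ℂ) deltaZ * qExpansion 1 H := by
      have h1 : g = (CuspForm.discriminantEquiv (k := (k : ℤ))).symm H :=
        ((CuspForm.discriminantEquiv (k := (k : ℤ))).symm_apply_apply g).symm
      have h2 : qExpansion 1 ((CuspForm.discriminantEquiv (k := (k : ℤ))).symm H) =
          qExpansion 1 ModularForm.discriminant * qExpansion 1 H :=
        Fermat.Agent.S23.LevelOneSpan.qExpansion_ofMulDiscriminant H
      rw [h1, h2, map_deltaZ]
    -- coefficients of `c • M`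
    have hcM : ∀ j : ℕ, PowerSeries.coeff j (c • qExpansion 1 M) ∈ A := by
      intro j
      rw [hMq, PowerSeries.coeff_smul, PowerSeries.coeff_map]
      have := A.zsmul_mem hcA (PowerSeries.coeff j (e4Z ^ a * e6Z ^ b))
      simpa [zsmul_eq_mul, mul_comm] using this
    -- all coefficients of `H` lie in `A`
    have hHall : ∀ j : ℕ, PowerSeries.coeff j (qExpansion 1 H) ∈ A := by
      rcases Nat.lt_or_ge k 12 with hk12 | hk12
      · have hH0 : H = 0 :=
          rank_zero_iff_forall_zero.mp (levelOne_neg_weight_rank_zero (by omega)) H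
        intro j
        rw [hH0]
        have : qExpansion 1 ((0 : ModularForm 𝒮ℒ ((k : ℤ) - 12)) : ℍ → ℂ) = 0 := by
          rw [FunLike.coe_zero]; exact qExpansion_zero 1
        rw [this]
        simp
      · have hcast : ((k : ℤ) - 12) = ((k - 12 : ℕ) : ℤ) := by omega
        have hq : qExpansion 1 (ModularForm.mcast hcast H) = qExpansion 1 H :=
          ModularForm.qExpansion_mcast _ _ _
        have := ih (k - 12) (by omega) (ModularForm.mcast hcast H) (by
          intro j hj
          rw [hq]
          refine coeff_mem_of_deltaZ_mul A (qExpansion 1 g) (qExpansion 1 H) hgH j ?_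
          intro l hl
          rw [hgq, map_sub]
          exact A.sub_mem (hf l (by omega)) (hcM l))
        intro j
        rw [← hq]
        exact this j
    -- conclude
    have hfq : qExpansion 1 f = c • qExpansion 1 M +
        PowerSeries.map (Int.castRingHom ℂ) deltaZ * qExpansion 1 H := by
      rw [← hgH, hgq]; ring
    rw [hfq, map_add]
    exact A.add_mem (hcM i) (coeff_map_mul_mem A deltaZ _ i fun j _ => hHall j)

/-- **Level-one Sturm bound for an additive subgroup**: if the `q`-expansion coefficients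
`a_i` with `12 * i ≤ w` of a level-one modular form of weight `w` lie in an additive subgroup
`A` of `ℂ`, then all of them do. -/
theorem coeff_mem (A : AddSubgroup ℂ) (w : ℤ) (f : ModularForm 𝒮ℒ w)
    (hf : ∀ i : ℕ, 12 * (i : ℤ) ≤ w → PowerSeries.coeff i (qExpansion 1 f) ∈ A) (i : ℕ) :
    PowerSeries.coeff i (qExpansion 1 f) ∈ A := by
  rcases lt_or_ge w 0 with hw | hw
  · have h0 : f = 0 := rank_zero_iff_forall_zero.mp (levelOne_neg_weight_rank_zero hw) f
    rw [h0]
    have : qExpansion 1 ((0 : ModularForm 𝒮ℒ w) : ℍ → ℂ) = 0 := by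
      rw [FunLike.coe_zero]; exact qExpansion_zero 1
    rw [this]
    simp
  · obtain ⟨n, rfl⟩ := Int.eq_ofNat_of_zero_le hw
    exact coeff_mem_nat A n f (fun j hj => hf j (by exact_mod_cast hj)) i

/-- Classical Sturm bound in level one: a level-one form whose coefficients `a_i`,
`12 * i ≤ w`, vanish is zero. -/
theorem eq_zero_of_coeff_eq_zero (w : ℤ) (f : ModularForm 𝒮ℒ w)
    (hf : ∀ i : ℕ, 12 * (i : ℤ) ≤ w → PowerSeries.coeff i (qExpansion 1 f) = 0) : f = 0 := by
  rw [← ModularForm.qExpansion_eq_zero_iff one_pos one_mem_strictPeriods_SL]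
  ext i
  have := coeff_mem ⊥ w f (fun j hj => by rw [AddSubgroup.mem_bot]; exact hf j hj) i
  simpa [AddSubgroup.mem_bot] using this

end

end Fermat.Agent.S16.UB.LevelOneSturm
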