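import Mathlib
import Fermat.Agent.S23.LevelOne

/-!
# S16 upper bound, case `ℓ = 2`, `p ≡ 3 mod 4`: the pure power-series lemma (brick UB-B2b-series)

For `Y = c + 4·(u + 2·X)` (`c` odd) the weight-8 expression

  `27 Y⁴ - 18 c² E₄ Y² - 8 c³ E₆ Y - c⁴ E₄²`

is congruent to `256·(S₃ + S₃²)` modulo `512`, where `E₄ = 1 + 240 S₃`, `E₆ = 1 - 504 S₅`
and `S₅ ≡ S₃ mod 8`.  The statement is a polynomial identity, so it holds after applying any
ring endomorphism to `E₄, E₆, S₃` (e.g. `q ↦ q^p`), which gives the version at the cusp `0`.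
-/

namespace Fermat.Agent.S16.UB.TwoAdic

open PowerSeries
open Fermat.Agent.S23.LevelOne

/-- The polynomial identity behind the congruence (`c = 2e+1`, `u(u+1) = 2t`). -/
theorem magic_poly {R : Type*} [CommRing R] (e u t X a d : R) (ht : u * (u + 1) = 2 * t) :
    27 * ((2 * e + 1) + 4 * (u + 2 * X)) ^ 4
      - 18 * (2 * e + 1) ^ 2 * (1 + 240 * a) * ((2 * e + 1) + 4 * (u + 2 * X)) ^ 2
      - 8 * (2 * e + 1) ^ 3 * (1 - 504 * (a + 8 * d)) * ((2 * e + 1) + 4 * (u + 2 * X))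
      - (2 * e + 1) ^ 4 * (1 + 240 * a) ^ 2
    = 256 * (a + a ^ 2) + 512 *
      ((63 * d - 2 * a - 113 * a ^ 2 + X + 504 * X * d - 72 * X * a + 18 * X ^ 2
        - 540 * X ^ 2 * a + 108 * X ^ 3 + 216 * X ^ 4 + 252 * u * d - 36 * u * a + 18 * u * X
        - 540 * u * X * a + 162 * u * X ^ 2 + 432 * u * X ^ 3 + 4 * u ^ 2 - 135 * u ^ 2 * a
        + 81 * u ^ 2 * X + 324 * u ^ 2 * X ^ 2 + 13 * u ^ 3 + 108 * u ^ 3 * X + 13 * u ^ 4
        + 504 * e * d - 12 * e * a - 900 * e * a ^ 2 + 6 * e * X + 3024 * e * X * d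
        - 432 * e * X * a + 72 * e * X ^ 2 - 2160 * e * X ^ 2 * a + 216 * e * X ^ 3 + 3 * e * u
        + 1512 * e * u * d - 216 * e * u * a + 72 * e * u * X - 2160 * e * u * X * a
        + 324 * e * u * X ^ 2 + 18 * e * u ^ 2 - 540 * e * u ^ 2 * a + 162 * e * u ^ 2 * X
        + 27 * e * u ^ 3 + 1512 * e ^ 2 * d - 36 * e ^ 2 * a - 2700 * e ^ 2 * a ^ 2
        + 12 * e ^ 2 * X + 6048 * e ^ 2 * X * d - 864 * e ^ 2 * X * a + 72 * e ^ 2 * X ^ 2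
        - 2160 * e ^ 2 * X ^ 2 * a + 6 * e ^ 2 * u + 3024 * e ^ 2 * u * d - 432 * e ^ 2 * u * a
        + 72 * e ^ 2 * u * X - 2160 * e ^ 2 * u * X * a + 18 * e ^ 2 * u ^ 2
        - 540 * e ^ 2 * u ^ 2 * a + 2016 * e ^ 3 * d - 48 * e ^ 3 * a - 3600 * e ^ 3 * a ^ 2
        + 8 * e ^ 3 * X + 4032 * e ^ 3 * X * d - 576 * e ^ 3 * X * a + 4 * e ^ 3 * u
        + 2016 * e ^ 3 * u * d - 288 * e ^ 3 * u * a + 1008 * e ^ 4 * d - 24 * e ^ 4 * a
        - 1800 * e ^ 4 * a ^ 2) + t * (1 + u ^ 2)) := by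
  linear_combination (256 * (1 + u ^ 2)) * ht

/-- Generic form over any commutative ring: `c` an odd integer, `u` any integer,
`X, a, d` arbitrary ring elements. -/
theorem magic_generic {R : Type*} [CommRing R] (c u : ℤ) (hc : Odd c) (X a d : R) :
    ∃ Z : R,
      27 * ((c : R) + 4 * ((u : R) + 2 * X)) ^ 4
        - 18 * (c : R) ^ 2 * (1 + 240 * a) * ((c : R) + 4 * ((u : R) + 2 * X)) ^ 2
        - 8 * (c : R) ^ 3 * (1 - 504 * (a + 8 * d)) * ((c : R) + 4 * ((u : R) + 2 * X))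
        - (c : R) ^ 4 * (1 + 240 * a) ^ 2
      = 256 * (a + a ^ 2) + 512 * Z := by
  obtain ⟨e, rfl⟩ := hc
  obtain ⟨t, ht⟩ : ∃ t : ℤ, u * (u + 1) = 2 * t := by
    obtain ⟨t, ht⟩ := Int.even_mul_succ_self u
    exact ⟨t, by rw [ht]; ring⟩
  have ht' : (u : R) * ((u : R) + 1) = 2 * (t : R) := by exact_mod_cast congrArg (Int.cast : ℤ → R) ht
  have h := magic_poly (e : R) (u : R) (t : R) X a d ht'
  have hc' : ((2 * e + 1 : ℤ) : R) = 2 * (e : R) + 1 := by push_cast; ring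
  rw [hc']
  exact ⟨_, h⟩

/-- `σ₅(n) ≡ σ₃(n) mod 8`. -/
theorem eight_dvd_sigma_five_sub_sigma_three (n : ℕ) :
    (8 : ℤ) ∣ (ArithmeticFunction.sigma 5 n : ℤ) - (ArithmeticFunction.sigma 3 n : ℤ) := by
  have key : ∀ d : ℕ, (8 : ℤ) ∣ (d : ℤ) ^ 5 - (d : ℤ) ^ 3 := by
    intro d
    have h : ∀ x : ZMod 8, x ^ 5 - x ^ 3 = 0 := by decide
    have h2 := (ZMod.intCast_zmod_eq_zero_iff_dvd ((d : ℤ) ^ 5 - (d : ℤ) ^ 3) 8).mp
      (by push_cast; exact h (d : ZMod 8))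
    exact_mod_cast h2
  rw [ArithmeticFunction.sigma_apply, ArithmeticFunction.sigma_apply]
  push_cast
  rw [← Finset.sum_sub_distrib]
  exact Finset.dvd_sum fun d _ => key d

/-- The series `∑ (σ₅(n) - σ₃(n))/8 qⁿ`. -/
noncomputable def dZ : PowerSeries ℤ :=
  PowerSeries.mk fun n =>
    ((ArithmeticFunction.sigma 5 n : ℤ) - (ArithmeticFunction.sigma 3 n : ℤ)) / 8

theorem bZ_eq : bZ = aZ + 8 * dZ := by
  ext n
  have h8 : (8 : PowerSeries ℤ) = C (8 : ℤ) := (map_ofNat (C (R := ℤ)) 8).symm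
  rw [h8, map_add, coeff_C_mul]
  simp only [bZ, aZ, dZ, coeff_mk]
  rw [Int.mul_ediv_cancel' (eight_dvd_sigma_five_sub_sigma_three n)]
  ring

theorem e4Z_eq' : e4Z = 1 + 240 * aZ := by
  rw [e4Z_eq]; simp

theorem e6Z_eq' : e6Z = 1 - 504 * (aZ + 8 * dZ) := by
  rw [e6Z_eq, ← bZ_eq]; simp

/-- A series with all higher coefficients divisible by `8` is `constant + 8·X`. -/
theorem exists_eq_C_add_eight_mul (A : PowerSeries ℤ)
    (h8 : ∀ n : ℕ, 1 ≤ n → (8 : ℤ) ∣ coeff n A) :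
    ∃ X : PowerSeries ℤ, A = C (coeff 0 A) + 8 * X := by
  refine ⟨PowerSeries.mk fun n => if n = 0 then 0 else coeff n A / 8, ?_⟩
  have h8' : (8 : PowerSeries ℤ) = C (8 : ℤ) := (map_ofNat (C (R := ℤ)) 8).symm
  ext n
  rw [h8', map_add, coeff_C_mul, coeff_mk, coeff_C]
  rcases Nat.eq_zero_or_pos n with rfl | hn
  · simp
  · rw [if_neg hn.ne', if_neg hn.ne', zero_add, Int.mul_ediv_cancel' (h8 n hn)]

/-- **The series lemma, general form.**  `A` has constant term `≡ c mod 4` (`c` odd) and all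
higher coefficients divisible by `8`; `φ` is any ring endomorphism of `ℤ⟦q⟧`
(`φ = id` at the cusp `∞`, `φ = expand p` at the cusp `0`). -/
theorem magic_series (φ : PowerSeries ℤ →+* PowerSeries ℤ) (A : PowerSeries ℤ) (c : ℤ)
    (hc : Odd c) (h0 : (4 : ℤ) ∣ coeff 0 A - c)
    (h8 : ∀ n : ℕ, 1 ≤ n → (8 : ℤ) ∣ coeff n A) :
    ∃ Z : PowerSeries ℤ,
      27 * A ^ 4 - 18 * C c ^ 2 * φ e4Z * A ^ 2 - 8 * C c ^ 3 * φ e6Z * A
        - C c ^ 4 * φ e4Z ^ 2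
      = 256 * φ (aZ + aZ ^ 2) + 512 * Z := by
  obtain ⟨X, hX⟩ := exists_eq_C_add_eight_mul A h8
  obtain ⟨u, hu⟩ := h0
  have hA : A = ((c : ℤ) : PowerSeries ℤ) + 4 * (((u : ℤ) : PowerSeries ℤ) + 2 * X) := by
    rw [hX, show coeff 0 A = c + 4 * u by linarith]
    have hC : ∀ z : ℤ, (C z : PowerSeries ℤ) = ((z : ℤ) : PowerSeries ℤ) := fun z => by
      simp
    rw [hC]
    push_cast
    ring
  obtain ⟨Z, hZ⟩ := magic_generic c u hc X (φ aZ) (φ dZ)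
  refine ⟨Z, ?_⟩
  have hC : (C c : PowerSeries ℤ) = ((c : ℤ) : PowerSeries ℤ) := by simp
  have h4 : φ e4Z = 1 + 240 * φ aZ := by
    rw [e4Z_eq']; simp only [map_add, map_mul, map_one, map_ofNat]
  have h6 : φ e6Z = 1 - 504 * (φ aZ + 8 * φ dZ) := by
    rw [e6Z_eq']; simp only [map_add, map_sub, map_mul, map_one, map_ofNat]
  rw [← hA] at hZ
  rw [hC, h4, h6, map_add, map_pow]
  exact hZ

/-- **At the cusp `∞`.**  `A = b + 8·H` with `b` odd. -/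
theorem magic_at_infty (A : PowerSeries ℤ) (b : ℤ) (hb : Odd b) (h0 : coeff 0 A = b)
    (h8 : ∀ n : ℕ, 1 ≤ n → (8 : ℤ) ∣ coeff n A) :
    ∃ Z : PowerSeries ℤ,
      27 * A ^ 4 - 18 * C b ^ 2 * e4Z * A ^ 2 - 8 * C b ^ 3 * e6Z * A - C b ^ 4 * e4Z ^ 2
      = 256 * (aZ + aZ ^ 2) + 512 * Z := by
  have h := magic_series (RingHom.id _) A b hb (by simp [h0]) h8
  simpa using h

/-- **At the cusp `0`.**  `A' = U_p A = b + 8·U_p H` with `b` odd and `p ≡ 3 mod 4`; the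
constant is `c = -b p`, and `E₄, E₆` are replaced by `V_p E₄, V_p E₆`. -/
theorem magic_at_zero (p : ℕ) (hp : p ≠ 0) (hp4 : p % 4 = 3) (A' : PowerSeries ℤ) (b : ℤ)
    (hb : Odd b) (h0 : coeff 0 A' = b) (h8 : ∀ n : ℕ, 1 ≤ n → (8 : ℤ) ∣ coeff n A') :
    ∃ Z : PowerSeries ℤ,
      27 * A' ^ 4 - 18 * C (b * p) ^ 2 * expand p hp e4Z * A' ^ 2
        + 8 * C (b * p) ^ 3 * expand p hp e6Z * A' - C (b * p) ^ 4 * expand p hp e4Z ^ 2
      = 256 * expand p hp (aZ + aZ ^ 2) + 512 * Z := by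
  have hpodd : Odd (p : ℤ) := by
    have : Odd p := Nat.odd_iff.mpr (by omega)
    exact_mod_cast this
  have hc : Odd (-(b * (p : ℤ))) := (hb.mul hpodd).neg
  have h4 : (4 : ℤ) ∣ coeff 0 A' - (-(b * (p : ℤ))) := by
    rw [h0]
    have : (4 : ℤ) ∣ (p : ℤ) + 1 := by
      have : 4 ∣ p + 1 := by omega
      exact_mod_cast this
    obtain ⟨k, hk⟩ := this
    exact ⟨b * k, by linear_combination b * hk⟩
  obtain ⟨Z, hZ⟩ := magic_series (expand p hp : PowerSeries ℤ →ₐ[ℤ] PowerSeries ℤ).toRingHom A'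
    (-(b * (p : ℤ))) hc h4 h8
  simp only [AlgHom.toRingHom_eq_coe, RingHom.coe_coe] at hZ
  refine ⟨Z, ?_⟩
  rw [← hZ]
  simp only [map_neg]
  ring

/-- `S₃ + S₃² = q + O(q²)`: constant coefficient. -/
theorem coeff_zero_P0 : coeff 0 (aZ + aZ ^ 2) = 0 := by
  simp [aZ, pow_two]

/-- `S₃ + S₃² = q + O(q²)`: linear coefficient. -/
theorem coeff_one_P0 : coeff 1 (aZ + aZ ^ 2) = 1 := by
  simp [aZ, pow_two, coeff_mul, Finset.Nat.antidiagonal_succ]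

end Fermat.Agent.S16.UB.TwoAdic
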