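import Mathlib
import Fermat.Agent.S23.Basic
import Fermat.Agent.S23.LevelOne
import Fermat.Agent.S16.UB.Engine
import Fermat.Agent.S16.UB.LevelOneSturm
import Fermat.Agent.S16.UB.TwoAdic

/-!
# S16 upper bound, case (B2b): no `G ∈ M₂(Γ₀(p))` is a unit modulo `8` (`p ≡ 3 mod 4`)

Pure power-series core.  `A ∈ ℤ⟦q⟧` is the `q`-expansion of `G`, `b = a₀(A)` odd, `8 ∣ aₙ(A)`
for `n ≥ 1`.  The weight-8 form

  `D = (27 G⁴ - 18 b² E₄ G² - 8 b³ E₆ G - b⁴ E₄²) / 256`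

has `q`-expansion `X = P₀ + 2 Z` (`P₀ = S₃ + S₃² = q + …`), and `p⁴ D#` has `q`-expansion
`Y = V_p P₀ + 2 Z'` (`TwoAdic.magic_at_infty`, `TwoAdic.magic_at_zero`).  The trace of
`D^(3p-2) Δ(pz)^p` to level one (weight `36 p - 16`, Sturm index `3 p - 2`) is
`≡ q^(3p-1) + …` modulo `2`: contradiction with the level-one Sturm bound (`Engine.engineA`).
-/

set_option autoImplicit false

open PowerSeries
open scoped MatrixGroups

namespace Fermat.Agent.S16.UB.Case2b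

open Fermat.Agent.S23 Fermat.Agent.S23.LevelOne Fermat.Agent.S16.UB.Engine

noncomputable section

/-! ### The localisation `ℤ[1/p] ⊆ ℂ` and its ideal `2 ℤ[1/p]` -/

/-- `ℤ[1/p]` as a subring of `ℂ`. -/
def Oloc (p : ℕ) : Subring ℂ where
  carrier := {x | ∃ (m : ℤ) (j : ℕ), x * (p : ℂ) ^ j = m}
  mul_mem' := by
    rintro x y ⟨m, j, h⟩ ⟨m', j', h'⟩
    exact ⟨m * m', j + j', by push_cast; rw [pow_add, ← h, ← h']; ring⟩
  one_mem' := ⟨1, 0, by simp⟩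
  add_mem' := by
    rintro x y ⟨m, j, h⟩ ⟨m', j', h'⟩
    exact ⟨m * (p : ℤ) ^ j' + m' * (p : ℤ) ^ j, j + j', by
      push_cast; rw [pow_add, ← h, ← h']; ring⟩
  zero_mem' := ⟨0, 0, by simp⟩
  neg_mem' := by
    rintro x ⟨m, j, h⟩
    exact ⟨-m, j, by push_cast; rw [← h]; ring⟩

/-- `2 ℤ[1/p]` as an additive subgroup of `ℂ`. -/
def Iloc (p : ℕ) : AddSubgroup ℂ where
  carrier := {x | ∃ (m : ℤ) (j : ℕ), x * (p : ℂ) ^ j = 2 * m}
  add_mem' := by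
    rintro x y ⟨m, j, h⟩ ⟨m', j', h'⟩
    exact ⟨m * (p : ℤ) ^ j' + m' * (p : ℤ) ^ j, j + j', by
      push_cast; rw [pow_add]
      linear_combination (p : ℂ) ^ j' * h + (p : ℂ) ^ j * h'⟩
  zero_mem' := ⟨0, 0, by simp⟩
  neg_mem' := by
    rintro x ⟨m, j, h⟩
    exact ⟨-m, j, by push_cast; linear_combination -h⟩

lemma mem_Oloc {p : ℕ} {x : ℂ} : x ∈ Oloc p ↔ ∃ (m : ℤ) (j : ℕ), x * (p : ℂ) ^ j = m := Iff.rfl

lemma mem_Iloc {p : ℕ} {x : ℂ} : x ∈ Iloc p ↔ ∃ (m : ℤ) (j : ℕ), x * (p : ℂ) ^ j = 2 * m :=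
  Iff.rfl

lemma intCast_mem_Oloc (p : ℕ) (m : ℤ) : (m : ℂ) ∈ Oloc p := ⟨m, 0, by simp⟩

lemma coeff_zc_mem_Oloc (p : ℕ) (P : PowerSeries ℤ) (n : ℕ) : coeff n (zc P) ∈ Oloc p := by
  rw [coeff_map]
  exact intCast_mem_Oloc p _

lemma inv_pow_mem_Oloc (p : ℕ) (hp : p ≠ 0) (j : ℕ) : ((p : ℂ) ^ j)⁻¹ ∈ Oloc p := by
  refine ⟨1, j, ?_⟩
  have : (p : ℂ) ^ j ≠ 0 := pow_ne_zero _ (Nat.cast_ne_zero.mpr hp)
  rw [inv_mul_cancel₀ this]
  simp

lemma Oloc_mul_Iloc (p : ℕ) : ∀ x ∈ Oloc p, ∀ y ∈ Iloc p, x * y ∈ Iloc p := by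
  rintro x ⟨m, j, h⟩ y ⟨m', j', h'⟩
  exact ⟨m * m', j + j', by
    push_cast; rw [pow_add]; linear_combination (y * (p:ℂ) ^ j') * h + (m:ℂ) * h'⟩

lemma one_not_mem_Iloc (p : ℕ) (hodd : Odd p) : (1 : ℂ) ∉ Iloc p := by
  rintro ⟨m, j, h⟩
  have h' : ((p : ℤ) ^ j : ℤ) = 2 * m := by
    exact_mod_cast (by simpa using h : (p : ℂ) ^ j = 2 * m)
  have hoddZ : Odd ((p : ℤ) ^ j) := by
    have : Odd (p : ℤ) := by exact_mod_cast hodd
    exact this.pow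
  rw [h'] at hoddZ
  exact (Int.not_even_iff_odd.mpr hoddZ) ⟨m, by ring⟩

/-! ### The contradiction -/

/-- **Core of (B2b).**  `X` is the `q`-expansion of the weight-8 form `D`, `Y ≡ V_p P₀ (mod 2)`
that of `p⁴ D#`.  If the trace of `D^(3p-2) Δ(pz)^p` is a level-one form (of weight
`≤ 36 p - 16`) with the `q`-expansion predicted by the trace formula, we get a contradiction. -/
theorem false_of_trace (p : ℕ) (hp : p.Prime) (hp3 : 3 ≤ p) (hodd : Odd p)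
    (X Y Z' : PowerSeries ℤ)
    (hY : Y = expand p hp.ne_zero (aZ + aZ ^ 2) + C (2 : ℤ) * Z')
    (w : ℤ) (hw : w ≤ 36 * (p : ℤ) - 16) (f : ModularForm 𝒮ℒ w)
    (hf : UpperHalfPlane.qExpansion 1 f =
      zc X ^ (3 * p - 2) * expand p hp.ne_zero (zc deltaZ ^ p)
        + C ((p : ℂ) * ((p : ℂ) ^ (12 * p))⁻¹) *
          Up p ((C (((p : ℂ) ^ 4)⁻¹) * zc Y) ^ (3 * p - 2) * zc deltaZ ^ p)) :
    False := by
  have hp0 : p ≠ 0 := hp.ne_zero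
  have hpC : (p : ℂ) ≠ 0 := Nat.cast_ne_zero.mpr hp0
  obtain ⟨e, he⟩ : ∃ e : ℤ, (p : ℤ) ^ 4 - 1 = 2 * e := by
    have h1 : Odd ((p : ℤ) ^ 4) := by
      have : Odd (p : ℤ) := by exact_mod_cast hodd
      exact this.pow
    obtain ⟨e, he⟩ := h1
    exact ⟨e, by rw [he]; ring⟩
  refine engineA (Oloc p) (Iloc p) (Oloc_mul_Iloc p) (one_not_mem_Iloc p hodd) p hp0
    (3 * p - 2) 1 (3 * p - 2) (zc X) (C (((p : ℂ) ^ 4)⁻¹) * zc Y)
    (zc (aZ + aZ ^ 2)) (zc deltaZ) (coeff_zc_mem_Oloc p _) ?_ (coeff_zc_mem_Oloc p _)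
    (coeff_zc_mem_Oloc p _) ?_ ?_ ?_ ?_ ?_ ((p : ℂ) * ((p : ℂ) ^ (12 * p))⁻¹) ?_ ?_ ?_ ?_
    (UpperHalfPlane.qExpansion 1 f) hf ?_
  · -- `B` has coefficients in `O`
    intro n
    rw [coeff_C_mul]
    exact (Oloc p).mul_mem (inv_pow_mem_Oloc p hp0 4) (coeff_zc_mem_Oloc p _ n)
  · -- `coeff 0 Δ = 0`
    rw [coeff_map, coeff_zero_deltaZ]; simp
  · -- `coeff 1 Δ = 1`
    rw [coeff_map, coeff_one_deltaZ]; simp
  · -- `B ≡ V_p Q`
    intro n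
    have h1 : coeff n Y = coeff n (expand p hp0 (aZ + aZ ^ 2)) + 2 * coeff n Z' := by
      rw [hY, map_add, coeff_C_mul]
    have h2 : (expand p hp0 (zc (aZ + aZ ^ 2)) : PowerSeries ℂ) =
        zc (expand p hp0 (aZ + aZ ^ 2)) :=
      (map_expand p hp0 (Int.castRingHom ℂ) (aZ + aZ ^ 2)).symm
    rw [map_sub, coeff_C_mul, h2, coeff_map, coeff_map, h1]
    refine ⟨coeff n Z' - e * coeff n (expand p hp0 (aZ + aZ ^ 2)), 4, ?_⟩
    have he' : (p : ℂ) ^ 4 - 1 = 2 * (e : ℂ) := by exact_mod_cast he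
    have hpp : (p : ℂ) ^ 4 ≠ 0 := pow_ne_zero _ hpC
    simp only [eq_intCast, Int.cast_add, Int.cast_mul, Int.cast_ofNat, Int.cast_sub]
    field_simp
    linear_combination (-((coeff n (expand p hp0 (aZ + aZ ^ 2)) : ℤ) : ℂ)) * he'
  · -- `Q` vanishes below `1`
    intro n hn
    have hn0 : n = 0 := by omega
    subst hn0
    rw [coeff_map, TwoAdic.coeff_zero_P0]
    simp
  · -- leading coefficient of `Q`
    refine ⟨1, (Oloc p).one_mem, ?_⟩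
    rw [coeff_map, TwoAdic.coeff_one_P0]
    simp
  · -- `u ∈ O`
    have hpO : (p : ℂ) ∈ Oloc p := by
      have := intCast_mem_Oloc p (p : ℤ)
      rwa [Int.cast_natCast] at this
    exact (Oloc p).mul_mem hpO (inv_pow_mem_Oloc p hp0 _)
  · -- `u` is a unit mod `I`
    refine ⟨(p : ℂ) ^ (12 * p - 1), by simpa using intCast_mem_Oloc p ((p : ℤ) ^ (12 * p - 1)), ?_⟩
    have e1 : (p : ℂ) * ((p : ℂ) ^ (12 * p))⁻¹ * (p : ℂ) ^ (12 * p - 1) = 1 := by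
      have : (p : ℂ) ^ (12 * p) = (p : ℂ) ^ (12 * p - 1) * p := by
        rw [← pow_succ]; congr 1; omega
      rw [this]
      have hne : (p : ℂ) ^ (12 * p - 1) ≠ 0 := pow_ne_zero _ hpC
      field_simp
    rw [e1, sub_self]
    exact (Iloc p).zero_mem
  · -- `N + 1 < p²`
    have : 3 * p - 2 + 2 = 3 * p := by omega
    nlinarith
  · -- `b < N + 1`
    omega
  · -- the Sturm bound
    intro _ hlow
    refine LevelOneSturm.coeff_mem (Iloc p) w f fun i hi => hlow i ?_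
    have : 12 * (i : ℤ) ≤ 36 * (p : ℤ) - 16 := hi.trans hw
    omega

end

end Fermat.Agent.S16.UB.Case2b
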