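import Mathlib
import Fermat.Prelude.Def_ModularForm_HeckeOperator
import Fermat.Agent.S23.LevelRaise

/-!
# S16 upper bound, brick (U1): definitions for the pair calculus `IsPair`

For `F ∈ M_k(Γ₀(p))` put `F♯(τ) := (F ∣[k] S)(p τ)` (again in `M_k(Γ₀(p))`).
`IsPair p k A B` says: `A` is the `q`-expansion of some `F ∈ M_k(Γ₀(p))` and `B` is the
`q`-expansion of `F♯`.  All case bricks of the upper bound only use the closure lemmas below,
never the analysis.

* `V p` (`q ↦ q^p`, Mathlib's `PowerSeries.expand`) and `U p` (`a_n ↦ a_{pn}`) on power series.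
* `IsPair.add/smul/neg/sub/mul/pow`, `IsPair.ofLevelOne`, `IsPair.ofLevelRaise`, `IsPair.symm`,
  `IsPair.trace`, `IsPair.weight_two`, `exists_isPair`.
-/

set_option autoImplicit false

open UpperHalfPlane ModularForm CongruenceSubgroup
open scoped MatrixGroups ModularForm

namespace Fermat.Agent.S16.UB

noncomputable section

/-! ### The operators `V_p`, `U_p` on power series -/

/-- `V_p : ∑ aₙ qⁿ ↦ ∑ aₙ q^{pn}` (Mathlib's `PowerSeries.expand`). -/
abbrev V (p : ℕ) [NeZero p] {R : Type*} [CommRing R] : PowerSeries R →ₐ[R] PowerSeries R :=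
  PowerSeries.expand p (NeZero.ne p)

/-- `U_p : ∑ aₙ qⁿ ↦ ∑ a_{pn} qⁿ`. -/
def U (p : ℕ) {R : Type*} [CommRing R] : PowerSeries R →ₗ[R] PowerSeries R where
  toFun A := PowerSeries.mk fun n => PowerSeries.coeff (p * n) A
  map_add' A B := by ext n; simp
  map_smul' c A := by ext n; simp

@[simp] lemma coeff_U (p : ℕ) {R : Type*} [CommRing R] (A : PowerSeries R) (n : ℕ) :
    PowerSeries.coeff n (U p A) = PowerSeries.coeff (p * n) A := by
  simp [U]

lemma coeff_V (p : ℕ) [NeZero p] {R : Type*} [CommRing R] (A : PowerSeries R) (n : ℕ) :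
    PowerSeries.coeff n (V p A) = if p ∣ n then PowerSeries.coeff (n / p) A else 0 :=
  PowerSeries.coeff_expand p (NeZero.ne p) A

@[simp] lemma coeff_V_mul (p : ℕ) [NeZero p] {R : Type*} [CommRing R] (A : PowerSeries R) (n : ℕ) :
    PowerSeries.coeff (p * n) (V p A) = PowerSeries.coeff n A :=
  PowerSeries.coeff_expand_mul p (NeZero.ne p) A n

@[simp] lemma U_V (p : ℕ) [NeZero p] {R : Type*} [CommRing R] (A : PowerSeries R) :
    U p (V p A) = A := by
  ext n; simp

/-- `U_p (V_p A · B) = A · U_p B`. -/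
lemma U_V_mul (p : ℕ) [NeZero p] {R : Type*} [CommRing R] (A B : PowerSeries R) :
    U p (V p A * B) = A * U p B := by
  have hp : 0 < p := Nat.pos_of_ne_zero (NeZero.ne p)
  ext n
  rw [coeff_U, PowerSeries.coeff_mul, PowerSeries.coeff_mul]
  symm
  apply Finset.sum_of_injOn (fun y : ℕ × ℕ => (p * y.1, p * y.2))
  · intro a _ b _ h
    simp only [Prod.mk.injEq] at h
    exact Prod.ext (Nat.eq_of_mul_eq_mul_left hp h.1) (Nat.eq_of_mul_eq_mul_left hp h.2)
  · intro y hy
    have h := Finset.HasAntidiagonal.mem_antidiagonal.mp (Finset.mem_coe.mp hy)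
    refine Finset.mem_coe.mpr (Finset.HasAntidiagonal.mem_antidiagonal.mpr ?_)
    show p * y.1 + p * y.2 = p * n
    rw [← mul_add, h]
  · intro x hx hx'
    have h := Finset.HasAntidiagonal.mem_antidiagonal.mp hx
    rw [coeff_V]
    split_ifs with hd
    · exfalso
      apply hx'
      obtain ⟨a, ha⟩ := hd
      have h2 : x.2 = p * (n - a) := by
        rw [ha] at h
        have h3 : p * a + x.2 = p * n := h
        have h4 : a ≤ n := by
          by_contra hlt
          have : p * n < p * a := Nat.mul_lt_mul_of_pos_left (Nat.lt_of_not_le hlt) hp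
          omega
        rw [Nat.mul_sub]
        omega
      have h4 : a ≤ n := by
        by_contra hlt
        have : p * n < p * a := Nat.mul_lt_mul_of_pos_left (Nat.lt_of_not_le hlt) hp
        omega
      refine ⟨(a, n - a), Finset.mem_coe.mpr (Finset.HasAntidiagonal.mem_antidiagonal.mpr ?_), ?_⟩
      · show a + (n - a) = n
        omega
      · exact Prod.ext ha.symm h2.symm
    · rw [zero_mul]
  · intro y _
    rw [coeff_V_mul, coeff_U]

lemma map_U (p : ℕ) {R S : Type*} [CommRing R] [CommRing S] (f : R →+* S) (A : PowerSeries R) :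
    PowerSeries.map f (U p A) = U p (PowerSeries.map f A) := by
  ext n; simp

lemma map_V (p : ℕ) [NeZero p] {R S : Type*} [CommRing R] [CommRing S] (f : R →+* S)
    (A : PowerSeries R) : PowerSeries.map f (V p A) = V p (PowerSeries.map f A) :=
  PowerSeries.map_expand p (NeZero.ne p) f A

/-! ### The sharp operation and `IsPair` -/

/-- `F♯(τ) = (F ∣[k] S)(p τ)`. -/
def sharpFun (p : ℕ) [NeZero p] (k : ℤ) (f : ℍ → ℂ) : ℍ → ℂ :=
  fun τ => (f ∣[k] ModularGroup.S) (Fermat.Agent.S23.LevelRaise.dg p • τ)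

/-- `IsPair p k A B`: there is `F ∈ M_k(Γ₀(p))` with `q`-expansion `A` such that
`F♯ = (F ∣[k] S)(p ·)` has `q`-expansion `B`. -/
def IsPair (p : ℕ) [NeZero p] (k : ℤ) (A B : PowerSeries ℂ) : Prop :=
  ∃ F : ModularForm (Gamma0 p) k, qExpansion 1 F = A ∧ qExpansion 1 (sharpFun p k F) = B

end

end Fermat.Agent.S16.UB
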