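import Mathlib
import Fermat.Agent.Lib.Gamma0Count
import Fermat.Prelude.Thm_CongruenceSubgroup_one_mem_strictPeriods_Gamma0

/-!
# The trace from `Γ₀(p)` to level one and its `q`-expansion  (S16 upper bound, brick U1-trace)

For `F ∈ M_k(Γ₀(p))` the Mathlib trace `ModularForm.trace 𝒮ℒ F ∈ M_k(SL₂(ℤ))` equals
`F + ∑_{j<p} F ∣ S T^j` (`trace_apply`), and if `F ∣ S = ∑ Bₙ q^{n/p}` its `q`-expansion is
`F + p • U_p B` (`exists_trace_of_hasSum`); in terms of `F♯(z) = (F ∣ S)(p z)` this is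
`exists_trace_of_sharp`.
-/

set_option autoImplicit false

open UpperHalfPlane ModularForm ModularFormClass
open scoped MatrixGroups ModularForm

open Matrix.SpecialLinearGroup (mapGL)
open ModularGroup

namespace Fermat.Agent.S16.UB.Trace

noncomputable section

/-- `Γ₀(p)` as a subgroup of `GL₂(ℝ)`. -/
abbrev G0 (p : ℕ) : Subgroup (GL (Fin 2) ℝ) := (CongruenceSubgroup.Gamma0 p).map (mapGL ℝ)

/-- An element of `SL₂(ℤ)` as an element of the subgroup `𝒮ℒ` of `GL₂(ℝ)`. -/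
def toSL (g : SL(2, ℤ)) : ↥(𝒮ℒ : Subgroup (GL (Fin 2) ℝ)) := ⟨mapGL ℝ g, ⟨g, rfl⟩⟩

@[simp] lemma coe_toSL (g : SL(2, ℤ)) : ((toSL g : ↥𝒮ℒ) : GL (Fin 2) ℝ) = mapGL ℝ g := rfl

/-- The matrix `(S * T ^ j)⁻¹`. -/
def colJ (j : ℤ) : SL(2, ℤ) := ⟨!![j, 1; -1, 0], by simp [Matrix.det_fin_two_of]⟩

@[simp] lemma colJ_apply_zero_zero (j : ℤ) : colJ j 0 0 = j := rfl
@[simp] lemma colJ_apply_one_zero (j : ℤ) : colJ j 1 0 = -1 := rfl

lemma ST_mul_colJ (j : ℤ) : S * T ^ j * colJ j = 1 := by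
  apply Subtype.ext
  rw [Matrix.SpecialLinearGroup.coe_mul, Matrix.SpecialLinearGroup.coe_mul, coe_S, coe_T_zpow]
  show !![0, -1; 1, 0] * !![1, j; 0, 1] * !![j, 1; -1, 0] = (1 : Matrix (Fin 2) (Fin 2) ℤ)
  ext i l
  fin_cases i <;> fin_cases l <;> simp [Matrix.mul_apply, Fin.sum_univ_two]

lemma colJ_inv (j : ℤ) : (colJ j)⁻¹ = S * T ^ j :=
  inv_eq_of_mul_eq_one_left (ST_mul_colJ j)

variable (p : ℕ)

lemma mk_toSL_eq_iff (g₁ g₂ : SL(2, ℤ)) :
    (QuotientGroup.mk (toSL g₁) : ↥𝒮ℒ ⧸ (G0 p).subgroupOf 𝒮ℒ) = QuotientGroup.mk (toSL g₂) ↔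
      (p : ℤ) ∣ g₁ 0 0 * g₂ 1 0 - g₂ 0 0 * g₁ 1 0 := by
  rw [QuotientGroup.eq, Subgroup.mem_subgroupOf]
  have h : (((toSL g₁)⁻¹ * toSL g₂ : ↥𝒮ℒ) : GL (Fin 2) ℝ) = mapGL ℝ (g₁⁻¹ * g₂) := by
    simp [toSL]
  rw [h, Subgroup.mem_map_iff_mem Matrix.SpecialLinearGroup.mapGL_injective,
    CongruenceSubgroup.Gamma0_mem, Fermat.Agent.Lib.Gamma0Count.inv_mul_apply_one_zero,
    ZMod.intCast_zmod_eq_zero_iff_dvd]

/-- Coset representatives of `Γ₀(p)` in `SL₂(ℤ)`. -/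
def rep : Option (Fin p) → SL(2, ℤ)
  | none => 1
  | some j => colJ (j : ℕ)

variable [Fact p.Prime]

lemma rep_injective :
    Function.Injective fun o : Option (Fin p) =>
      (QuotientGroup.mk (toSL (rep p o)) : ↥𝒮ℒ ⧸ (G0 p).subgroupOf 𝒮ℒ) := by
  have hp : 1 < p := (Fact.out : p.Prime).one_lt
  have h1 : ¬ (p : ℤ) ∣ -1 := by
    intro h
    have := Int.le_of_dvd (by norm_num) ((dvd_neg).mp h)
    omega
  intro a b hab
  simp only [mk_toSL_eq_iff] at hab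
  rcases a with _ | i <;> rcases b with _ | j
  · rfl
  · exfalso; apply h1
    simpa [rep] using hab
  · exfalso; apply h1
    have : (p : ℤ) ∣ 1 := by simpa [rep] using hab
    exact (dvd_neg).mpr this
  · have h2 : (p : ℤ) ∣ (j : ℕ) - (i : ℕ) := by
      have : (p : ℤ) ∣ (i : ℕ) * (-1) - (j : ℕ) * (-1) := by simpa [rep] using hab
      convert this using 1; ring
    have hi := i.2
    have hj := j.2
    have h3 : ((j : ℕ) : ℤ) - (i : ℕ) = 0 := by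
      apply Int.eq_zero_of_abs_lt_dvd h2
      rw [abs_lt]; constructor <;> omega
    congr 1
    apply Fin.ext
    omega

lemma rep_surjective :
    Function.Surjective fun o : Option (Fin p) =>
      (QuotientGroup.mk (toSL (rep p o)) : ↥𝒮ℒ ⧸ (G0 p).subgroupOf 𝒮ℒ) := by
  have hp : p.Prime := Fact.out
  intro q
  induction q using QuotientGroup.induction_on with
  | H x =>
  obtain ⟨x, g, rfl⟩ := x
  change ∃ o, _ = QuotientGroup.mk (toSL g)
  by_cases hc : (p : ℤ) ∣ g 1 0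
  · refine ⟨none, ?_⟩
    simp only [mk_toSL_eq_iff]
    simpa [rep] using hc
  · have hc' : ((g 1 0 : ℤ) : ZMod p) ≠ 0 := by
      rwa [Ne, ZMod.intCast_zmod_eq_zero_iff_dvd]
    set j : ZMod p := -((g 0 0 : ℤ) : ZMod p) * ((g 1 0 : ℤ) : ZMod p)⁻¹ with hj
    have hjlt : j.val < p := ZMod.val_lt j
    refine ⟨some ⟨j.val, hjlt⟩, ?_⟩
    simp only [mk_toSL_eq_iff]
    have : ((((j.val : ℕ) : ℤ) * g 1 0 - g 0 0 * (-1) : ℤ) : ZMod p) = 0 := by
      push_cast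
      rw [ZMod.natCast_val, ZMod.cast_id', id, hj]
      field_simp
      ring
    rw [ZMod.intCast_zmod_eq_zero_iff_dvd] at this
    simpa [rep] using this

/-- The coset representatives `1`, `(S T^j)⁻¹` (`j < p`) of `Γ₀(p)` in `SL₂(ℤ)`. -/
def repEquiv : Option (Fin p) ≃ ↥𝒮ℒ ⧸ (G0 p).subgroupOf 𝒮ℒ :=
  Equiv.ofBijective _ ⟨rep_injective p, rep_surjective p⟩

variable {p} {k : ℤ}

/-- Slashing by `S * T ^ j` is slashing by `S` followed by the translation `z ↦ z + j`. -/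
lemma slash_ST_apply (f : ℍ → ℂ) (j : ℕ) (z : ℍ) :
    (f ∣[k] (S * T ^ (j : ℤ))) z = (f ∣[k] S) ((j : ℝ) +ᵥ z) := by
  rw [SlashAction.slash_mul, SL_slash_apply (f ∣[k] S) (T ^ (j : ℤ)), modular_T_zpow_smul]
  have h10 : (T ^ (j : ℤ) : SL(2, ℤ)) 1 0 = 0 := by
    show (T ^ (j : ℤ) : SL(2, ℤ)).1 1 0 = 0
    rw [coe_T_zpow]; rfl
  have h11 : (T ^ (j : ℤ) : SL(2, ℤ)) 1 1 = 1 := by
    show (T ^ (j : ℤ) : SL(2, ℤ)).1 1 1 = 1
    rw [coe_T_zpow]; rfl
  have hd : denom (Matrix.SpecialLinearGroup.toGL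
      ((Matrix.SpecialLinearGroup.map (Int.castRingHom ℝ)) (T ^ (j : ℤ)))) (z : ℂ) = 1 := by
    have := ModularGroup.denom_apply (T ^ (j : ℤ)) z
    rw [h10, h11] at this
    simpa using this
  rw [hd, one_zpow, mul_one]
  simp

/-- The trace of `F` from `Γ₀(p)` to level one, pointwise. -/
theorem trace_apply (F : ModularForm (G0 p) k) (z : ℍ) :
    ModularForm.trace 𝒮ℒ F z = F z + ∑ j : Fin p, (⇑F ∣[k] (S * T ^ ((j : ℕ) : ℤ))) z := by
  let := Fintype.ofFinite (↥(𝒮ℒ : Subgroup (GL (Fin 2) ℝ)) ⧸ (G0 p).subgroupOf 𝒮ℒ)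
  rw [ModularForm.coe_trace, Finset.sum_apply]
  rw [← Equiv.sum_comp (repEquiv p), Fintype.sum_option]
  congr 1
  · have h := SlashInvariantForm.quotientFunc_mk (ℋ := 𝒮ℒ) (𝒢 := G0 p) (k := k) F (toSL (rep p none))
    have h' : SlashInvariantForm.quotientFunc F (repEquiv p none) = ⇑F := by
      refine h.trans ?_
      simp [rep, toSL]
    rw [h']
  · refine Finset.sum_congr rfl fun j _ => ?_
    have h := SlashInvariantForm.quotientFunc_mk (ℋ := 𝒮ℒ) (𝒢 := G0 p) (k := k) F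
      (toSL (rep p (some j)))
    have h' : SlashInvariantForm.quotientFunc F (repEquiv p (some j)) =
        ⇑F ∣[k] (S * T ^ ((j : ℕ) : ℤ)) := by
      refine h.trans ?_
      have : ((toSL (rep p (some j)) : ↥𝒮ℒ) : GL (Fin 2) ℝ)⁻¹ =
          mapGL ℝ (S * T ^ ((j : ℕ) : ℤ)) := by
        rw [coe_toSL, ← map_inv]
        simp only [rep]
        rw [colJ_inv]
      rw [this]
      rfl
    rw [h']

/-! ### The `q`-expansion of the trace -/

/-- The operator `U_p` on power series: `∑ aₙ qⁿ ↦ ∑ a_{pn} qⁿ`. -/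
def Up (p : ℕ) (B : PowerSeries ℂ) : PowerSeries ℂ :=
  PowerSeries.mk fun n => PowerSeries.coeff (p * n) B

@[simp] lemma coeff_Up (p : ℕ) (B : PowerSeries ℂ) (n : ℕ) :
    PowerSeries.coeff n (Up p B) = PowerSeries.coeff (p * n) B := by
  simp [Up]

open Function.Periodic in
lemma qParam_vadd (hp : p ≠ 0) (j : ℕ) (z : ℍ) :
    qParam (p : ℝ) (((j : ℝ) +ᵥ z : ℍ) : ℂ) =
      qParam (p : ℝ) (z : ℂ) * Complex.exp (2 * Real.pi * Complex.I / p) ^ j := by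
  have hp' : (p : ℂ) ≠ 0 := by exact_mod_cast hp
  rw [← Complex.exp_nat_mul, qParam, qParam, ← Complex.exp_add]
  congr 1
  simp only [UpperHalfPlane.coe_vadd, Complex.ofReal_natCast]
  field_simp
  ring

open Function.Periodic in
lemma qParam_pow_eq (hp : p ≠ 0) (z : ℂ) : qParam (p : ℝ) z ^ p = qParam 1 z := by
  have hp' : (p : ℂ) ≠ 0 := by exact_mod_cast hp
  rw [qParam, qParam, ← Complex.exp_nat_mul]
  congr 1
  simp only [Complex.ofReal_natCast, Complex.ofReal_one]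
  field_simp

lemma sum_root_pow (hp : p ≠ 0) (n : ℕ) :
    ∑ j : Fin p, (Complex.exp (2 * Real.pi * Complex.I / p) ^ (j : ℕ)) ^ n =
      if p ∣ n then (p : ℂ) else 0 := by
  have hζ := Complex.isPrimitiveRoot_exp p hp
  set ζ := Complex.exp (2 * Real.pi * Complex.I / p) with hζdef
  have h1 : ∑ j : Fin p, (ζ ^ (j : ℕ)) ^ n = ∑ j ∈ Finset.range p, (ζ ^ n) ^ j := by
    rw [Fin.sum_univ_eq_sum_range (fun j => (ζ ^ j) ^ n) p]
    refine Finset.sum_congr rfl fun j _ => ?_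
    rw [← pow_mul, ← pow_mul, mul_comm]
  rw [h1]
  split_ifs with hn
  · have : ζ ^ n = 1 := (hζ.pow_eq_one_iff_dvd n).mpr hn
    simp [this]
  · have hne : ζ ^ n ≠ 1 := fun h => hn ((hζ.pow_eq_one_iff_dvd n).mp h)
    rw [geom_sum_eq hne, ← pow_mul, mul_comm, pow_mul, hζ.pow_eq_one, one_pow, sub_self,
      zero_div]

open Function.Periodic in
/-- If `g` has the expansion `∑ Bₙ q^{n/p}`, then `∑_{j<p} g(z + j) = p ∑ B_{pm} q^m`. -/
lemma hasSum_sum_translates (hp : p ≠ 0) (B : PowerSeries ℂ) (g : ℍ → ℂ)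
    (hB : ∀ z : ℍ, HasSum (fun n : ℕ => PowerSeries.coeff n B • qParam (p : ℝ) z ^ n) (g z))
    (z : ℍ) :
    HasSum (fun m : ℕ => ((p : ℂ) * PowerSeries.coeff (p * m) B) • qParam 1 z ^ m)
      (∑ j : Fin p, g ((j : ℝ) +ᵥ z)) := by
  have h1 : HasSum (fun n : ℕ => ∑ j : Fin p,
      PowerSeries.coeff n B • qParam (p : ℝ) (((((j : ℕ) : ℝ) +ᵥ z : ℍ)) : ℂ) ^ n)
      (∑ j : Fin p, g (((j : ℕ) : ℝ) +ᵥ z)) :=
    hasSum_sum fun j _ => hB (((j : ℕ) : ℝ) +ᵥ z)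
  have h2 : (fun n : ℕ => ∑ j : Fin p,
      PowerSeries.coeff n B • qParam (p : ℝ) (((((j : ℕ) : ℝ) +ᵥ z : ℍ)) : ℂ) ^ n) =
      fun n : ℕ => if p ∣ n then ((p : ℂ) * PowerSeries.coeff n B) * qParam (p : ℝ) z ^ n
        else 0 := by
    funext n
    have : ∀ j : Fin p, PowerSeries.coeff n B •
        qParam (p : ℝ) (((((j : ℕ) : ℝ) +ᵥ z : ℍ)) : ℂ) ^ n =
        (PowerSeries.coeff n B * qParam (p : ℝ) z ^ n) *
          (Complex.exp (2 * Real.pi * Complex.I / p) ^ (j : ℕ)) ^ n := by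
      intro j
      rw [qParam_vadd hp, mul_pow, smul_eq_mul]
      ring
    simp_rw [this]
    rw [← Finset.mul_sum, sum_root_pow hp]
    split_ifs <;> ring
  rw [h2] at h1
  have hinj : Function.Injective fun m : ℕ => p * m :=
    fun a b hab => Nat.eq_of_mul_eq_mul_left (Nat.pos_of_ne_zero hp) hab
  have h3 := (hinj.hasSum_iff (f := fun n : ℕ =>
      if p ∣ n then ((p : ℂ) * PowerSeries.coeff n B) * qParam (p : ℝ) z ^ n else 0) (by
    intro n hn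
    have : ¬ p ∣ n := fun ⟨m, hm⟩ => hn ⟨m, hm.symm⟩
    simp [this])).mpr h1
  convert h3 using 2 with m
  simp only [Function.comp_apply, dvd_mul_right, if_true, smul_eq_mul]
  rw [pow_mul, qParam_pow_eq hp]

open Function.Periodic in
/-- **Trace formula** (hypothesis form).  If `F ∣ S` has the expansion `∑ Bₙ q^{n/p}`
(equivalently `F♯(z) := (F ∣ S)(p z)` has `q`-expansion `B`), then the trace of `F` to level one
has `q`-expansion `F + p • U_p B`. -/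
theorem exists_trace_of_hasSum (F : ModularForm (G0 p) k) (B : PowerSeries ℂ)
    (hB : ∀ z : ℍ, HasSum (fun n : ℕ => PowerSeries.coeff n B • qParam (p : ℝ) z ^ n)
      ((⇑F ∣[k] S) z)) :
    ∃ f : ModularForm 𝒮ℒ k,
      (∀ z, f z = F z + ∑ j : Fin p, (⇑F ∣[k] (S * T ^ ((j : ℕ) : ℤ))) z) ∧
      qExpansion 1 f = qExpansion 1 F + (p : ℂ) • Up p B := by
  have hp : p ≠ 0 := (Fact.out : p.Prime).ne_zero
  refine ⟨ModularForm.trace 𝒮ℒ F, trace_apply F, ?_⟩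
  have hΓ : (1 : ℝ) ∈ (G0 p).strictPeriods := CongruenceSubgroup.one_mem_strictPeriods_Gamma0 p
  have : Fact (IsCusp OnePoint.infty (G0 p)) :=
    ⟨(G0 p).isCusp_of_mem_strictPeriods one_pos hΓ⟩
  have hsum : ∀ z : ℍ, HasSum (fun m : ℕ => (PowerSeries.coeff m (qExpansion 1 F) +
      (p : ℂ) * PowerSeries.coeff (p * m) B) • qParam 1 z ^ m) (ModularForm.trace 𝒮ℒ F z) := by
    intro z
    rw [trace_apply]
    have h1 := ModularForm.hasSum_qExpansion (f := F) one_pos hΓ z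
    have h2 := hasSum_sum_translates hp B (⇑F ∣[k] S) hB z
    have h3 : ∑ j : Fin p, (⇑F ∣[k] (S * T ^ ((j : ℕ) : ℤ))) z =
        ∑ j : Fin p, (⇑F ∣[k] S) (((j : ℕ) : ℝ) +ᵥ z) :=
      Finset.sum_congr rfl fun j _ => slash_ST_apply _ _ _
    rw [h3]
    convert h1.add h2 using 2 with m
    simp only [smul_eq_mul]
    ring
  ext m
  have := ModularFormClass.qExpansion_coeff_unique one_pos one_mem_strictPeriods_SL
    (f := ModularForm.trace 𝒮ℒ F) hsum m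
  rw [← this]
  simp [Up]

open Function.Periodic in
/-- **Trace formula** (sharp form).  Let `F, F♯ ∈ M_k(Γ₀(p))` with `F♯(z) = (F ∣ S)(p z)`
(the map `z ↦ p z` on `ℍ` is given as any `σ` with `σ z = p * z`).  Then there is a level-one
form `f = F + ∑_{j<p} F ∣ S T^j` with `q`-expansion `F + p • U_p F♯`. -/
theorem exists_trace_of_sharp (F Fs : ModularForm (G0 p) k) (σ : ℍ → ℍ)
    (hσ : ∀ z : ℍ, (σ z : ℂ) = (p : ℂ) * z) (hFs : ∀ z : ℍ, Fs z = (⇑F ∣[k] S) (σ z)) :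
    ∃ f : ModularForm 𝒮ℒ k,
      (∀ z, f z = F z + ∑ j : Fin p, (⇑F ∣[k] (S * T ^ ((j : ℕ) : ℤ))) z) ∧
      qExpansion 1 f = qExpansion 1 F + (p : ℂ) • Up p (qExpansion 1 Fs) := by
  have hp : p ≠ 0 := (Fact.out : p.Prime).ne_zero
  have hp' : (p : ℂ) ≠ 0 := by exact_mod_cast hp
  have hpos : (0 : ℝ) < p := by exact_mod_cast Nat.pos_of_ne_zero hp
  have hΓ : (1 : ℝ) ∈ (G0 p).strictPeriods := CongruenceSubgroup.one_mem_strictPeriods_Gamma0 p
  have : Fact (IsCusp OnePoint.infty (G0 p)) :=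
    ⟨(G0 p).isCusp_of_mem_strictPeriods one_pos hΓ⟩
  refine exists_trace_of_hasSum F (qExpansion 1 Fs) fun z => ?_
  have him : 0 < ((z : ℂ) / (p : ℂ)).im := by
    have : ((z : ℂ) / (p : ℂ)).im = z.im / p := by
      rw [show ((p : ℂ)) = ((p : ℝ) : ℂ) by simp, Complex.div_ofReal_im]
      rfl
    rw [this]
    exact div_pos z.im_pos hpos
  set w : ℍ := ⟨(z : ℂ) / (p : ℂ), him⟩ with hw
  have hσw : σ w = z := by
    apply UpperHalfPlane.ext
    rw [hσ w]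
    show (p : ℂ) * ((z : ℂ) / (p : ℂ)) = z
    field_simp
  have h1 := ModularForm.hasSum_qExpansion (f := Fs) one_pos hΓ w
  rw [hFs w, hσw] at h1
  have hq : qParam 1 (w : ℂ) = qParam (p : ℝ) (z : ℂ) := by
    show qParam 1 ((z : ℂ) / (p : ℂ)) = qParam (p : ℝ) (z : ℂ)
    rw [qParam, qParam]
    congr 1
    simp only [Complex.ofReal_one, Complex.ofReal_natCast]
    field_simp
  rw [hq] at h1
  exact h1

end

end Fermat.Agent.S16.UB.Trace
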