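import Mathlib
import Fermat.Agent.S16.UB.PairDefs
import Fermat.Agent.S16.UB.Trace

/-!
# S16 upper bound: the trace formula for `IsPair`

`isPair_trace`: if `IsPair p k A B` (`p` prime) then `A + p • U_p B` is the `q`-expansion of a
level-one modular form of weight `k` (namely the trace of `F`).  Built on `Trace.lean`
(`exists_trace_of_hasSum`) with two bridges:

* `qExpansion_scale`: `qExpansion 1 (g (p ·)) = qExpansion p g` for *any* function `g`
  (a formal statement about cusp functions);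
* `hasSum_slash_S`: `F ∣[k] S` has a `q^{1/p}`-expansion (via `ModularForm.translate`).
-/

set_option autoImplicit false

open UpperHalfPlane ModularForm CongruenceSubgroup
open scoped MatrixGroups ModularForm Pointwise
open Matrix.SpecialLinearGroup (mapGL)
open ModularGroup

namespace Fermat.Agent.S16.UB.PairTrace

open Fermat.Agent.S16.UB Fermat.Agent.S16.UB.Trace Fermat.Agent.S23.LevelRaise

noncomputable section

/-! ### `qExpansion 1 (g (p ·)) = qExpansion p g` -/

open Function.Periodic in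
lemma invQParam_nat (p : ℕ) (q : ℂ) : invQParam (p : ℝ) q = (p : ℂ) * invQParam 1 q := by
  simp only [invQParam, Complex.ofReal_natCast, Complex.ofReal_one]
  ring

open Function.Periodic in
lemma cuspFunction_scale_of_ne (p : ℕ) [NeZero p] (g : ℍ → ℂ) {q : ℂ} (hq0 : q ≠ 0)
    (hq1 : ‖q‖ < 1) :
    ((fun τ : ℍ => g (dg p • τ)) ∘ ofComplex) (invQParam 1 q) =
      (g ∘ ofComplex) (invQParam (p : ℝ) q) := by
  have him : 0 < (invQParam 1 q).im := im_invQParam_pos_of_norm_lt_one one_pos hq1 hq0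
  have hp : (0 : ℝ) < p := by exact_mod_cast Nat.pos_of_ne_zero (NeZero.ne p)
  have him' : 0 < (invQParam (p : ℝ) q).im := im_invQParam_pos_of_norm_lt_one hp hq1 hq0
  simp only [Function.comp_apply]
  congr 1
  apply UpperHalfPlane.ext
  rw [coe_dg_smul, ofComplex_apply_of_im_pos him, ofComplex_apply_of_im_pos him']
  show (p : ℂ) * invQParam 1 q = invQParam (p : ℝ) q
  rw [invQParam_nat]

open Function.Periodic in
/-- For any function `g` on `ℍ`, the `q`-expansion of `τ ↦ g (p τ)` at width `1` is the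
`q`-expansion of `g` at width `p`. -/
theorem qExpansion_scale (p : ℕ) [NeZero p] (g : ℍ → ℂ) :
    qExpansion 1 (fun τ : ℍ => g (dg p • τ)) = qExpansion (p : ℝ) g := by
  have hev : ∀ᶠ q in nhdsWithin (0 : ℂ) {0}ᶜ,
      (((fun τ : ℍ => g (dg p • τ)) ∘ ofComplex) ∘ invQParam 1) q =
        ((g ∘ ofComplex) ∘ invQParam (p : ℝ)) q := by
    have hball : Metric.ball (0 : ℂ) 1 ∈ nhds (0 : ℂ) := Metric.ball_mem_nhds 0 one_pos
    filter_upwards [nhdsWithin_le_nhds hball, self_mem_nhdsWithin] with q hq hq0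
    exact cuspFunction_scale_of_ne p g hq0 (by simpa using hq)
  have hzero : UpperHalfPlane.cuspFunction 1 (fun τ : ℍ => g (dg p • τ)) 0 =
      UpperHalfPlane.cuspFunction (p : ℝ) g 0 := by
    simp only [UpperHalfPlane.cuspFunction, Function.Periodic.cuspFunction, Function.update_self]
    unfold Filter.limUnder
    rw [Filter.map_congr hev]
  have hEq : UpperHalfPlane.cuspFunction 1 (fun τ : ℍ => g (dg p • τ)) =ᶠ[nhds 0]
      UpperHalfPlane.cuspFunction (p : ℝ) g := by
    have hball : Metric.ball (0 : ℂ) 1 ∈ nhds (0 : ℂ) := Metric.ball_mem_nhds 0 one_pos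
    filter_upwards [hball] with q hq
    by_cases hq0 : q = 0
    · rw [hq0, hzero]
    · simp only [UpperHalfPlane.cuspFunction]
      rw [Function.Periodic.cuspFunction_eq_of_nonzero _ _ hq0,
        Function.Periodic.cuspFunction_eq_of_nonzero _ _ hq0]
      exact cuspFunction_scale_of_ne p g hq0 (by simpa using hq)
  ext m
  rw [qExpansion_coeff, qExpansion_coeff, hEq.iteratedDeriv_eq m]

/-- `qExpansion 1 (F♯) = qExpansion p (F ∣[k] S)`. -/
theorem qExpansion_sharpFun (p : ℕ) [NeZero p] (k : ℤ) (f : ℍ → ℂ) :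
    qExpansion 1 (sharpFun p k f) = qExpansion (p : ℝ) (f ∣[k] S) :=
  qExpansion_scale p (f ∣[k] S)

/-! ### The `q^{1/p}`-expansion of `F ∣ S` -/

/-- The matrix `S T^p S⁻¹`. -/
def lowP (p : ℕ) : SL(2, ℤ) := ⟨!![1, 0; -(p : ℤ), 1], by simp [Matrix.det_fin_two_of]⟩

lemma lowP_mem (p : ℕ) : lowP p ∈ Gamma0 p := by
  rw [Gamma0_mem]
  show (((-(p : ℤ) : ℤ)) : ZMod p) = 0
  simp

lemma S_mul_upperRight (p : ℕ) :
    mapGL ℝ S * Matrix.GeneralLinearGroup.upperRightHom (p : ℝ) = mapGL ℝ (lowP p) * mapGL ℝ S := by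
  apply Matrix.GeneralLinearGroup.ext
  intro i j
  rw [Matrix.GeneralLinearGroup.coe_mul, Matrix.GeneralLinearGroup.coe_mul,
    Matrix.SpecialLinearGroup.mapGL_coe_matrix, Matrix.SpecialLinearGroup.mapGL_coe_matrix,
    Matrix.SpecialLinearGroup.map_apply_coe, Matrix.SpecialLinearGroup.map_apply_coe, coe_S]
  fin_cases i <;> fin_cases j <;>
    simp [lowP, Matrix.mul_apply, Fin.sum_univ_two]

lemma nat_mem_strictPeriods_conj (p : ℕ) :
    (p : ℝ) ∈ (ConjAct.toConjAct (mapGL ℝ S)⁻¹ • Trace.G0 p).strictPeriods := by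
  rw [Subgroup.mem_strictPeriods_iff, Subgroup.mem_pointwise_smul_iff_inv_smul_mem, ← map_inv,
    inv_inv, ConjAct.toConjAct_smul, S_mul_upperRight, mul_inv_cancel_right]
  exact Subgroup.mem_map_of_mem _ (lowP_mem p)

open Function.Periodic in
/-- `F ∣[k] S` has a `q`-expansion in `q^{1/p}`. -/
theorem hasSum_slash_S (p : ℕ) [NeZero p] {k : ℤ} (F : ModularForm (Trace.G0 p) k) (z : ℍ) :
    HasSum (fun n : ℕ => PowerSeries.coeff n (qExpansion (p : ℝ) (⇑F ∣[k] S)) •
      qParam (p : ℝ) z ^ n) ((⇑F ∣[k] S) z) := by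
  have hp : (0 : ℝ) < p := by exact_mod_cast Nat.pos_of_ne_zero (NeZero.ne p)
  have hΓ := nat_mem_strictPeriods_conj p
  have : Fact (IsCusp OnePoint.infty (ConjAct.toConjAct (mapGL ℝ S)⁻¹ • Trace.G0 p)) :=
    ⟨Subgroup.isCusp_of_mem_strictPeriods hp hΓ⟩
  have h := ModularForm.hasSum_qExpansion (f := ModularForm.translate F (mapGL ℝ S)) hp hΓ z
  have hcoe : (⇑(ModularForm.translate F (mapGL ℝ S)) : ℍ → ℂ) = ⇑F ∣[k] S := rfl
  rw [hcoe] at h
  exact h

/-! ### The trace formula for `IsPair` -/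

lemma Up_eq_U (p : ℕ) (B : PowerSeries ℂ) : Trace.Up p B = U p B := by
  ext n
  simp

/-- **Trace formula** for `IsPair`: `Tr F = F + p · U_p(F♯)` is a level-one form. -/
theorem isPair_trace {p : ℕ} [NeZero p] {k : ℤ} {A B : PowerSeries ℂ} (hp : p.Prime)
    (h : IsPair p k A B) :
    ∃ f : ModularForm 𝒮ℒ k, qExpansion 1 f = A + (p : ℂ) • U p B := by
  obtain ⟨F, rfl, rfl⟩ := h
  have : Fact p.Prime := ⟨hp⟩
  obtain ⟨f, -, hf⟩ := Trace.exists_trace_of_hasSum (p := p) (k := k) F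
    (qExpansion (p : ℝ) (⇑F ∣[k] S)) (hasSum_slash_S p F)
  exact ⟨f, by rw [hf, Up_eq_U, qExpansion_sharpFun]⟩

end

end Fermat.Agent.S16.UB.PairTrace
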