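import Mathlib
import Fermat.Prelude.Def_ModularForm_HeckeOperator
import Fermat.Agent.S23.LevelRaise
import Fermat.Agent.S16.UB.PairDefs
import Fermat.Agent.S16.UB.PairTrace

/-!
# S16 upper bound, brick (U1): the pair calculus `IsPair`

See `PairDefs.lean` for `V`, `U`, `sharpFun`, `IsPair`.  This file proves the closure lemmas
`IsPair.add/smul/neg/sub/mul/pow`, `IsPair.ofLevelOne`, `IsPair.ofLevelRaise`, `IsPair.symm`,
`IsPair.trace`, `IsPair.weight_two`, `exists_isPair`.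
-/

set_option autoImplicit false

open UpperHalfPlane ModularForm CongruenceSubgroup Matrix.SpecialLinearGroup
open scoped MatrixGroups ModularForm Pointwise

namespace Fermat.Agent.S16.UB

noncomputable section

open Fermat.Agent.S23.LevelRaise

/-- The Fricke matrix `W = S · diag(p,1) = (0 -1; p 0)`. -/
def Wmat (p : ℕ) [NeZero p] : GL (Fin 2) ℝ := mapGL ℝ ModularGroup.S * dg p

/-- Conjugate of `γ ∈ Γ₀(p)` by `W`: `(d, -c/p; -pb, a)`. -/
def conjW (p : ℕ) (γ : SL(2, ℤ)) (c' : ℤ) (hc : γ 1 0 = p * c') : SL(2, ℤ) :=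
  ⟨!![γ 1 1, -c'; -(p : ℤ) * γ 0 1, γ 0 0], by
    have h := γ.det_coe
    rw [Matrix.det_fin_two] at h
    rw [Matrix.det_fin_two_of]
    rw [hc] at h
    linarith⟩

lemma coe_conjW (p : ℕ) (γ : SL(2, ℤ)) (c' : ℤ) (hc : γ 1 0 = p * c') :
    (conjW p γ c' hc : Matrix (Fin 2) (Fin 2) ℤ) = !![γ 1 1, -c'; -(p : ℤ) * γ 0 1, γ 0 0] := rfl

lemma Wmat_mul_mapGL (p : ℕ) [NeZero p] (γ : SL(2, ℤ)) (c' : ℤ) (hc : γ 1 0 = p * c') :
    Wmat p * mapGL ℝ γ = mapGL ℝ (conjW p γ c' hc) * Wmat p := by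
  apply Matrix.GeneralLinearGroup.ext
  intro i j
  have hc' : ((γ 1 0 : ℤ) : ℝ) = p * c' := by exact_mod_cast congrArg (Int.cast : ℤ → ℝ) hc
  simp only [Wmat, Matrix.GeneralLinearGroup.coe_mul, mapGL_coe_matrix,
    Matrix.SpecialLinearGroup.map_apply_coe, coe_conjW]
  fin_cases i <;> fin_cases j <;>
    simp [dg, Matrix.GeneralLinearGroup.mkOfDetNeZero, Matrix.mul_apply, Fin.sum_univ_two,
      hc', mul_comm, ModularGroup.S]

lemma gamma0_le_conjW (p : ℕ) [NeZero p] :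
    (Gamma0 p).map (mapGL ℝ) ≤
      ConjAct.toConjAct (Wmat p)⁻¹ • ((Gamma0 p).map (mapGL ℝ) : Subgroup (GL (Fin 2) ℝ)) := by
  rintro x ⟨γ, hγ, rfl⟩
  rw [Subgroup.mem_pointwise_smul_iff_inv_smul_mem, ← map_inv, inv_inv, ConjAct.toConjAct_smul]
  rw [SetLike.mem_coe, Gamma0_mem] at hγ
  obtain ⟨c', hc⟩ : (p : ℤ) ∣ γ 1 0 := (ZMod.intCast_zmod_eq_zero_iff_dvd _ _).mp hγ
  refine ⟨conjW p γ c' hc, ?_, by rw [Wmat_mul_mapGL p γ c' hc, mul_inv_cancel_right]⟩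
  rw [SetLike.mem_coe, Gamma0_mem]
  simp [conjW]

/-- `F♯` as a modular form on `Γ₀(p)`. -/
def sharp {p : ℕ} [NeZero p] {k : ℤ} (F : ModularForm (Gamma0 p) k) : ModularForm (Gamma0 p) k :=
  ((p : ℂ) ^ (1 - k)) • restrict (gamma0_le_conjW p) (ModularForm.translate F (Wmat p))

lemma sharp_apply {p : ℕ} [NeZero p] {k : ℤ} (F : ModularForm (Gamma0 p) k) (τ : ℍ) :
    sharp F τ = sharpFun p k F τ := by
  have hN : (p : ℂ) ≠ 0 := Nat.cast_ne_zero.mpr (NeZero.ne p)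
  have h1 : (restrict (gamma0_le_conjW p) (ModularForm.translate F (Wmat p))) τ
      = (((F : ℍ → ℂ) ∣[k] ModularGroup.S) ∣[k] dg p) τ := by
    rw [coe_restrict, ModularForm.coe_translate, Wmat, SlashAction.slash_mul]
    rfl
  simp only [sharp, smul_apply, h1, slash_dg_apply, smul_eq_mul, sharpFun]
  rw [mul_comm, mul_assoc, ← zpow_add₀ hN]
  simp

lemma coe_sharp {p : ℕ} [NeZero p] {k : ℤ} (F : ModularForm (Gamma0 p) k) :
    ⇑(sharp F) = sharpFun p k F := funext (sharp_apply F)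

/-! ### Elementary properties of `sharpFun` -/

lemma hΓ0 (p : ℕ) : (1 : ℝ) ∈ ((Gamma0 p).map (mapGL ℝ) : Subgroup (GL (Fin 2) ℝ)).strictPeriods :=
  CongruenceSubgroup.one_mem_strictPeriods_Gamma0 p

lemma sharpFun_add (p : ℕ) [NeZero p] (k : ℤ) (f g : ℍ → ℂ) :
    sharpFun p k (f + g) = sharpFun p k f + sharpFun p k g := by
  funext τ
  simp [sharpFun, SlashAction.add_slash]

lemma sharpFun_smul (p : ℕ) [NeZero p] (k : ℤ) (c : ℂ) (f : ℍ → ℂ) :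
    sharpFun p k (c • f) = c • sharpFun p k f := by
  funext τ
  simp [sharpFun]

lemma sharpFun_zero (p : ℕ) [NeZero p] (k : ℤ) : sharpFun p k (0 : ℍ → ℂ) = 0 := by
  funext τ
  simp [sharpFun, SlashAction.zero_slash]

lemma sharpFun_mul (p : ℕ) [NeZero p] (k₁ k₂ : ℤ) (f g : ℍ → ℂ) :
    sharpFun p (k₁ + k₂) (f * g) = sharpFun p k₁ f * sharpFun p k₂ g := by
  funext τ
  simp [sharpFun, mul_slash_SL2]

lemma sharpFun_one (p : ℕ) [NeZero p] : sharpFun p 0 (1 : ℍ → ℂ) = 1 := by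
  funext τ
  simp [sharpFun, is_invariant_one]

/-- Explicit formula: `F♯(τ) = F(S • (p τ)) · (p τ)^{-k}`. -/
lemma sharpFun_apply (p : ℕ) [NeZero p] (k : ℤ) (f : ℍ → ℂ) (τ : ℍ) :
    sharpFun p k f τ = f (ModularGroup.S • (dg p • τ)) * ((p : ℂ) * (τ : ℂ)) ^ (-k) := by
  rw [sharpFun, SL_slash_apply, ModularGroup.denom_S, coe_dg_smul]

variable {p : ℕ} [NeZero p] {k k₁ k₂ : ℤ} {A B A₁ B₁ A₂ B₂ : PowerSeries ℂ}

theorem exists_isPair (F : ModularForm (Gamma0 p) k) : ∃ B, IsPair p k (qExpansion 1 F) B :=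
  ⟨_, F, rfl, rfl⟩

theorem IsPair.congr_weight (h : IsPair p k A B) {k' : ℤ} (hk : k = k') : IsPair p k' A B :=
  hk ▸ h

theorem IsPair.zero : IsPair p k 0 0 := by
  refine ⟨0, ?_, ?_⟩
  · exact UpperHalfPlane.qExpansion_zero 1
  · rw [show ((0 : ModularForm (Gamma0 p) k) : ℍ → ℂ) = 0 from rfl, sharpFun_zero]
    exact UpperHalfPlane.qExpansion_zero 1

theorem IsPair.add (h₁ : IsPair p k A₁ B₁) (h₂ : IsPair p k A₂ B₂) :
    IsPair p k (A₁ + A₂) (B₁ + B₂) := by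
  obtain ⟨F₁, rfl, rfl⟩ := h₁
  obtain ⟨F₂, rfl, rfl⟩ := h₂
  refine ⟨F₁ + F₂, ?_, ?_⟩
  · exact ModularForm.qExpansion_add one_pos (hΓ0 p) F₁ F₂
  · rw [show ((F₁ + F₂ : ModularForm (Gamma0 p) k) : ℍ → ℂ) = ⇑F₁ + ⇑F₂ from rfl, sharpFun_add,
      ← coe_sharp, ← coe_sharp]
    exact ModularForm.qExpansion_add one_pos (hΓ0 p) (sharp F₁) (sharp F₂)

theorem IsPair.smul (c : ℂ) (h : IsPair p k A B) : IsPair p k (c • A) (c • B) := by
  obtain ⟨F, rfl, rfl⟩ := h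
  refine ⟨c • F, ?_, ?_⟩
  · exact ModularForm.qExpansion_smul one_pos (hΓ0 p) c F
  · rw [show ((c • F : ModularForm (Gamma0 p) k) : ℍ → ℂ) = c • ⇑F from rfl, sharpFun_smul,
      ← coe_sharp]
    exact ModularForm.qExpansion_smul one_pos (hΓ0 p) c (sharp F)

theorem IsPair.neg (h : IsPair p k A B) : IsPair p k (-A) (-B) := by
  simpa using h.smul (-1)

theorem IsPair.sub (h₁ : IsPair p k A₁ B₁) (h₂ : IsPair p k A₂ B₂) :
    IsPair p k (A₁ - A₂) (B₁ - B₂) := by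
  simpa [sub_eq_add_neg] using h₁.add h₂.neg

theorem IsPair.mul (h₁ : IsPair p k₁ A₁ B₁) (h₂ : IsPair p k₂ A₂ B₂) :
    IsPair p (k₁ + k₂) (A₁ * A₂) (B₁ * B₂) := by
  obtain ⟨F₁, rfl, rfl⟩ := h₁
  obtain ⟨F₂, rfl, rfl⟩ := h₂
  refine ⟨F₁.mul F₂, ?_, ?_⟩
  · exact ModularForm.qExpansion_mul one_pos (hΓ0 p) F₁ F₂
  · rw [show ((F₁.mul F₂ : ModularForm (Gamma0 p) (k₁ + k₂)) : ℍ → ℂ) = ⇑F₁ * ⇑F₂ from rfl,
      sharpFun_mul, ← coe_sharp, ← coe_sharp]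
    exact ModularForm.qExpansion_mul_coe one_pos (hΓ0 p) (sharp F₁) (sharp F₂)

theorem IsPair.one : IsPair p 0 1 1 := by
  refine ⟨1, ?_, ?_⟩
  · exact ModularForm.qExpansion_one
  · rw [show ((1 : ModularForm (Gamma0 p) 0) : ℍ → ℂ) = 1 from rfl, sharpFun_one]
    exact UpperHalfPlane.qExpansion_one 1

theorem IsPair.pow (h : IsPair p k A B) (a : ℕ) : IsPair p (a * k) (A ^ a) (B ^ a) := by
  induction a with
  | zero => simpa using (IsPair.one (p := p))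
  | succ a ih =>
    have := ih.mul h
    rw [pow_succ, pow_succ]
    exact this.congr_weight (by push_cast; ring)

/-! ### Points of the upper half plane -/

lemma coe_S_smul (τ : ℍ) : ((ModularGroup.S • τ : ℍ) : ℂ) = -(τ : ℂ)⁻¹ := by
  rw [UpperHalfPlane.modular_S_smul, UpperHalfPlane.coe_mk, inv_neg]

lemma dg_S_dg_smul (p : ℕ) [NeZero p] (τ : ℍ) :
    dg p • (ModularGroup.S • (dg p • τ)) = ModularGroup.S • τ := by
  have hN : (p : ℂ) ≠ 0 := Nat.cast_ne_zero.mpr (NeZero.ne p)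
  apply UpperHalfPlane.ext
  rw [coe_dg_smul, coe_S_smul, coe_S_smul, coe_dg_smul]
  field_simp

lemma S_S_smul (τ : ℍ) : ModularGroup.S • (ModularGroup.S • τ) = τ := by
  apply UpperHalfPlane.ext
  rw [coe_S_smul, coe_S_smul]
  simp

/-- A level-one form satisfies `f(S • τ) = τ^k f(τ)`. -/
lemma levelOne_S_smul (f : ModularForm 𝒮ℒ k) (τ : ℍ) :
    f (ModularGroup.S • τ) = (τ : ℂ) ^ k * f τ := by
  have h1 : ((f : ℍ → ℂ) ∣[k] ModularGroup.S) = ⇑f :=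
    f.slash_action_eq' (mapGL ℝ ModularGroup.S) ⟨ModularGroup.S, rfl⟩
  have h2 := (slash_action_eq'_iff k f ModularGroup.S τ).mp (congrFun h1 τ)
  rw [h2]
  simp [ModularGroup.S]

/-- A level-one form `f`, viewed on `Γ₀(p)`: `f♯ = f(p ·)`. -/
theorem IsPair.ofLevelOne (f : ModularForm 𝒮ℒ k) :
    IsPair p k (qExpansion 1 f) (V p (qExpansion 1 f)) := by
  have hle : ((Gamma0 p).map (mapGL ℝ) : Subgroup (GL (Fin 2) ℝ)) ≤ 𝒮ℒ :=
    Subgroup.map_le_range _ _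
  refine ⟨restrict hle f, rfl, ?_⟩
  have h1 : ((f : ℍ → ℂ) ∣[k] ModularGroup.S) = ⇑f :=
    f.slash_action_eq' (mapGL ℝ ModularGroup.S) ⟨ModularGroup.S, rfl⟩
  have h2 : sharpFun p k (restrict hle f) = ⇑(levelRaise p f) := by
    funext τ
    rw [coe_restrict, sharpFun, h1, levelRaise_apply]
  rw [h2]
  ext n
  rw [qExpansion_levelRaise_coeff, coeff_V]

/-- `F = f(p ·)` for a level-one form `f`: `F♯ = p^{-k} f`. -/
theorem IsPair.ofLevelRaise (f : ModularForm 𝒮ℒ k) :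
    IsPair p k (V p (qExpansion 1 f)) (((p : ℂ) ^ (-k)) • qExpansion 1 f) := by
  have hN : (p : ℂ) ≠ 0 := Nat.cast_ne_zero.mpr (NeZero.ne p)
  refine ⟨levelRaise p f, ?_, ?_⟩
  · ext n
    rw [qExpansion_levelRaise_coeff, coeff_V]
  · have h2 : sharpFun p k (levelRaise p f) = ((p : ℂ) ^ (-k)) • ⇑f := by
      funext τ
      have hτ : (τ : ℂ) ≠ 0 := UpperHalfPlane.ne_zero τ
      rw [sharpFun_apply, levelRaise_apply, dg_S_dg_smul, levelOne_S_smul, Pi.smul_apply,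
        smul_eq_mul, mul_zpow, zpow_neg, zpow_neg]
      field_simp
    rw [h2]
    exact ModularForm.qExpansion_smul one_pos one_mem_strictPeriods_SL _ f

/-- `F♯♯ = p^{-k} F` for even `k`. -/
theorem IsPair.symm (hk : Even k) (h : IsPair p k A B) :
    IsPair p k B (((p : ℂ) ^ (-k)) • A) := by
  have hN : (p : ℂ) ≠ 0 := Nat.cast_ne_zero.mpr (NeZero.ne p)
  obtain ⟨F, rfl, rfl⟩ := h
  refine ⟨sharp F, by rw [coe_sharp], ?_⟩
  have h2 : sharpFun p k (sharp F) = ((p : ℂ) ^ (-k)) • ⇑F := by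
    funext τ
    have hτ : (τ : ℂ) ≠ 0 := UpperHalfPlane.ne_zero τ
    rw [sharpFun_apply, sharp_apply, sharpFun_apply, dg_S_dg_smul, S_S_smul,
      coe_S_smul, coe_dg_smul, Pi.smul_apply, smul_eq_mul]
    have h3 : ((p : ℂ) * -((p : ℂ) * (τ : ℂ))⁻¹) ^ (-k) = (τ : ℂ) ^ k := by
      have : (p : ℂ) * -((p : ℂ) * (τ : ℂ))⁻¹ = -(τ : ℂ)⁻¹ := by
        field_simp
      rw [this, zpow_neg, ← inv_zpow, inv_neg, inv_inv, hk.neg_zpow]
    rw [h3, mul_zpow, zpow_neg, zpow_neg]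
    field_simp
  rw [h2]
  exact ModularForm.qExpansion_smul one_pos (hΓ0 p) _ F

/-- **Trace formula**: `Tr F = F + p · U_p(F♯)` is a level-one form (`p` prime). -/
theorem IsPair.trace (hp : p.Prime) (h : IsPair p k A B) :
    ∃ f : ModularForm 𝒮ℒ k, qExpansion 1 f = A + (p : ℂ) • U p B :=
  PairTrace.isPair_trace hp h

/-- In weight `2` (no level-one forms): `F♯ = -(1/p) U_p F`. -/
theorem IsPair.weight_two (hp : p.Prime) (h : IsPair p 2 A B) :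
    B = -((p : ℂ)⁻¹) • U p A := by
  have hN : (p : ℂ) ≠ 0 := Nat.cast_ne_zero.mpr (NeZero.ne p)
  obtain ⟨f, hf⟩ := (h.symm (by decide : Even (2 : ℤ))).trace hp
  have hf0 : f = 0 := rank_zero_iff_forall_zero.mp levelOne_weight_two_rank_zero f
  have h0 : qExpansion 1 ((0 : ModularForm 𝒮ℒ 2) : ℍ → ℂ) = 0 := UpperHalfPlane.qExpansion_zero 1
  rw [hf0, h0, map_smul] at hf
  have h1 : B = -((p : ℂ) • ((p : ℂ) ^ (-2 : ℤ) • U p A)) := eq_neg_of_add_eq_zero_left hf.symm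
  have h2 : (p : ℂ) * (p : ℂ) ^ (-2 : ℤ) = (p : ℂ)⁻¹ := by
    rw [zpow_neg, zpow_two]
    field_simp
  rw [h1, smul_smul, h2, _root_.neg_smul]

/-- In weight `2`: `U_p U_p F = F`. -/
theorem IsPair.U_U_weight_two (hp : p.Prime) (h : IsPair p 2 A B) : U p (U p A) = A := by
  have hN : (p : ℂ) ≠ 0 := Nat.cast_ne_zero.mpr (NeZero.ne p)
  obtain ⟨f, hf⟩ := h.trace hp
  have hf0 : f = 0 := rank_zero_iff_forall_zero.mp levelOne_weight_two_rank_zero f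
  have h0 : qExpansion 1 ((0 : ModularForm 𝒮ℒ 2) : ℍ → ℂ) = 0 := UpperHalfPlane.qExpansion_zero 1
  rw [hf0, h0, h.weight_two hp, map_smul, smul_smul] at hf
  have h2 : (p : ℂ) * -((p : ℂ)⁻¹) = -1 := by field_simp
  rw [h2, neg_one_smul] at hf
  exact (eq_of_sub_eq_zero (by rw [← sub_eq_add_neg] at hf; exact hf.symm)).symm

end

end Fermat.Agent.S16.UB
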