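import Mathlib
import Fermat.Prelude.Def_CuspForm_IntegralStructure
import Fermat.Prelude.Def_ModularCurve_ModularUnit
import Fermat.Prelude.Thm_CongruenceSubgroup_one_mem_strictPeriods_Gamma0

/-!
# S16, upper bound: reduction of the congruence statement to the "unit mod `l^r`" case bricks

`UnitMod p l r` says: there is a weight-2 modular form on `Γ₀(p)` with integer `q`-expansion whose
constant term is prime to `l` and whose higher coefficients are all divisible by `l ^ r`.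

`upper_bound` shows: given the Eisenstein series `E` (constant term `(p-1)/24`, higher coefficients
`s k`), and the eight case statements on `UnitMod`, any cusp form `f` with integer coefficients
congruent to `s` modulo `M` forces `M ∣ eisensteinNumerator p`.
-/

set_option autoImplicit false

open CongruenceSubgroup ModularFormClass UpperHalfPlane

namespace Fermat.Agent.S16.UB.Reduce

/-- There is `G ∈ M₂(Γ₀(p))` with integer `q`-expansion `a`, `l ∤ a 0` and `l ^ r ∣ a n` for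
all `n ≥ 1`. -/
def UnitMod (p l r : ℕ) : Prop :=
  ∃ (G : ModularForm (Gamma0 p) 2) (a : ℕ → ℤ),
    (∀ n, qCoeff G n = (a n : ℂ)) ∧ ¬ (l : ℤ) ∣ a 0 ∧ ∀ n, 1 ≤ n → (l : ℤ) ^ r ∣ a n

/-- Weakening the exponent. -/
theorem UnitMod.mono {p l r r' : ℕ} (h : UnitMod p l r) (hr : r' ≤ r) : UnitMod p l r' := by
  obtain ⟨G, a, ha, h0, hn⟩ := h
  exact ⟨G, a, ha, h0, fun n hn1 => (pow_dvd_pow _ hr).trans (hn n hn1)⟩

theorem eisNum_mul (p : ℕ) :
    ModularCurve.eisensteinNumerator p * Nat.gcd (p - 1) 12 = p - 1 :=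
  Nat.div_mul_cancel (Nat.gcd_dvd_left _ _)

/-- The arithmetic heart of the reduction. -/
theorem arith_key {l : ℕ} (hl : l.Prime) {m n g k r : ℕ} (hm : m ≠ 0) (hmg : n * g = m)
    (hnk : ¬ l ^ k ∣ n) (hr : ∀ v, l ^ v ∣ g → l ^ (v + r) ∣ 24 * l) :
    ∃ e u : ℕ, m = l ^ e * u ∧ ¬ l ∣ u ∧ l ^ (e + r) ∣ 24 * l ^ k := by
  have : Fact l.Prime := Fact.mk hl
  have hn0 : n ≠ 0 := by rintro rfl; simp at hmg; exact hm hmg.symm
  have hg0 : g ≠ 0 := by rintro rfl; simp at hmg; exact hm hmg.symm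
  set vn := padicValNat l n with hvn
  set vg := padicValNat l g with hvg
  have he : padicValNat l m = vn + vg := by
    rw [← hmg, padicValNat.mul hn0 hg0]
  obtain ⟨u, hu⟩ : l ^ (vn + vg) ∣ m := he ▸ pow_padicValNat_dvd
  refine ⟨vn + vg, u, hu, ?_, ?_⟩
  · intro hlu
    obtain ⟨w, rfl⟩ := hlu
    have : l ^ (padicValNat l m + 1) ∣ m := by
      rw [he]
      exact ⟨w, by rw [hu]; ring⟩
    exact pow_succ_padicValNat_not_dvd hm this
  · have hvnk : vn < k := by
      by_contra hcon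
      exact hnk ((padicValNat_dvd_iff_le hn0).2 (not_lt.1 hcon))
    have h1 : l ^ (vg + r) ∣ 24 * l := hr vg pow_padicValNat_dvd
    have h2 : l ^ (vn + 1) ∣ l ^ k := pow_dvd_pow _ hvnk
    calc l ^ (vn + vg + r) = l ^ vn * l ^ (vg + r) := by ring
      _ ∣ l ^ vn * (24 * l) := Nat.mul_dvd_mul_left _ h1
      _ = 24 * l ^ (vn + 1) := by ring
      _ ∣ 24 * l ^ k := Nat.mul_dvd_mul_left _ h2

/-- `q`-coefficients of `c • (E - f)`. -/
theorem qCoeff_smul_sub {N : ℕ} (c : ℂ) (E : ModularForm (Gamma0 N) 2)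
    (f : CuspForm (Gamma0 N) 2) (n : ℕ) :
    qCoeff (c • (⇑E - ⇑f)) n = c * (qCoeff E n - qCoeff f n) := by
  unfold qCoeff
  have h1 := ModularForm.qExpansion_sub one_pos (one_mem_strictPeriods_Gamma0 N) E f
  have h2 := ModularForm.qExpansion_smul one_pos (one_mem_strictPeriods_Gamma0 N) c
    (E - CuspForm.toModularFormₗ f)
  have h3 : (⇑(E - CuspForm.toModularFormₗ f) : ℍ → ℂ) = ⇑E - ⇑f := by
    ext z; rfl
  rw [h3] at h2
  rw [h2, h1]
  simp

/-- From a cusp form congruent to the Eisenstein coefficients modulo `l ^ k` (with `l ^ k` not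
dividing the Eisenstein numerator) we get a `UnitMod` form. -/
theorem unitMod_of_cong (p : ℕ) [hp : Fact p.Prime] (E : ModularForm (Gamma0 p) 2) (s : ℕ → ℤ)
    (hE0 : qCoeff E 0 = ((p : ℂ) - 1) / 24) (hE : ∀ k, 1 ≤ k → qCoeff E k = (s k : ℂ))
    (f : CuspForm (Gamma0 p) 2) (c : ℕ → ℤ) (hc : ∀ k, 1 ≤ k → qCoeff f k = (c k : ℂ))
    {l : ℕ} (hl : l.Prime) (k r : ℕ) (hcong : ∀ j, 1 ≤ j → (l : ℤ) ^ k ∣ s j - c j)
    (hnk : ¬ l ^ k ∣ ModularCurve.eisensteinNumerator p)
    (hr : ∀ v, l ^ v ∣ Nat.gcd (p - 1) 12 → l ^ (v + r) ∣ 24 * l) : UnitMod p l r := by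
  have hp1 : 1 ≤ p := hp.out.one_lt.le
  have hm : p - 1 ≠ 0 := by have := hp.out.two_le; omega
  obtain ⟨e, u, hmu, hu, w, hw⟩ := arith_key hl hm (eisNum_mul p) hnk hr
  choose! t ht using hcong
  have hl0 : (l : ℂ) ≠ 0 := by exact_mod_cast hl.ne_zero
  have hle0 : (l : ℂ) ^ e ≠ 0 := pow_ne_zero _ hl0
  have hf0 : qCoeff f 0 = 0 := by
    unfold qCoeff
    exact CuspFormClass.qExpansion_coeff_zero f one_pos (one_mem_strictPeriods_Gamma0 p)
  refine ⟨((24 : ℂ) / (l : ℂ) ^ e) • (E - CuspForm.toModularFormₗ f),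
    fun j => if j = 0 then (u : ℤ) else (l : ℤ) ^ r * w * t j, ?_, ?_, ?_⟩
  · intro j
    have hcoe : (⇑(((24 : ℂ) / (l : ℂ) ^ e) • (E - CuspForm.toModularFormₗ f)) : ℍ → ℂ)
        = ((24 : ℂ) / (l : ℂ) ^ e) • (⇑E - ⇑f) := by
      ext z; rfl
    rw [hcoe, qCoeff_smul_sub]
    by_cases hj : j = 0
    · subst hj
      rw [hE0, hf0]
      dsimp only
      rw [if_pos rfl]
      have hpc : (p : ℂ) - 1 = (l : ℂ) ^ e * (u : ℂ) := by
        have : ((p - 1 : ℕ) : ℂ) = ((l ^ e * u : ℕ) : ℂ) := by rw [hmu]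
        rw [Nat.cast_sub hp1] at this
        push_cast at this
        exact this
      rw [hpc]
      push_cast
      field_simp
      ring
    · have hj1 : 1 ≤ j := Nat.one_le_iff_ne_zero.2 hj
      rw [hE j hj1, hc j hj1]
      dsimp only
      rw [if_neg hj]
      have h1 : ((s j - c j : ℤ) : ℂ) = ((l : ℤ) ^ k * t j : ℤ) := by rw [ht j hj1]
      have h2 : ((24 * l ^ k : ℕ) : ℂ) = ((l ^ (e + r) * w : ℕ) : ℂ) := by rw [hw]
      push_cast at h1 h2
      have h3 : (24 : ℂ) * ((s j : ℂ) - (c j : ℂ)) = (l : ℂ) ^ e * ((l : ℂ) ^ r * w * t j) := by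
        rw [h1, ← mul_assoc, h2]; ring
      push_cast
      rw [div_mul_eq_mul_div, h3]
      field_simp
  · dsimp only
    rw [if_pos rfl]
    exact_mod_cast hu
  · intro j hj
    have hj0 : j ≠ 0 := Nat.one_le_iff_ne_zero.1 hj
    dsimp only
    rw [if_neg hj0]
    exact ⟨w * t j, by ring⟩

/-- No power of a prime `≥ 5` other than `1` divides `12`. -/
theorem pow_dvd_twelve {l v : ℕ} (hl : l.Prime) (h5 : 5 ≤ l) (h : l ^ v ∣ 12) : v = 0 := by
  by_contra hv
  have h1 : l ∣ 12 := (dvd_pow_self l hv).trans h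
  have h2 : l ≤ 12 := Nat.le_of_dvd (by norm_num) h1
  interval_cases l <;> revert h1 <;> revert hl <;> decide

/-- If `l ^ (B + 1) ∤ d` then `l ^ v ∣ d` forces `v ≤ B`. -/
theorem le_of_pow_dvd {l v d B : ℕ} (h : l ^ v ∣ d) (hB : ¬ l ^ (B + 1) ∣ d) : v ≤ B := by
  by_contra hcon
  exact hB ((pow_dvd_pow l (by omega)).trans h)

/-- **Upper bound, reduced to the case bricks.** -/
theorem upper_bound (p : ℕ) [hp : Fact p.Prime] (E : ModularForm (Gamma0 p) 2) (s : ℕ → ℤ)
    (hE0 : qCoeff E 0 = ((p : ℂ) - 1) / 24) (hE : ∀ k, 1 ≤ k → qCoeff E k = (s k : ℂ))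
    (hBl : ∀ l : ℕ, l.Prime → 5 ≤ l → l ≠ p → ¬ UnitMod p l 1)
    (hBP : 5 ≤ p → ¬ UnitMod p p 1)
    (hBP3 : p = 3 → ¬ UnitMod p 3 2)
    (hBP2 : p = 2 → ¬ UnitMod p 2 4)
    (hB3a : p ≠ 3 → UnitMod p 3 1 → p % 3 = 2)
    (hB3b : p ≠ 3 → ¬ UnitMod p 3 2)
    (hB2a : p ≠ 2 → UnitMod p 2 2 → p % 4 = 3)
    (hB2b : p ≠ 2 → ¬ UnitMod p 2 3)
    (M : ℕ) (f : CuspForm (Gamma0 p) 2)
    (hcong : ∀ k, 1 ≤ k → ∃ c : ℤ, qCoeff f k = (c : ℂ) ∧ (c : ZMod M) = (s k : ZMod M)) :
    M ∣ ModularCurve.eisensteinNumerator p := by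
  rw [Nat.dvd_iff_prime_pow_dvd_dvd]
  intro l k hl hk
  by_contra hnk
  choose! c hc hcM using hcong
  have hcong' : ∀ j, 1 ≤ j → (l : ℤ) ^ k ∣ s j - c j := by
    intro j hj
    have h1 : (M : ℤ) ∣ s j - c j := (ZMod.intCast_eq_intCast_iff_dvd_sub _ _ _).1 (hcM j hj)
    have h2 : ((l : ℤ) ^ k) ∣ (M : ℤ) := by exact_mod_cast hk
    exact h2.trans h1
  have key : ∀ r, (∀ v, l ^ v ∣ Nat.gcd (p - 1) 12 → l ^ (v + r) ∣ 24 * l) → UnitMod p l r :=
    fun r hr => unitMod_of_cong p E s hE0 hE f c hc hl k r hcong' hnk hr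
  have hg12 : Nat.gcd (p - 1) 12 ∣ 12 := Nat.gcd_dvd_right _ _
  have hgp : Nat.gcd (p - 1) 12 ∣ p - 1 := Nat.gcd_dvd_left _ _
  have hp2 := hp.out.two_le
  by_cases hl2 : l = 2
  · subst hl2
    by_cases hp2' : p = 2
    · refine hBP2 hp2' (key 4 ?_)
      intro v hv
      have hv0 : v ≤ 0 := by
        refine le_of_pow_dvd (hv.trans hgp) ?_
        subst hp2'; decide
      interval_cases v; decide
    · have hodd : p % 2 = 1 := by
        rcases hp.out.eq_two_or_odd with h | h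
        · exact absurd h hp2'
        · exact h
      by_cases h4 : 4 ∣ p - 1
      · have hU : UnitMod p 2 2 := by
          refine key 2 ?_
          intro v hv
          have hv2 : v ≤ 2 := le_of_pow_dvd (hv.trans hg12) (by decide)
          interval_cases v <;> decide
        have := hB2a hp2' hU
        omega
      · refine hB2b hp2' (key 3 ?_)
        intro v hv
        have hv1 : v ≤ 1 := le_of_pow_dvd (hv.trans hgp) (by simpa using h4)
        interval_cases v <;> decide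
  by_cases hl3 : l = 3
  · subst hl3
    by_cases hp3 : p = 3
    · refine hBP3 hp3 (key 2 ?_)
      intro v hv
      have hv0 : v ≤ 0 := by
        refine le_of_pow_dvd (hv.trans hgp) ?_
        subst hp3; decide
      interval_cases v; decide
    · by_cases h3 : 3 ∣ p - 1
      · have hU : UnitMod p 3 1 := by
          refine key 1 ?_
          intro v hv
          have hv1 : v ≤ 1 := le_of_pow_dvd (hv.trans hg12) (by decide)
          interval_cases v <;> decide
        have := hB3a hp3 hU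
        omega
      · refine hB3b hp3 (key 2 ?_)
        intro v hv
        have hv0 : v ≤ 0 := le_of_pow_dvd (hv.trans hgp) (by simpa using h3)
        interval_cases v; decide
  · have h5 : 5 ≤ l := by
      have h2 := hl.two_le
      by_contra hcon
      have h4 : l = 4 := by omega
      subst h4
      exact absurd hl (by decide)
    have hU : UnitMod p l 1 := by
      refine key 1 ?_
      intro v hv
      have hv0 : v = 0 := pow_dvd_twelve hl h5 (hv.trans hg12)
      subst hv0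
      exact ⟨24, by ring⟩
    by_cases hlp : l = p
    · subst hlp
      exact hBP h5 hU
    · exact hBl l hl h5 hlp hU

end Fermat.Agent.S16.UB.Reduce
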