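import Fermat.Agent.S16.UB.Reduce

/-!
# S16, upper bound: `UnitMod` in integer power-series form

Adapters from `Reduce.UnitMod p l r` to the shape used by the case bricks:
a modular form `G ∈ M₂(Γ₀(p))` together with `A : PowerSeries ℤ` such that
`qExpansion 1 G = PowerSeries.map (Int.castRingHom ℂ) A`.
-/

set_option autoImplicit false

open CongruenceSubgroup ModularFormClass UpperHalfPlane

namespace Fermat.Agent.S16.UB.UnitModSeries

open Fermat.Agent.S16.UB.Reduce

/-- `UnitMod` in power-series form. -/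
theorem unitMod_iff_series (p l r : ℕ) :
    UnitMod p l r ↔ ∃ (G : ModularForm (Gamma0 p) 2) (A : PowerSeries ℤ),
      qExpansion 1 G = PowerSeries.map (Int.castRingHom ℂ) A ∧
      ¬ (l : ℤ) ∣ PowerSeries.coeff 0 A ∧ ∀ n, 1 ≤ n → (l : ℤ) ^ r ∣ PowerSeries.coeff n A := by
  constructor
  · rintro ⟨G, a, ha, h0, hn⟩
    refine ⟨G, PowerSeries.mk a, ?_, by simpa using h0, fun n hn1 => by simpa using hn n hn1⟩
    ext n
    have := ha n
    unfold qCoeff at this
    simp [this]
  · rintro ⟨G, A, hA, h0, hn⟩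
    refine ⟨G, fun n => PowerSeries.coeff n A, fun n => ?_, h0, hn⟩
    unfold qCoeff
    rw [hA]
    simp

/-- From `UnitMod` to the power-series shape. -/
theorem exists_series {p l r : ℕ} (h : UnitMod p l r) :
    ∃ (G : ModularForm (Gamma0 p) 2) (A : PowerSeries ℤ),
      qExpansion 1 G = PowerSeries.map (Int.castRingHom ℂ) A ∧
      ¬ (l : ℤ) ∣ PowerSeries.coeff 0 A ∧ ∀ n, 1 ≤ n → (l : ℤ) ^ r ∣ PowerSeries.coeff n A :=
  (unitMod_iff_series p l r).1 h

/-- `q`-expansion of an integer multiple of a weight-2 form on `Γ₀(p)`. -/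
theorem qExpansion_int_smul {p : ℕ} (x : ℤ) (G : ModularForm (Gamma0 p) 2) (A : PowerSeries ℤ)
    (hA : qExpansion 1 G = PowerSeries.map (Int.castRingHom ℂ) A) :
    qExpansion 1 (((x : ℂ) • G : ModularForm (Gamma0 p) 2)) =
      PowerSeries.map (Int.castRingHom ℂ) (PowerSeries.C x * A) := by
  have h := ModularForm.qExpansion_smul one_pos (one_mem_strictPeriods_Gamma0 p) (x : ℂ) G
  have hcoe : (⇑((x : ℂ) • G) : ℍ → ℂ) = (x : ℂ) • ⇑G := by
    ext z; rfl
  rw [hcoe, h, hA]
  ext n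
  rw [PowerSeries.coeff_smul, PowerSeries.coeff_map, PowerSeries.coeff_map,
    PowerSeries.coeff_C_mul]
  simp

/-- Normalised form: for `l` prime one can take the constant term `≡ 1` modulo `l ^ r`. -/
theorem exists_series_one {p l r : ℕ} (hl : l.Prime) (h : UnitMod p l r) :
    ∃ (G : ModularForm (Gamma0 p) 2) (A : PowerSeries ℤ),
      qExpansion 1 G = PowerSeries.map (Int.castRingHom ℂ) A ∧
      (l : ℤ) ^ r ∣ PowerSeries.coeff 0 A - 1 ∧ ∀ n, 1 ≤ n → (l : ℤ) ^ r ∣ PowerSeries.coeff n A := by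
  obtain ⟨G, A, hA, h0, hn⟩ := exists_series h
  have hlZ : Prime (l : ℤ) := Nat.prime_iff_prime_int.1 hl
  have hcop : IsCoprime (PowerSeries.coeff 0 A) ((l : ℤ) ^ r) := by
    apply IsCoprime.pow_right
    exact ((hlZ.coprime_iff_not_dvd).2 h0).symm
  obtain ⟨x, y, hxy⟩ := hcop
  refine ⟨(x : ℂ) • G, PowerSeries.C x * A, qExpansion_int_smul x G A hA, ?_, ?_⟩
  · rw [PowerSeries.coeff_C_mul]
    exact ⟨-y, by linear_combination hxy⟩
  · intro n hn1
    rw [PowerSeries.coeff_C_mul]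
    exact Dvd.dvd.mul_left (hn n hn1) x

end Fermat.Agent.S16.UB.UnitModSeries
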