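import Mathlib
import Fermat.Agent.S16.UB.Pair
import Fermat.Agent.S16.UB.Reduce
import Fermat.Agent.S16.UB.UnitModSeries
import Fermat.Agent.S16.UB.TwoAdic
import Fermat.Agent.S16.UB.Case2bCore

/-!
# S16 upper bound, case (B2b) (tasks#202): for `p ≡ 3 mod 4` no `G ∈ M₂(Γ₀(p))` is a unit mod `8`

Wiring of the pure power-series core `Case2b.false_of_trace` with the pair calculus
(`IsPair.weight_two`, `IsPair.ofLevelOne`, `IsPair.ofLevelRaise`, `IsPair.mul/pow/sub/smul`,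
`IsPair.trace`) and the two series lemmas `TwoAdic.magic_at_infty`, `TwoAdic.magic_at_zero`.

With `a = q`-expansion of `G`, `b = a₀`, the weight-8 form
`D = (27 G⁴ - 18 b² E₄ G² - 8 b³ E₆ G - b⁴ E₄²) / 256` has `q`-expansion `P₀ + 2 Z` and
`D# = p⁻⁴ (V_p P₀ + 2 Z')`; the trace of `D^(3p-2) Δ(pz)^p` is a level-one form of weight
`36 p - 16` contradicting the Sturm bound.
-/

set_option autoImplicit false

open UpperHalfPlane ModularForm ModularFormClass CongruenceSubgroup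
open scoped MatrixGroups

namespace Fermat.Agent.S16.UB.Case2b

open Fermat.Agent.S23 Fermat.Agent.S23.LevelOne

noncomputable section

/-- Transport of an `IsPair` along an equality of weights. -/
theorem isPair_cast {p : ℕ} [NeZero p] {k k' : ℤ} {A B : PowerSeries ℂ} (h : IsPair p k A B)
    (hk : k = k') : IsPair p k' A B := hk ▸ h

/-- `U_p` commutes with the base change `ℤ⟦q⟧ → ℂ⟦q⟧`. -/
theorem U_zc (p : ℕ) (A : PowerSeries ℤ) : U p (zc A) = zc (Engine.Up p A) := by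
  ext n
  simp

/-- The two spellings of `U_p` agree. -/
theorem engineUp_eq_U (p : ℕ) (B : PowerSeries ℂ) : Engine.Up p B = U p B := by
  ext n
  simp

/-- The `q`-expansion of `D` (pure algebra, from `TwoAdic.magic_at_infty`). -/
theorem aside_eq (A Z : PowerSeries ℤ) (b : ℤ)
    (hZ : 27 * A ^ 4 - 18 * PowerSeries.C b ^ 2 * e4Z * A ^ 2 - 8 * PowerSeries.C b ^ 3 * e6Z * A
        - PowerSeries.C b ^ 4 * e4Z ^ 2 = 256 * (aZ + aZ ^ 2) + 512 * Z) :
    ((256 : ℂ)⁻¹) • ((27 : ℂ) • zc A ^ 4 - (18 * (b : ℂ) ^ 2) • (zc e4Z * zc A ^ 2)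
        - (8 * (b : ℂ) ^ 3) • (zc e6Z * zc A) - ((b : ℂ) ^ 4) • zc e4Z ^ 2)
      = zc ((aZ + aZ ^ 2) + PowerSeries.C (2 : ℤ) * Z) := by
  have h := congrArg (PowerSeries.map (Int.castRingHom ℂ)) hZ
  simp only [map_sub, map_add, map_mul, map_pow, map_ofNat, PowerSeries.map_C] at h
  simp only [eq_intCast] at h
  have hc : PowerSeries.C ((256 : ℂ)⁻¹) * (256 : PowerSeries ℂ) = 1 := by
    rw [← map_ofNat (PowerSeries.C (R := ℂ)) 256, ← map_mul]
    norm_num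
  simp only [PowerSeries.smul_eq_C_mul, map_add, map_mul, map_pow, map_ofNat]
  linear_combination PowerSeries.C ((256 : ℂ)⁻¹) * h +
    (zc aZ + zc aZ ^ 2 + 2 * zc Z) * hc

/-- The `q`-expansion of `D#` (pure algebra, from `TwoAdic.magic_at_zero`); `s` is the
`q`-expansion of `G# = -(1/p) U_p G`. -/
theorem bside_eq (p : ℕ) (hp : p ≠ 0) (A' Z' : PowerSeries ℤ) (b : ℤ) (s : PowerSeries ℂ)
    (hs : s = -((p : ℂ)⁻¹) • zc A')
    (hZ : 27 * A' ^ 4 - 18 * PowerSeries.C (b * p) ^ 2 * PowerSeries.expand p hp e4Z * A' ^ 2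
        + 8 * PowerSeries.C (b * p) ^ 3 * PowerSeries.expand p hp e6Z * A'
        - PowerSeries.C (b * p) ^ 4 * PowerSeries.expand p hp e4Z ^ 2
      = 256 * PowerSeries.expand p hp (aZ + aZ ^ 2) + 512 * Z') :
    ((256 : ℂ)⁻¹) • ((27 : ℂ) • s ^ 4
        - (18 * (b : ℂ) ^ 2) • (PowerSeries.expand p hp (zc e4Z) * s ^ 2)
        - (8 * (b : ℂ) ^ 3) • (PowerSeries.expand p hp (zc e6Z) * s)
        - ((b : ℂ) ^ 4) • PowerSeries.expand p hp (zc e4Z) ^ 2)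
      = PowerSeries.C (((p : ℂ) ^ 4)⁻¹) *
          zc (PowerSeries.expand p hp (aZ + aZ ^ 2) + PowerSeries.C (2 : ℤ) * Z') := by
  have hpC : (p : ℂ) ≠ 0 := Nat.cast_ne_zero.mpr hp
  have h := congrArg (PowerSeries.map (Int.castRingHom ℂ)) hZ
  simp only [map_sub, map_add, map_mul, map_pow, map_ofNat, PowerSeries.map_C,
    PowerSeries.map_expand] at h
  simp only [eq_intCast, Int.cast_natCast] at h
  have hc : PowerSeries.C ((256 : ℂ)⁻¹) * (256 : PowerSeries ℂ) = 1 := by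
    rw [← map_ofNat (PowerSeries.C (R := ℂ)) 256, ← map_mul]
    norm_num
  have hπ : PowerSeries.C ((p : ℂ)⁻¹) * PowerSeries.C (p : ℂ) = 1 := by
    rw [← map_mul, inv_mul_cancel₀ hpC, map_one]
  have h4 : PowerSeries.C ((p : ℂ)⁻¹) ^ 4 * PowerSeries.C (p : ℂ) ^ 4 = 1 := by
    rw [← mul_pow, hπ, one_pow]
  -- `zc A' = -(π * s)`
  have ha' : PowerSeries.map (Int.castRingHom ℂ) A' = -(PowerSeries.C (p : ℂ) * s) := by
    rw [hs, PowerSeries.smul_eq_C_mul, map_neg]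
    linear_combination (-(zc A')) * hπ
  rw [ha'] at h
  have hpinv : PowerSeries.C (((p : ℂ) ^ 4)⁻¹) = PowerSeries.C ((p : ℂ)⁻¹) ^ 4 := by
    rw [← inv_pow, map_pow]
  simp only [PowerSeries.smul_eq_C_mul, map_add, map_mul, map_pow, map_ofNat,
    PowerSeries.map_expand, hpinv]
  set E := PowerSeries.expand p hp (zc aZ) with hE
  set v4 := PowerSeries.expand p hp (zc e4Z) with hv4
  set v6 := PowerSeries.expand p hp (zc e6Z) with hv6
  set π := PowerSeries.C (p : ℂ) with hπdef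
  set πi := PowerSeries.C ((p : ℂ)⁻¹) with hπidef
  set c := PowerSeries.C ((256 : ℂ)⁻¹) with hcdef
  set Cb := PowerSeries.C (b : ℂ) with hCb
  have hZs : π ^ 4 * (27 * s ^ 4 - 18 * Cb ^ 2 * (v4 * s ^ 2) - 8 * Cb ^ 3 * (v6 * s)
      - Cb ^ 4 * v4 ^ 2) = 256 * (E + E ^ 2 + 2 * zc Z') := by
    linear_combination h
  linear_combination (-(c * (27 * s ^ 4 - 18 * Cb ^ 2 * (v4 * s ^ 2) - 8 * Cb ^ 3 * (v6 * s)
      - Cb ^ 4 * v4 ^ 2))) * h4 + c * πi ^ 4 * hZs + πi ^ 4 * (E + E ^ 2 + 2 * zc Z') * hc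

/-- **Case (B2b)** in the integral power-series shape. -/
theorem false_of_unit_mod {p : ℕ} [NeZero p] (hp : p.Prime) (hp4 : p % 4 = 3)
    (G : ModularForm (Gamma0 p) 2) (A : PowerSeries ℤ)
    (hA : qExpansion 1 G = PowerSeries.map (Int.castRingHom ℂ) A)
    (h0 : ¬ (2 : ℤ) ∣ PowerSeries.coeff 0 A)
    (hn : ∀ n, 1 ≤ n → (8 : ℤ) ∣ PowerSeries.coeff n A) : False := by
  have hp0 : p ≠ 0 := hp.ne_zero
  have hp3 : 3 ≤ p := by omega
  have hodd : Odd p := Nat.odd_iff.mpr (by omega)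
  have hb : Odd (PowerSeries.coeff 0 A) := by
    rw [← Int.not_even_iff_odd, even_iff_two_dvd]
    exact h0
  -- the two series lemmas
  obtain ⟨Z, hZ⟩ := TwoAdic.magic_at_infty A _ hb rfl hn
  have hn' : ∀ n, 1 ≤ n → (8 : ℤ) ∣ PowerSeries.coeff n (Engine.Up p A) := by
    intro n hn1
    rw [Engine.coeff_Up]
    exact hn _ (Nat.mul_pos (Nat.pos_of_ne_zero hp0) hn1)
  obtain ⟨Z', hZ'⟩ := TwoAdic.magic_at_zero p hp0 hp4 (Engine.Up p A) (PowerSeries.coeff 0 A)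
    hb (by simp) hn'
  -- the pairs of `G`, `E₄`, `E₆`, `Δ(p z)`
  obtain ⟨BG, hG⟩ := exists_isPair G
  have hw2 := hG.weight_two hp
  rw [hA] at hG hw2
  have hBG : BG = -((p : ℂ)⁻¹) • zc (Engine.Up p A) := by
    rw [hw2, U_zc]
  have hE4 : IsPair p 4 (zc e4Z) (V p (zc e4Z)) := by
    have h := IsPair.ofLevelOne (p := p) E₄
    rwa [← map_e4Z] at h
  have hE6 : IsPair p 6 (zc e6Z) (V p (zc e6Z)) := by
    have h := IsPair.ofLevelOne (p := p) E₆
    rwa [← map_e6Z] at h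
  set F0 : ModularForm 𝒮ℒ ((12 : ℕ) : ℤ) := ofPoly 12 discPoly with hF0def
  have hF0q : qExpansion 1 F0 = zc deltaZ := by
    have h : (F0 : ℍ → ℂ) = ModularForm.discriminant := funext ofPoly_discPoly_apply
    rw [h]
    exact map_deltaZ.symm
  have hΔ : IsPair p ((12 : ℕ) : ℤ) (V p (zc deltaZ))
      (((p : ℂ) ^ (-((12 : ℕ) : ℤ))) • zc deltaZ) := by
    have h := IsPair.ofLevelRaise (p := p) F0
    rwa [hF0q] at h
  -- the weight-8 form `D`
  have t1 : IsPair p 8 (zc A ^ 4) (BG ^ 4) := isPair_cast (hG.pow 4) (by norm_num)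
  have t2 : IsPair p 8 (zc e4Z * zc A ^ 2) (V p (zc e4Z) * BG ^ 2) :=
    isPair_cast (hE4.mul (hG.pow 2)) (by norm_num)
  have t3 : IsPair p 8 (zc e6Z * zc A) (V p (zc e6Z) * BG) :=
    isPair_cast (hE6.mul hG) (by norm_num)
  have t4 : IsPair p 8 (zc e4Z ^ 2) (V p (zc e4Z) ^ 2) := isPair_cast (hE4.pow 2) (by norm_num)
  have hD := ((((t1.smul (27 : ℂ)).sub (t2.smul (18 * ((PowerSeries.coeff 0 A : ℤ) : ℂ) ^ 2))).sub
    (t3.smul (8 * ((PowerSeries.coeff 0 A : ℤ) : ℂ) ^ 3))).sub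
    (t4.smul (((PowerSeries.coeff 0 A : ℤ) : ℂ) ^ 4))).smul ((256 : ℂ)⁻¹)
  rw [aside_eq A Z _ hZ, bside_eq p hp0 (Engine.Up p A) Z' _ BG hBG hZ'] at hD
  -- the trace of `D^(3p-2) Δ(pz)^p`
  obtain ⟨f, hf⟩ := ((hD.pow (3 * p - 2)).mul (hΔ.pow p)).trace hp
  refine false_of_trace p hp hp3 hodd (aZ + aZ ^ 2 + PowerSeries.C (2 : ℤ) * Z)
    (PowerSeries.expand p hp0 (aZ + aZ ^ 2) + PowerSeries.C (2 : ℤ) * Z') Z' rfl _ ?_ f ?_
  · -- the weight
    have h2 : ((3 * p - 2 : ℕ) : ℤ) = 3 * (p : ℤ) - 2 := by omega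
    rw [h2]
    push_cast
    linarith
  · -- the `q`-expansion
    rw [hf]
    congr 1
    · rw [map_pow]
    · have hsc : (p : ℂ) * ((p : ℂ) ^ (-((12 : ℕ) : ℤ))) ^ p = (p : ℂ) * ((p : ℂ) ^ (12 * p))⁻¹ := by
        rw [zpow_neg, zpow_natCast, inv_pow, ← pow_mul]
      rw [smul_pow, mul_smul_comm, map_smul, smul_smul, hsc, PowerSeries.smul_eq_C_mul,
        engineUp_eq_U]

/-- **Case (B2b)** in the shape of `Wire.upper_bound_of_cases` (hypothesis `hB2b`). -/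
theorem not_unitMod (p : ℕ) [Fact p.Prime] (h : p % 4 = 3) : ¬ Reduce.UnitMod p 2 3 := by
  have hp : p.Prime := Fact.out
  have : NeZero p := ⟨hp.ne_zero⟩
  intro hU
  obtain ⟨G, A, hA, h0, hn⟩ := UnitModSeries.exists_series hU
  refine false_of_unit_mod hp h G A hA ?_ ?_
  · exact_mod_cast h0
  · intro n hn1
    have := hn n hn1
    exact_mod_cast this

end

end Fermat.Agent.S16.UB.Case2b
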