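import Mathlib
import Fermat.Agent.S23.LevelOne
import Fermat.Agent.S16.UB.Engine

/-!
# S16 upper bound, cases (3a), (2a) and the `p ≡ 7 mod 8` step of (2b): pure power-series core

For `G ∈ M₂(Γ₀(p))` with integral `q`-expansion `A = u + m * (…)`, `m ∣ 504`, the weight-6 form
`F = G³ - u³ E₆` has `q`-expansion `cubeNum A ≡ 0 mod m`, and `p³ F#` has `q`-expansion
`cubeSharp p A`, whose constant coefficient is `-u³ (1 + p³)`.  The `q`-expansion principle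
then gives `m ∣ u³ (1 + p³)`.  This file contains the power-series algebra and the arithmetic
consequences; the analytic wiring is in `Case3a2a.lean`.
-/

set_option autoImplicit false

namespace Fermat.Agent.S16.UB.Case3a2a

open PowerSeries Fermat.Agent.S23.LevelOne Fermat.Agent.S16.UB.Engine

/-- The `q`-expansion of `G³ - u³ E₆`, `u = a₀(G)`. -/
noncomputable def cubeNum (A : PowerSeries ℤ) : PowerSeries ℤ :=
  A ^ 3 - C ((coeff 0 A) ^ 3) * e6Z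

/-- The `q`-expansion of `p³ (G³ - u³ E₆)#`, i.e. `-(U_p A)³ - u³ p³ E₆(q^p)`. -/
noncomputable def cubeSharp (p : ℕ) (hp : p ≠ 0) (A : PowerSeries ℤ) : PowerSeries ℤ :=
  -(Up p A) ^ 3 - C ((coeff 0 A) ^ 3 * (p : ℤ) ^ 3) * expand p hp e6Z

lemma coeff_zero_cubeSharp (p : ℕ) (hp : p ≠ 0) (A : PowerSeries ℤ) :
    coeff 0 (cubeSharp p hp A) = -((coeff 0 A) ^ 3 * (1 + (p : ℤ) ^ 3)) := by
  have h1 : coeff 0 (expand p hp e6Z) = 1 := by
    have := coeff_expand_mul p hp e6Z 0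
    rw [mul_zero] at this
    rw [this]
    have := constantCoeff_e6Z
    simpa using this
  have h2 : coeff 0 ((Up p A) ^ 3) = (coeff 0 A) ^ 3 := by
    rw [coeff_zero_eq_constantCoeff_apply, map_pow, ← coeff_zero_eq_constantCoeff_apply,
      coeff_Up, mul_zero]
  rw [cubeSharp, map_sub, map_neg, h2, coeff_C_mul, h1]
  ring

/-- If `A ≡ u mod m` and `m ∣ 504` then `A³ - u³ E₆ ≡ 0 mod m`. -/
theorem dvd_coeff_cubeNum (m : ℕ) (hm : m ∣ 504) (A : PowerSeries ℤ)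
    (h : ∀ n, 1 ≤ n → (m : ℤ) ∣ coeff n A) (n : ℕ) : (m : ℤ) ∣ coeff n (cubeNum A) := by
  rw [← ZMod.intCast_zmod_eq_zero_iff_dvd]
  have hA : PowerSeries.map (Int.castRingHom (ZMod m)) A = C ((coeff 0 A : ℤ) : ZMod m) := by
    ext k
    rw [coeff_map, coeff_C]
    split_ifs with hk
    · subst hk; rfl
    · have := h k (Nat.one_le_iff_ne_zero.mpr hk)
      rw [← ZMod.intCast_zmod_eq_zero_iff_dvd] at this
      simpa using this
  have h504 : ((504 : ℤ) : ZMod m) = 0 := by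
    rw [ZMod.intCast_zmod_eq_zero_iff_dvd]
    exact_mod_cast hm
  have hE : PowerSeries.map (Int.castRingHom (ZMod m)) e6Z = 1 := by
    rw [e6Z_eq, map_sub, map_one, map_mul, map_C]
    have : (Int.castRingHom (ZMod m)) 504 = 0 := by simpa using h504
    rw [this, map_zero, zero_mul, sub_zero]
  have hmap : PowerSeries.map (Int.castRingHom (ZMod m)) (cubeNum A) = 0 := by
    rw [cubeNum, map_sub, map_pow, map_mul, hA, hE, map_C, mul_one, ← map_pow, map_pow]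
    simp
  have := congrArg (coeff n) hmap
  rw [coeff_map] at this
  simpa using this

/-! ### Arithmetic consequences -/

lemma mod_three_of_dvd (p : ℕ) (u : ℤ) (hu : ¬ (3 : ℤ) ∣ u)
    (h : ((3 : ℕ) : ℤ) ∣ u ^ 3 * (1 + (p : ℤ) ^ 3)) : p % 3 = 2 := by
  have h3 : Prime (3 : ℤ) := Int.prime_three
  have h' : (3 : ℤ) ∣ u ^ 3 * (1 + (p : ℤ) ^ 3) := by exact_mod_cast h
  rcases h3.dvd_or_dvd h' with h1 | h1
  · exact absurd (h3.dvd_of_dvd_pow h1) hu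
  · have h2 : (3 : ℕ) ∣ 1 + p ^ 3 := by exact_mod_cast h1
    have h4 : (1 + p ^ 3) % 3 = (1 + (p % 3) ^ 3) % 3 := by
      simp [Nat.add_mod, Nat.pow_mod]
    have h5 : (1 + p ^ 3) % 3 = 0 := Nat.mod_eq_zero_of_dvd h2
    rw [h4] at h5
    have h6 : p % 3 < 3 := Nat.mod_lt _ (by norm_num)
    interval_cases (p % 3) <;> simp_all

lemma dvd_of_odd_of_dvd_mul (k : ℕ) (u x : ℤ) (hu : Odd u)
    (h : (2 : ℤ) ^ k ∣ u ^ 3 * x) : (2 : ℤ) ^ k ∣ x := by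
  have hco : IsCoprime ((2 : ℤ) ^ k) (u ^ 3) := by
    apply IsCoprime.pow
    rw [Int.isCoprime_iff_gcd_eq_one]
    have h2 : ¬ (2 : ℤ) ∣ u := by
      rw [← Int.not_even_iff_odd] at hu
      exact fun h => hu (even_iff_two_dvd.mpr h)
    exact Int.isCoprime_iff_gcd_eq_one.mp
      ((Prime.coprime_iff_not_dvd Int.prime_two).mpr h2)
  exact hco.dvd_of_dvd_mul_left h

lemma mod_four_of_dvd (p : ℕ) (u : ℤ) (hu : Odd u)
    (h : ((4 : ℕ) : ℤ) ∣ u ^ 3 * (1 + (p : ℤ) ^ 3)) : p % 4 = 3 := by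
  have h' : (2 : ℤ) ^ 2 ∣ u ^ 3 * (1 + (p : ℤ) ^ 3) := by
    have : ((4 : ℕ) : ℤ) = (2 : ℤ) ^ 2 := by norm_num
    rwa [this] at h
  have h1 := dvd_of_odd_of_dvd_mul 2 u _ hu h'
  have h2 : (4 : ℕ) ∣ 1 + p ^ 3 := by
    have : (2 : ℤ) ^ 2 = ((4 : ℕ) : ℤ) := by norm_num
    rw [this] at h1
    exact_mod_cast h1
  have h4 : (1 + p ^ 3) % 4 = (1 + (p % 4) ^ 3) % 4 := by
    simp [Nat.add_mod, Nat.pow_mod]
  have h5 : (1 + p ^ 3) % 4 = 0 := Nat.mod_eq_zero_of_dvd h2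
  rw [h4] at h5
  have h6 : p % 4 < 4 := Nat.mod_lt _ (by norm_num)
  interval_cases (p % 4) <;> simp_all

lemma mod_eight_of_dvd (p : ℕ) (u : ℤ) (hu : Odd u)
    (h : ((8 : ℕ) : ℤ) ∣ u ^ 3 * (1 + (p : ℤ) ^ 3)) : p % 8 = 7 := by
  have h' : (2 : ℤ) ^ 3 ∣ u ^ 3 * (1 + (p : ℤ) ^ 3) := by
    have : ((8 : ℕ) : ℤ) = (2 : ℤ) ^ 3 := by norm_num
    rwa [this] at h
  have h1 := dvd_of_odd_of_dvd_mul 3 u _ hu h'
  have h2 : (8 : ℕ) ∣ 1 + p ^ 3 := by
    have : (2 : ℤ) ^ 3 = ((8 : ℕ) : ℤ) := by norm_num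
    rw [this] at h1
    exact_mod_cast h1
  have h4 : (1 + p ^ 3) % 8 = (1 + (p % 8) ^ 3) % 8 := by
    simp [Nat.add_mod, Nat.pow_mod]
  have h5 : (1 + p ^ 3) % 8 = 0 := Nat.mod_eq_zero_of_dvd h2
  rw [h4] at h5
  have h6 : p % 8 < 8 := Nat.mod_lt _ (by norm_num)
  interval_cases (p % 8) <;> simp_all

end Fermat.Agent.S16.UB.Case3a2a
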