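import Mathlib
import Fermat.Agent.S23.LevelOne
import Fermat.Agent.S16.UB.Pair
import Fermat.Agent.S16.UB.LevelOneSturm

/-!
# S16 upper bound, brick (U4): the `q`-expansion principle at the cusp `0` ("QEP-lite")

Let `F ∈ M_k(Γ₀(p))` (`k` even) have integral `q`-expansion `A`, and let `p ^ s • F♯` have integral
`q`-expansion `B` (in the language of `IsPair`: `IsPair p k (zc A) Y` with `p ^ s • Y = zc B`).
If `m` is prime to `p` and divides every coefficient of `A`, then `m` divides every coefficient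
of `B`.

Proof: `Tr (F♯ · Δ(pz)^a)` is a level-one form of weight `k + 12 a` whose `q`-expansion is, up to a
power of `p`, `p^e B · V_p(Δ^a) + p^s U_p(A Δ^a)`; modulo `m` it vanishes to order `≥ ord(B) + p a`,
which for large `a` exceeds the Sturm bound `(k + 12 a) / 12`.
-/

set_option autoImplicit false

open UpperHalfPlane ModularForm CongruenceSubgroup
open scoped MatrixGroups ModularForm

namespace Fermat.Agent.S16.UB.QEP

open Fermat.Agent.S16.UB Fermat.Agent.S23.LevelOne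

noncomputable section

/-- Base change `ℤ⟦q⟧ → ℂ⟦q⟧`. -/
abbrev zc (P : PowerSeries ℤ) : PowerSeries ℂ := PowerSeries.map (Int.castRingHom ℂ) P

/-- Pure power-series core: if `B` vanishes below `q ^ m₀` and `δ = q + …`, then
`c · B · V_p(δ ^ a)` vanishes below `q ^ (m₀ + p a)`, with coefficient `c · B_{m₀}` there. -/
lemma key_series {R : Type*} [CommRing R] (p : ℕ) (hp : p ≠ 0) (a m₀ : ℕ) (c : R)
    (B δ : PowerSeries R) (hδ0 : PowerSeries.coeff 0 δ = 0) (hδ1 : PowerSeries.coeff 1 δ = 1)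
    (hB : ∀ i < m₀, PowerSeries.coeff i B = 0) :
    (∀ n < m₀ + p * a,
        PowerSeries.coeff n (PowerSeries.C c * (B * PowerSeries.expand p hp (δ ^ a))) = 0) ∧
      PowerSeries.coeff (m₀ + p * a) (PowerSeries.C c * (B * PowerSeries.expand p hp (δ ^ a)))
        = c * PowerSeries.coeff m₀ B := by
  obtain ⟨B₁, rfl⟩ : (PowerSeries.X : PowerSeries R) ^ m₀ ∣ B := PowerSeries.X_pow_dvd_iff.mpr hB
  obtain ⟨δ₁, rfl⟩ : (PowerSeries.X : PowerSeries R) ∣ δ :=
    PowerSeries.X_dvd_iff.mpr (by simpa using hδ0)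
  have h1 : PowerSeries.constantCoeff δ₁ = 1 := by
    have h := hδ1
    rw [show (1 : ℕ) = 0 + 1 from rfl, PowerSeries.coeff_succ_X_mul] at h
    simpa using h
  have e : PowerSeries.C c * (PowerSeries.X ^ m₀ * B₁ *
      PowerSeries.expand p hp ((PowerSeries.X * δ₁) ^ a))
      = PowerSeries.X ^ (m₀ + p * a) *
        (PowerSeries.C c * (B₁ * PowerSeries.expand p hp (δ₁ ^ a))) := by
    rw [mul_pow, map_mul, map_pow, PowerSeries.expand_X, ← pow_mul, pow_add]
    ring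
  rw [e]
  constructor
  · intro n hn
    rw [PowerSeries.coeff_X_pow_mul', if_neg (by omega)]
  · rw [PowerSeries.coeff_X_pow_mul', if_pos le_rfl, Nat.sub_self, PowerSeries.coeff_C_mul,
      PowerSeries.coeff_X_pow_mul', if_pos le_rfl, Nat.sub_self,
      PowerSeries.coeff_zero_eq_constantCoeff_apply, PowerSeries.coeff_zero_eq_constantCoeff_apply,
      map_mul, PowerSeries.constantCoeff_expand, map_pow, h1, one_pow, mul_one]

/-- The level-one modular form `Δ`. -/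
def deltaMF : ModularForm 𝒮ℒ 12 := CuspForm.toModularFormₗ CuspForm.discriminant

lemma qExpansion_deltaMF : qExpansion 1 deltaMF = zc deltaZ := map_deltaZ.symm

/-- **QEP-lite.** -/
theorem qep {p : ℕ} [Fact p.Prime] {k : ℤ} (hk : Even k) {A B : PowerSeries ℤ}
    {Y : PowerSeries ℂ} (s : ℕ) (h : IsPair p k (zc A) Y) (hY : ((p : ℂ) ^ s) • Y = zc B)
    (m : ℕ) (hm : m.Coprime p) (hA : ∀ n, (m : ℤ) ∣ PowerSeries.coeff n A) :
    ∀ n, (m : ℤ) ∣ PowerSeries.coeff n B := by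
  intro n
  induction n using Nat.strong_induction_on with
  | _ m₀ ih =>
  have hp : p.Prime := Fact.out
  have hp0 : (p : ℂ) ≠ 0 := by exact_mod_cast hp.ne_zero
  set a : ℕ := k.natAbs + 1 with ha
  have hkabs : k ≤ (k.natAbs : ℤ) := by omega
  have hkabs' : -(k.natAbs : ℤ) ≤ k := by omega
  -- the trace form
  have hpair := (h.symm hk).mul ((IsPair.ofLevelRaise (p := p) deltaMF).pow a)
  obtain ⟨f, hf⟩ := hpair.trace hp
  rw [qExpansion_deltaMF] at hf
  -- clearing denominators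
  obtain ⟨e, he⟩ : ∃ e : ℕ, (e : ℤ) = k + 12 * a - 1 :=
    ⟨(k + 12 * a - 1).toNat, Int.toNat_of_nonneg (by omega)⟩
  set T' : PowerSeries ℤ :=
    PowerSeries.C ((p : ℤ) ^ e) * (B * V p (deltaZ ^ a)) +
      PowerSeries.C ((p : ℤ) ^ s) * U p (A * deltaZ ^ a) with hT'def
  have hscal : (p : ℂ) ^ s * (p : ℂ) ^ e * (p : ℂ) *
      ((p : ℂ) ^ (-k) * ((p : ℂ) ^ (-(12 : ℤ))) ^ a) = (p : ℂ) ^ s := by
    have h1 : (p : ℂ) ^ e * ((p : ℂ) * ((p : ℂ) ^ (-k) * ((p : ℂ) ^ (-(12 : ℤ))) ^ a))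
        = (p : ℂ) ^ ((e : ℤ) + (1 + (-k + (-(12 : ℤ)) * a))) := by
      rw [zpow_add₀ hp0, zpow_add₀ hp0, zpow_add₀ hp0, zpow_mul, zpow_natCast, zpow_natCast,
        zpow_one]
    have h2 : (e : ℤ) + (1 + (-k + (-(12 : ℤ)) * a)) = 0 := by rw [he]; ring
    rw [mul_assoc, mul_assoc, h1, h2, zpow_zero, mul_one]
  have hT' : qExpansion 1 ⇑((((p : ℂ) ^ s * (p : ℂ) ^ e)) • f) = zc T' := by
    rw [show ⇑((((p : ℂ) ^ s * (p : ℂ) ^ e)) • f) = (((p : ℂ) ^ s * (p : ℂ) ^ e)) • ⇑f from rfl,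
      ModularForm.qExpansion_smul one_pos one_mem_strictPeriods_SL, hf]
    have e1 : zc T' = ((p : ℂ) ^ e) • (zc B * V p (zc deltaZ ^ a)) +
        ((p : ℂ) ^ s) • U p (zc A * zc deltaZ ^ a) := by
      simp only [hT'def, zc, map_add, map_mul, PowerSeries.map_C, map_pow, map_U, map_V,
        PowerSeries.smul_eq_C_mul]
      simp
    rw [e1, smul_add]
    congr 1
    · rw [← hY, map_pow, mul_comm ((p : ℂ) ^ s), mul_smul, smul_mul_assoc]
    · rw [smul_pow, smul_mul_smul_comm, map_smul, smul_smul, smul_smul, hscal]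
  -- reduction modulo `m`
  let φ : PowerSeries ℤ →+* PowerSeries (ZMod m) := PowerSeries.map (Int.castRingHom (ZMod m))
  have hφ0 : ∀ (P : PowerSeries ℤ) (i : ℕ),
      PowerSeries.coeff i (φ P) = 0 ↔ (m : ℤ) ∣ PowerSeries.coeff i P := by
    intro P i
    simp only [φ, PowerSeries.coeff_map, eq_intCast]
    exact CharP.intCast_eq_zero_iff (ZMod m) m _
  have hφA : φ A = 0 := by
    ext i
    rw [(hφ0 A i).mpr (hA i)]; simp
  have hφT : φ T' = PowerSeries.C (((p : ℤ) ^ e : ℤ) : ZMod m) *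
      (φ B * PowerSeries.expand p hp.ne_zero (φ deltaZ ^ a)) := by
    have : φ T' = PowerSeries.C (((p : ℤ) ^ e : ℤ) : ZMod m) * (φ B * V p (φ deltaZ ^ a)) +
        PowerSeries.C (((p : ℤ) ^ s : ℤ) : ZMod m) * U p (φ A * φ deltaZ ^ a) := by
      simp only [hT'def, φ, map_add, map_mul, PowerSeries.map_C, map_pow, map_U, map_V]
      simp
    rw [this, hφA, zero_mul, map_zero, mul_zero, add_zero]
  have hδ0 : PowerSeries.coeff 0 (φ deltaZ) = 0 := by
    simp [φ, PowerSeries.coeff_map, coeff_zero_deltaZ]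
  have hδ1 : PowerSeries.coeff 1 (φ deltaZ) = 1 := by
    simp [φ, PowerSeries.coeff_map, coeff_one_deltaZ]
  obtain ⟨hlow, hlead⟩ := key_series p hp.ne_zero a m₀ ((((p : ℤ) ^ e : ℤ)) : ZMod m) (φ B)
    (φ deltaZ) hδ0 hδ1 (fun i hi => (hφ0 B i).mpr (ih i hi))
  rw [← hφT] at hlow hlead
  -- Sturm
  have hst := LevelOneSturm.coeff_mem (AddSubgroup.zmultiples (m : ℂ)) _
    ((((p : ℂ) ^ s * (p : ℂ) ^ e)) • f) (fun i hi => by
      have hi' : i < m₀ + p * a := by
        have h1 : i < 2 * a := by omega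
        have h2 : 2 * a ≤ p * a := Nat.mul_le_mul_right a hp.two_le
        omega
      obtain ⟨t, ht⟩ := (hφ0 T' i).mp (hlow i hi')
      rw [hT']
      refine ⟨t, ?_⟩
      simp only [zc, PowerSeries.coeff_map, eq_intCast, ht]
      push_cast
      rw [zsmul_eq_mul]; ring) (m₀ + p * a)
  rw [hT'] at hst
  obtain ⟨t, ht⟩ := hst
  have hdvd : (m : ℤ) ∣ PowerSeries.coeff (m₀ + p * a) T' := by
    refine ⟨t, ?_⟩
    simp only [zc, PowerSeries.coeff_map, eq_intCast, zsmul_eq_mul] at ht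
    have : ((PowerSeries.coeff (m₀ + p * a) T' : ℤ) : ℂ) = (((m : ℤ) * t : ℤ) : ℂ) := by
      rw [← ht]; push_cast; ring
    exact_mod_cast this
  have hz := (hφ0 T' (m₀ + p * a)).mpr hdvd
  rw [hlead] at hz
  -- `p` is a unit modulo `m`
  have hz' : (((p : ℤ) ^ e * PowerSeries.coeff m₀ B : ℤ) : ZMod m) = 0 := by
    have : PowerSeries.coeff m₀ (φ B) = ((PowerSeries.coeff m₀ B : ℤ) : ZMod m) := by
      simp [φ, PowerSeries.coeff_map]
    rw [this] at hz
    push_cast at hz ⊢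
    exact hz
  have hd : (m : ℤ) ∣ (p : ℤ) ^ e * PowerSeries.coeff m₀ B :=
    (CharP.intCast_eq_zero_iff (ZMod m) m _).mp hz'
  have hcop : IsCoprime (m : ℤ) ((p : ℤ) ^ e) :=
    (Nat.isCoprime_iff_coprime.mpr hm).pow_right
  exact hcop.dvd_of_dvd_mul_left hd

/-- **QEP-lite**, in the shape `F♯ = p ^ (-s) • (integral series)`. -/
theorem qep_int {p : ℕ} [Fact p.Prime] (k : ℤ) (hk : Even k) (s : ℕ) (X Y : PowerSeries ℤ)
    (m : ℕ) (hm : m.Coprime p) (h : IsPair p k (zc X) ((((p : ℂ) ^ s)⁻¹) • zc Y))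
    (hX : ∀ n, (m : ℤ) ∣ PowerSeries.coeff n X) : ∀ n, (m : ℤ) ∣ PowerSeries.coeff n Y :=
  qep hk s h (smul_inv_smul₀ (pow_ne_zero s (by
    exact_mod_cast (Fact.out : p.Prime).ne_zero)) _) m hm hX

end

end Fermat.Agent.S16.UB.QEP
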