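import Mathlib
import Fermat.Agent.S16.UB.Pair
import Fermat.Agent.S16.UB.Reduce
import Fermat.Agent.S16.UB.Case3a2aCore
import Fermat.Agent.S16.UB.QEP

/-!
# S16 upper bound, cases (3a), (2a) and the `p ≡ 7 mod 8` step of (2b)

`G ∈ M₂(Γ₀(p))` with integer `q`-expansion `A ≡ u mod m`, `m ∣ 504`, `gcd(m, p) = 1`
implies `m ∣ u³ (1 + p³)`  (`dvd_cube_test`).  Proof: `F = G³ - u³ E₆ ≡ 0 mod m`, and
`p³ F♯ = -(U_p A)³ - u³ p³ E₆(q^p)` has constant term `-u³ (1 + p³)`; apply the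
`q`-expansion principle.
-/

set_option autoImplicit false

open UpperHalfPlane ModularForm CongruenceSubgroup EisensteinSeries
open scoped MatrixGroups ModularForm

namespace Fermat.Agent.S16.UB.Case3a2a

open PowerSeries Fermat.Agent.S23.LevelOne Fermat.Agent.S16.UB

/-- Base change `ℤ⟦q⟧ → ℂ⟦q⟧`. -/
local notation "zc" => PowerSeries.map (Int.castRingHom ℂ)

lemma zc_Up (p : ℕ) (A : PowerSeries ℤ) : zc (Engine.Up p A) = U p (zc A) := by
  ext n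
  simp

lemma zc_cubeNum (A : PowerSeries ℤ) :
    zc (cubeNum A) = (zc A) ^ 3 - ((coeff 0 A : ℤ) : ℂ) ^ 3 • zc e6Z := by
  rw [cubeNum, map_sub, map_pow, map_mul, map_C, smul_eq_C_mul]
  simp

lemma zc_cubeSharp (p : ℕ) [NeZero p] (A : PowerSeries ℤ) :
    (((p : ℂ) ^ 3)⁻¹) • zc (cubeSharp p (NeZero.ne p) A) =
      (-((p : ℂ)⁻¹) • U p (zc A)) ^ 3 - ((coeff 0 A : ℤ) : ℂ) ^ 3 • V p (zc e6Z) := by
  have hp0 : (p : ℂ) ≠ 0 := Nat.cast_ne_zero.mpr (NeZero.ne p)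
  rw [cubeSharp, map_sub, map_neg, map_pow, map_mul, map_C, zc_Up,
    PowerSeries.map_expand, smul_eq_C_mul, smul_eq_C_mul, smul_eq_C_mul]
  have hcd : (C ((p : ℂ)⁻¹) : PowerSeries ℂ) * C (p : ℂ) = 1 := by
    rw [← map_mul, inv_mul_cancel₀ hp0, map_one]
  have e1 : (C (((p : ℂ) ^ 3)⁻¹) : PowerSeries ℂ) = C ((p : ℂ)⁻¹) ^ 3 := by
    rw [← map_pow, inv_pow]
  have e2 : (C (-(p : ℂ)⁻¹) : PowerSeries ℂ) = - C ((p : ℂ)⁻¹) := by
    rw [map_neg]
  have e3 : (C ((Int.castRingHom ℂ) ((coeff 0 A) ^ 3 * (p : ℤ) ^ 3)) : PowerSeries ℂ) =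
      C (((coeff 0 A : ℤ) : ℂ) ^ 3) * C (p : ℂ) ^ 3 := by
    have h0 : (Int.castRingHom ℂ) ((coeff 0 A) ^ 3 * (p : ℤ) ^ 3) =
        ((coeff 0 A : ℤ) : ℂ) ^ 3 * (p : ℂ) ^ 3 := by
      rw [eq_intCast]
      push_cast
      ring
    rw [h0, map_mul]
    congr 1
    rw [map_pow]
  rw [e1, e2, e3]
  linear_combination
    (-(C (((coeff 0 A : ℤ) : ℂ) ^ 3) : PowerSeries ℂ) * (V p (zc e6Z)) *
      ((C ((p : ℂ)⁻¹) * C (p : ℂ)) ^ 2 + C ((p : ℂ)⁻¹) * C (p : ℂ) + 1)) * hcd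

/-- The pair `(G³ - u³ E₆, (G³ - u³ E₆)♯)` in integral form. -/
theorem isPair_cube (p : ℕ) [Fact p.Prime] (G : ModularForm (Gamma0 p) 2) (A : PowerSeries ℤ)
    (hA : qExpansion 1 G = zc A) :
    IsPair p 6 (zc (cubeNum A))
      ((((p : ℂ) ^ 3)⁻¹) • zc (cubeSharp p (NeZero.ne p) A)) := by
  have hp : p.Prime := Fact.out
  obtain ⟨B, hB⟩ := exists_isPair (p := p) G
  rw [hA] at hB
  have hB2 := hB.weight_two hp
  subst hB2
  have h3 := hB.pow 3
  have e : ((3 : ℕ) : ℤ) * 2 = 6 := by norm_num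
  rw [e] at h3
  have hE := IsPair.ofLevelOne (p := p) E₆
  rw [← map_e6Z] at hE
  have hF := h3.sub (hE.smul (((coeff 0 A : ℤ) : ℂ) ^ 3))
  rw [zc_cubeNum, zc_cubeSharp]
  exact hF

/-- **Cube test.**  If `G ∈ M₂(Γ₀(p))` has integer `q`-expansion `A ≡ u mod m` with `m ∣ 504`
prime to `p`, then `m ∣ u³ (1 + p³)`. -/
theorem dvd_cube_test (p : ℕ) [Fact p.Prime]
    (G : ModularForm (Gamma0 p) 2) (A : PowerSeries ℤ) (hA : qExpansion 1 G = zc A)
    (m : ℕ) (hm : m ∣ 504) (hpm : m.Coprime p) (h : ∀ n, 1 ≤ n → (m : ℤ) ∣ coeff n A) :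
    (m : ℤ) ∣ (coeff 0 A) ^ 3 * (1 + (p : ℤ) ^ 3) := by
  have h1 := QEP.qep_int (p := p) 6 (by decide) 3 (cubeNum A) (cubeSharp p (NeZero.ne p) A) m hpm
    (isPair_cube p G A hA) (dvd_coeff_cubeNum m hm A h) 0
  rw [coeff_zero_cubeSharp] at h1
  exact (dvd_neg).mp h1

/-- From `UnitMod` to the integral power-series shape. -/
lemma exists_series_of_unitMod {p l r : ℕ} (h : Reduce.UnitMod p l r) :
    ∃ (G : ModularForm (Gamma0 p) 2) (A : PowerSeries ℤ), qExpansion 1 G = zc A ∧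
      ¬ (l : ℤ) ∣ coeff 0 A ∧ ∀ n, 1 ≤ n → (l : ℤ) ^ r ∣ coeff n A := by
  obtain ⟨G, a, ha, h0, hn⟩ := h
  refine ⟨G, PowerSeries.mk a, ?_, by simpa using h0, fun n hn1 => by simpa using hn n hn1⟩
  ext n
  rw [coeff_map, coeff_mk]
  simpa [ModularFormClass.qCoeff] using ha n

lemma odd_of_not_two_dvd {u : ℤ} (h : ¬ ((2 : ℕ) : ℤ) ∣ u) : Odd u := by
  rw [← Int.not_even_iff_odd]
  intro he
  exact h (by exact_mod_cast even_iff_two_dvd.mp he)

/-- **(3a)**: a unit modulo `3` forces `p ≡ 2 mod 3`. -/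
theorem hB3a (p : ℕ) [Fact p.Prime] (hp3 : p ≠ 3)
    (h : Reduce.UnitMod p 3 1) : p % 3 = 2 := by
  obtain ⟨G, A, hA, h0, hn⟩ := exists_series_of_unitMod h
  have hp : p.Prime := Fact.out
  have hco : Nat.Coprime 3 p := (Nat.coprime_primes Nat.prime_three hp).mpr (Ne.symm hp3)
  have h1 := dvd_cube_test p G A hA 3 (by norm_num) hco
    (fun n hn1 => by simpa using hn n hn1)
  exact mod_three_of_dvd p _ (by exact_mod_cast h0) h1

/-- **(2a)**: a unit modulo `4` forces `p ≡ 3 mod 4`. -/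
theorem hB2a (p : ℕ) [Fact p.Prime] (hp2 : p ≠ 2)
    (h : Reduce.UnitMod p 2 2) : p % 4 = 3 := by
  obtain ⟨G, A, hA, h0, hn⟩ := exists_series_of_unitMod h
  have hp : p.Prime := Fact.out
  have hco2 : Nat.Coprime 2 p := (Nat.coprime_primes Nat.prime_two hp).mpr (Ne.symm hp2)
  have hco : Nat.Coprime 4 p := by
    have := Nat.Coprime.pow_left 2 hco2
    norm_num at this
    exact this
  have h1 := dvd_cube_test p G A hA 4 (by norm_num) hco
    (fun n hn1 => by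
      have := hn n hn1
      norm_num at this ⊢
      exact this)
  exact mod_four_of_dvd p _ (odd_of_not_two_dvd h0) h1

/-- The first half of (2b): a unit modulo `8` forces `p ≡ 7 mod 8`. -/
theorem mod_eight_of_unitMod (p : ℕ) [Fact p.Prime] (hp2 : p ≠ 2)
    (h : Reduce.UnitMod p 2 3) : p % 8 = 7 := by
  obtain ⟨G, A, hA, h0, hn⟩ := exists_series_of_unitMod h
  have hp : p.Prime := Fact.out
  have hco2 : Nat.Coprime 2 p := (Nat.coprime_primes Nat.prime_two hp).mpr (Ne.symm hp2)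
  have hco : Nat.Coprime 8 p := by
    have := Nat.Coprime.pow_left 3 hco2
    norm_num at this
    exact this
  have h1 := dvd_cube_test p G A hA 8 (by norm_num) hco
    (fun n hn1 => by
      have := hn n hn1
      norm_num at this ⊢
      exact this)
  exact mod_eight_of_dvd p _ (odd_of_not_two_dvd h0) h1

end Fermat.Agent.S16.UB.Case3a2a
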