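import Mathlib
import Fermat.Agent.S23.Basic
import Fermat.Agent.S23.LevelOne
import Fermat.Agent.S16.UB.Engine
import Fermat.Agent.S16.UB.LevelOneSturm

/-!
# S16 upper bound, case (B3b): no `G ∈ M₂(Γ₀(p))` is a unit modulo `9` (`p ≠ 3`)

Pure power-series core.  `A ∈ ℤ⟦q⟧` is the `q`-expansion of `G`, `u = a₀(A)`, `9 ∣ aₙ(A)` for
`n ≥ 1`, `3 ∤ u`.  With `3 d = p² - 1`, the weight-4 form `F = (G² - u² E₄)/3 + u² d E₄` has
`q`-expansion `AF p A` and `p² F# ` has `q`-expansion `BF p A ≡ V_p(∑ σ₃(n) qⁿ) (mod 3)`.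
The trace of `F^(2p-2) Δ(pz)^p` to level one then contradicts the level-one Sturm bound
(`Engine.engineA`).
-/

set_option autoImplicit false

open PowerSeries
open scoped MatrixGroups

namespace Fermat.Agent.S16.UB.Case3b

open Fermat.Agent.S23 Fermat.Agent.S23.LevelOne Fermat.Agent.S16.UB.Engine

noncomputable section

/-! ### The localisation `ℤ[1/p] ⊆ ℂ` and its ideal `3 ℤ[1/p]` -/

/-- `ℤ[1/p]` as a subring of `ℂ`. -/
def Oloc (p : ℕ) : Subring ℂ where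
  carrier := {x | ∃ (m : ℤ) (j : ℕ), x * (p : ℂ) ^ j = m}
  mul_mem' := by
    rintro x y ⟨m, j, h⟩ ⟨m', j', h'⟩
    exact ⟨m * m', j + j', by push_cast; rw [pow_add, ← h, ← h']; ring⟩
  one_mem' := ⟨1, 0, by simp⟩
  add_mem' := by
    rintro x y ⟨m, j, h⟩ ⟨m', j', h'⟩
    exact ⟨m * (p : ℤ) ^ j' + m' * (p : ℤ) ^ j, j + j', by
      push_cast; rw [pow_add, ← h, ← h']; ring⟩
  zero_mem' := ⟨0, 0, by simp⟩
  neg_mem' := by
    rintro x ⟨m, j, h⟩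
    exact ⟨-m, j, by push_cast; rw [← h]; ring⟩

/-- `3 ℤ[1/p]` as an additive subgroup of `ℂ`. -/
def Iloc (p : ℕ) : AddSubgroup ℂ where
  carrier := {x | ∃ (m : ℤ) (j : ℕ), x * (p : ℂ) ^ j = 3 * m}
  add_mem' := by
    rintro x y ⟨m, j, h⟩ ⟨m', j', h'⟩
    exact ⟨m * (p : ℤ) ^ j' + m' * (p : ℤ) ^ j, j + j', by
      push_cast; rw [pow_add]
      linear_combination (p : ℂ) ^ j' * h + (p : ℂ) ^ j * h'⟩
  zero_mem' := ⟨0, 0, by simp⟩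
  neg_mem' := by
    rintro x ⟨m, j, h⟩
    exact ⟨-m, j, by push_cast; linear_combination -h⟩

lemma mem_Oloc {p : ℕ} {x : ℂ} : x ∈ Oloc p ↔ ∃ (m : ℤ) (j : ℕ), x * (p : ℂ) ^ j = m := Iff.rfl

lemma mem_Iloc {p : ℕ} {x : ℂ} : x ∈ Iloc p ↔ ∃ (m : ℤ) (j : ℕ), x * (p : ℂ) ^ j = 3 * m :=
  Iff.rfl

lemma intCast_mem_Oloc (p : ℕ) (m : ℤ) : (m : ℂ) ∈ Oloc p := ⟨m, 0, by simp⟩

lemma coeff_zc_mem_Oloc (p : ℕ) (P : PowerSeries ℤ) (n : ℕ) : coeff n (zc P) ∈ Oloc p := by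
  rw [coeff_map]
  exact intCast_mem_Oloc p _

lemma inv_pow_mem_Oloc (p : ℕ) (hp : p ≠ 0) (j : ℕ) : ((p : ℂ) ^ j)⁻¹ ∈ Oloc p := by
  refine ⟨1, j, ?_⟩
  have : (p : ℂ) ^ j ≠ 0 := pow_ne_zero _ (Nat.cast_ne_zero.mpr hp)
  rw [inv_mul_cancel₀ this]
  simp

lemma Oloc_mul_Iloc (p : ℕ) : ∀ x ∈ Oloc p, ∀ y ∈ Iloc p, x * y ∈ Iloc p := by
  rintro x ⟨m, j, h⟩ y ⟨m', j', h'⟩
  exact ⟨m * m', j + j', by push_cast; rw [pow_add]; linear_combination (y * (p:ℂ) ^ j') * h + (m:ℂ) * h'⟩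

lemma one_not_mem_Iloc (p : ℕ) (hp : p.Prime) (hp3 : p ≠ 3) : (1 : ℂ) ∉ Iloc p := by
  rintro ⟨m, j, h⟩
  have h' : ((p : ℤ) ^ j : ℤ) = 3 * m := by exact_mod_cast (by simpa using h : (p : ℂ) ^ j = 3 * m)
  have h3 : (3 : ℤ) ∣ (p : ℤ) ^ j := ⟨m, h'⟩
  have h3' : (3 : ℕ) ∣ p ^ j := by exact_mod_cast h3
  have := Nat.prime_three.dvd_of_dvd_pow h3'
  exact hp3 ((Nat.prime_dvd_prime_iff_eq Nat.prime_three hp).mp this).symm

/-! ### Arithmetic modulo 3 -/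

lemma three_dvd_sq_sub_one (x : ℤ) (h : ¬ (3 : ℤ) ∣ x) : (3 : ℤ) ∣ x ^ 2 - 1 := by
  have key : ∀ y : ZMod 3, y ≠ 0 → y ^ 2 - 1 = 0 := by decide
  have hx : (x : ZMod 3) ≠ 0 := by
    intro h0
    exact h ((ZMod.intCast_zmod_eq_zero_iff_dvd x 3).mp h0)
  have := key _ hx
  exact (ZMod.intCast_zmod_eq_zero_iff_dvd (x ^ 2 - 1) 3).mp (by push_cast; exact this)

/-- The integer `d` with `3 d = p² - 1`. -/
def dOf (p : ℕ) : ℤ := ((p : ℤ) ^ 2 - 1) / 3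

lemma three_mul_dOf (p : ℕ) (hp : p.Prime) (hp3 : p ≠ 3) : 3 * dOf p = (p : ℤ) ^ 2 - 1 := by
  unfold dOf
  apply Int.mul_ediv_cancel'
  apply three_dvd_sq_sub_one
  intro h
  have h' : (3 : ℕ) ∣ p := by exact_mod_cast h
  exact hp3 ((Nat.prime_dvd_prime_iff_eq Nat.prime_three hp).mp h').symm

/-! ### Splitting off the constant term -/

/-- `A = C (a₀) + 9 * ninth A` when `9 ∣ aₙ` for `n ≥ 1`. -/
def ninth (A : PowerSeries ℤ) : PowerSeries ℤ :=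
  PowerSeries.mk fun n => if n = 0 then 0 else coeff n A / 9

lemma eq_add_ninth (A : PowerSeries ℤ) (h9 : ∀ n, 1 ≤ n → (9 : ℤ) ∣ coeff n A) :
    C (coeff 0 A) + C (9 : ℤ) * ninth A = A := by
  ext n
  rcases Nat.eq_zero_or_pos n with rfl | hn
  · simp [ninth]
  · have hn0 : n ≠ 0 := hn.ne'
    simp only [map_add, coeff_C, if_neg hn0, zero_add, coeff_C_mul, ninth, coeff_mk]
    exact Int.mul_ediv_cancel' (h9 n hn)

lemma coeff_zero_Up (p : ℕ) (A : PowerSeries ℤ) : coeff 0 (Up p A) = coeff 0 A := by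
  simp

lemma nine_dvd_coeff_Up (p : ℕ) (hp : p ≠ 0) (A : PowerSeries ℤ)
    (h9 : ∀ n, 1 ≤ n → (9 : ℤ) ∣ coeff n A) : ∀ n, 1 ≤ n → (9 : ℤ) ∣ coeff n (Up p A) := by
  intro n hn
  rw [coeff_Up]
  exact h9 _ (Nat.mul_pos (Nat.pos_of_ne_zero hp) hn)

/-! ### The weight-4 form `F = (G² - u² E₄)/3 + u² d E₄` at both cusps -/

/-- The `q`-expansion of `F`. -/
def AF (p : ℕ) (A : PowerSeries ℤ) : PowerSeries ℤ :=
  C (6 * coeff 0 A) * ninth A + C (27 : ℤ) * ninth A ^ 2 - C (80 * coeff 0 A ^ 2) * aZ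
    + C (coeff 0 A ^ 2 * dOf p) * e4Z

/-- The `q`-expansion of `p² F#`. -/
def BF (p : ℕ) (hp : p ≠ 0) (A : PowerSeries ℤ) : PowerSeries ℤ :=
  C (-(coeff 0 A ^ 2 * dOf p)) + C (6 * coeff 0 A) * ninth (Up p A)
    + C (27 : ℤ) * ninth (Up p A) ^ 2 - C (80 * (p : ℤ) ^ 2 * coeff 0 A ^ 2) * expand p hp aZ
    + C (coeff 0 A ^ 2 * dOf p * (p : ℤ) ^ 2) * expand p hp e4Z

lemma AF_identity (u d : ℤ) (A' S : PowerSeries ℤ) :
    C (3 : ℤ) * (C (6 * u) * A' + C (27 : ℤ) * A' ^ 2 - C (80 * u ^ 2) * S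
        + C (u ^ 2 * d) * (1 + C (240 : ℤ) * S))
      = (C u + C (9 : ℤ) * A') ^ 2 - C (u ^ 2) * (1 + C (240 : ℤ) * S)
        + C (3 * (u ^ 2 * d)) * (1 + C (240 : ℤ) * S) := by
  simp only [map_mul, map_pow, map_ofNat]
  ring

/-- `3 * AF = A² - u² E₄ + 3 u² d E₄`. -/
lemma three_mul_AF (p : ℕ) (A : PowerSeries ℤ) (h9 : ∀ n, 1 ≤ n → (9 : ℤ) ∣ coeff n A) :
    C (3 : ℤ) * AF p A = A ^ 2 - C (coeff 0 A ^ 2) * e4Z
      + C (3 * (coeff 0 A ^ 2 * dOf p)) * e4Z := by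
  have h := AF_identity (coeff 0 A) (dOf p) (ninth A) aZ
  rw [eq_add_ninth A h9, ← e4Z_eq] at h
  exact h

lemma BF_identity (u d P : ℤ) (hd : 3 * d = P - 1) (K' S : PowerSeries ℤ) :
    C (3 : ℤ) * (C (-(u ^ 2 * d)) + C (6 * u) * K' + C (27 : ℤ) * K' ^ 2 - C (80 * P * u ^ 2) * S
        + C (u ^ 2 * d * P) * (1 + C (240 : ℤ) * S))
      = (C u + C (9 : ℤ) * K') ^ 2 - C (P * u ^ 2) * (1 + C (240 : ℤ) * S)
        + C (3 * (u ^ 2 * d * P)) * (1 + C (240 : ℤ) * S) := by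
  obtain rfl : P = 3 * d + 1 := by linarith
  simp only [map_mul, map_pow, map_ofNat, map_neg, map_add, map_one]
  ring

lemma expand_e4Z (p : ℕ) (hp : p ≠ 0) :
    expand p hp e4Z = 1 + C (240 : ℤ) * expand p hp aZ := by
  rw [e4Z_eq, map_add, map_one, map_mul, expand_C]

/-- `3 * BF = (U_p A)² - p² u² V_p E₄ + 3 u² d p² V_p E₄`. -/
lemma three_mul_BF (p : ℕ) (hp : p.Prime) (hp3 : p ≠ 3) (A : PowerSeries ℤ)
    (h9 : ∀ n, 1 ≤ n → (9 : ℤ) ∣ coeff n A) :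
    C (3 : ℤ) * BF p hp.ne_zero A = Up p A ^ 2
      - C ((p : ℤ) ^ 2 * coeff 0 A ^ 2) * expand p hp.ne_zero e4Z
      + C (3 * (coeff 0 A ^ 2 * dOf p * (p : ℤ) ^ 2)) * expand p hp.ne_zero e4Z := by
  have h := BF_identity (coeff 0 A) (dOf p) ((p : ℤ) ^ 2) (three_mul_dOf p hp hp3)
    (ninth (Up p A)) (expand p hp.ne_zero aZ)
  have hK := eq_add_ninth (Up p A) (nine_dvd_coeff_Up p hp.ne_zero A h9)
  rw [coeff_zero_Up] at hK
  rw [hK, ← expand_e4Z] at h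
  exact h

lemma BF_congr_identity (u d e P : ℤ) (hd : 3 * d = P - 1) (he : 3 * e = u ^ 2 - 1)
    (K' S : PowerSeries ℤ) :
    (C (-(u ^ 2 * d)) + C (6 * u) * K' + C (27 : ℤ) * K' ^ 2 - C (80 * P * u ^ 2) * S
        + C (u ^ 2 * d * P) * (1 + C (240 : ℤ) * S)) - S
      = C (3 : ℤ) * (C (u ^ 2 * d ^ 2) + C (2 * u) * K' + C (9 : ℤ) * K' ^ 2
          + C (80 * u ^ 2 * d * P) * S - C (27 + 80 * d + 80 * e + 240 * d * e) * S) := by
  obtain rfl : P = 3 * d + 1 := by linarith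
  have he' : (C (u ^ 2) : PowerSeries ℤ) = C (3 * e + 1) := by
    congr 1; linarith
  simp only [map_mul, map_pow, map_ofNat, map_neg, map_add, map_one] at he' ⊢
  linear_combination (-(80 : PowerSeries ℤ) * (3 * C d + 1) * S) * he'

/-- `BF ≡ V_p (∑ σ₃(n) qⁿ)` modulo `3`. -/
lemma BF_congr (p : ℕ) (hp : p.Prime) (hp3 : p ≠ 3) (A : PowerSeries ℤ)
    (h3 : ¬ (3 : ℤ) ∣ coeff 0 A) :
    ∃ W : PowerSeries ℤ, BF p hp.ne_zero A - expand p hp.ne_zero aZ = C (3 : ℤ) * W := by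
  obtain ⟨e, he⟩ := three_dvd_sq_sub_one _ h3
  refine ⟨C (coeff 0 A ^ 2 * dOf p ^ 2) + C (2 * coeff 0 A) * ninth (Up p A)
    + C (9 : ℤ) * ninth (Up p A) ^ 2
    + C (80 * coeff 0 A ^ 2 * dOf p * (p : ℤ) ^ 2) * expand p hp.ne_zero aZ
    - C (27 + 80 * dOf p + 80 * e + 240 * dOf p * e) * expand p hp.ne_zero aZ, ?_⟩
  have h := BF_congr_identity (coeff 0 A) (dOf p) e ((p : ℤ) ^ 2) (three_mul_dOf p hp hp3)
    he.symm (ninth (Up p A)) (expand p hp.ne_zero aZ)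
  rw [← expand_e4Z] at h
  exact h

/-! ### The contradiction -/

lemma coeff_zero_aZ : coeff 0 aZ = 0 := by
  simp [aZ]

lemma coeff_one_aZ : coeff 1 aZ = 1 := by
  simp [aZ, ArithmeticFunction.sigma_apply]

/-- **Core of (B3b).**  If the trace of `F^(2p-2) Δ(pz)^p` is a level-one form (of weight
`≤ 20p - 8`) with the `q`-expansion predicted by the trace formula, we get a contradiction. -/
theorem false_of_trace (p : ℕ) (hp : p.Prime) (hp3 : p ≠ 3) (A : PowerSeries ℤ)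
    (h3 : ¬ (3 : ℤ) ∣ coeff 0 A)
    (w : ℤ) (hw : w ≤ 20 * (p : ℤ) - 8) (f : ModularForm 𝒮ℒ w)
    (hf : UpperHalfPlane.qExpansion 1 f =
      zc (AF p A) ^ (2 * p - 2) * expand p hp.ne_zero (zc deltaZ ^ p)
        + C ((p : ℂ) * ((p : ℂ) ^ (12 * p))⁻¹) *
          Up p ((C (((p : ℂ) ^ 2)⁻¹) * zc (BF p hp.ne_zero A)) ^ (2 * p - 2) * zc deltaZ ^ p)) :
    False := by
  have hp0 : p ≠ 0 := hp.ne_zero
  have hp2 : 2 ≤ p := hp.two_le
  have hpC : (p : ℂ) ≠ 0 := Nat.cast_ne_zero.mpr hp0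
  obtain ⟨W, hW⟩ := BF_congr p hp hp3 A h3
  refine engineA (Oloc p) (Iloc p) (Oloc_mul_Iloc p) (one_not_mem_Iloc p hp hp3) p hp0
    (2 * p - 2) 1 (2 * p - 2) (zc (AF p A)) (C (((p : ℂ) ^ 2)⁻¹) * zc (BF p hp0 A))
    (zc aZ) (zc deltaZ) (coeff_zc_mem_Oloc p _) ?_ (coeff_zc_mem_Oloc p _)
    (coeff_zc_mem_Oloc p _) ?_ ?_ ?_ ?_ ?_ ((p : ℂ) * ((p : ℂ) ^ (12 * p))⁻¹) ?_ ?_ ?_ ?_
    (UpperHalfPlane.qExpansion 1 f) hf ?_
  · -- `B` has coefficients in `O`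
    intro n
    rw [coeff_C_mul]
    exact (Oloc p).mul_mem (inv_pow_mem_Oloc p hp0 2) (coeff_zc_mem_Oloc p _ n)
  · -- `coeff 0 Δ = 0`
    rw [coeff_map, coeff_zero_deltaZ]; simp
  · -- `coeff 1 Δ = 1`
    rw [coeff_map, coeff_one_deltaZ]; simp
  · -- `B ≡ V_p Q`
    intro n
    have h1 : coeff n (BF p hp0 A) = coeff n (expand p hp0 aZ) + 3 * coeff n W := by
      have := congrArg (coeff n) hW
      rw [map_sub, coeff_C_mul] at this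
      linarith
    have h2 : (expand p hp0 (zc aZ) : PowerSeries ℂ) = zc (expand p hp0 aZ) := by
      exact (map_expand p hp0 (Int.castRingHom ℂ) aZ).symm
    rw [map_sub, coeff_C_mul, h2, coeff_map, coeff_map, h1]
    refine ⟨coeff n W - dOf p * coeff n (expand p hp0 aZ), 2, ?_⟩
    have hd : (3 : ℂ) * (dOf p : ℂ) = (p : ℂ) ^ 2 - 1 := by
      exact_mod_cast three_mul_dOf p hp hp3
    have hpp : (p : ℂ) ^ 2 ≠ 0 := pow_ne_zero _ hpC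
    simp only [eq_intCast, Int.cast_add, Int.cast_mul, Int.cast_ofNat, Int.cast_sub]
    field_simp
    linear_combination (((coeff n (expand p hp0 aZ) : ℤ) : ℂ)) * hd
  · -- `Q` vanishes below `1`
    intro n hn
    have hn0 : n = 0 := by omega
    subst hn0
    rw [coeff_map, coeff_zero_aZ]
    simp
  · -- leading coefficient of `Q`
    refine ⟨1, (Oloc p).one_mem, ?_⟩
    rw [coeff_map, coeff_one_aZ]
    simp
  · -- `u ∈ O`
    have hpO : (p : ℂ) ∈ Oloc p := by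
      have := intCast_mem_Oloc p (p : ℤ)
      rwa [Int.cast_natCast] at this
    exact (Oloc p).mul_mem hpO (inv_pow_mem_Oloc p hp0 _)
  · -- `u` is a unit mod `I`
    refine ⟨(p : ℂ) ^ (12 * p - 1), by simpa using intCast_mem_Oloc p ((p : ℤ) ^ (12 * p - 1)), ?_⟩
    have e1 : (p : ℂ) * ((p : ℂ) ^ (12 * p))⁻¹ * (p : ℂ) ^ (12 * p - 1) = 1 := by
      have : (p : ℂ) ^ (12 * p) = (p : ℂ) ^ (12 * p - 1) * p := by
        rw [← pow_succ]; congr 1; omega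
      rw [this]
      have hne : (p : ℂ) ^ (12 * p - 1) ≠ 0 := pow_ne_zero _ hpC
      field_simp
    rw [e1, sub_self]
    exact (Iloc p).zero_mem
  · -- `N + 1 < p²`
    have : 2 * p - 2 + 2 = 2 * p := by omega
    nlinarith
  · -- `b < N + 1`
    omega
  · -- the Sturm bound
    intro _ hlow
    refine LevelOneSturm.coeff_mem (Iloc p) w f fun i hi => hlow i ?_
    have : 12 * (i : ℤ) ≤ 20 * (p : ℤ) - 8 := hi.trans hw
    omega

end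

end Fermat.Agent.S16.UB.Case3b
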