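import Mathlib
import Fermat.Prelude.Def_ModularForm_HeckeOperatorForms
import Fermat.Prelude.Thm_ModularFormClass_qCoeff_heckeT

/-!
# The level-one `T₂`-trick (brick (L1) of the S16 upper bound)

Let `O ⊆ ℂ` be a subring, `A ⊆ ℂ` an additive subgroup with `O · A ⊆ A` and `l · O ⊆ A`
(think `A = l · O`, `O` the `l`-integral algebraic numbers), and suppose the level-one Sturm
statement holds for `A`.  If a level-one form `H` of weight `w` with coefficients in `O` is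
congruent to a constant `c` (an integer prime to `l`) modulo `A`, then `l ∣ 2 ^ w - 1`.

Proof: for a level-one form `F` of weight `k` with coefficients in `O`,
`T₂^{(k+w)}(F H) - T₂^{(k)}(F) H ≡ c 2^{k-1} (2^w - 1) F(q²)` modulo `A`.  If `l ∤ 2^w - 1`,
iterating from a form `F₀` with `a₀(F₀) ∈ A` and `a_m(F₀) ∉ A` gives level-one forms of weight
`k₀ + i w` congruent to a unit multiple of `F₀(q^{2^i})`, contradicting the Sturm bound for large
`i`.
-/

set_option autoImplicit false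

open UpperHalfPlane ModularForm ModularFormClass
open scoped MatrixGroups

namespace Fermat.Agent.S16.UB.T2Trick

noncomputable section

/-! ### `T₂` on level-one forms -/

theorem gamma0_one_eq_SL :
    ((CongruenceSubgroup.Gamma0 1 : Subgroup SL(2, ℤ)) : Subgroup (GL (Fin 2) ℝ)) = 𝒮ℒ := by
  have h : CongruenceSubgroup.Gamma0 1 = ⊤ := by
    ext A
    simp only [CongruenceSubgroup.Gamma0_mem, Subgroup.mem_top, iff_true]
    exact Subsingleton.elim _ _
  rw [h, MonoidHom.range_eq_map]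

/-- The Hecke operator `T₂` on level-one modular forms of weight `k`. -/
def T2 (k : ℤ) (F : ModularForm 𝒮ℒ k) : ModularForm 𝒮ℒ k where
  toFun := ModularForm.heckeT k 2 ⇑F
  slash_action_eq' := fun γ hγ =>
    ModularForm.heckeT_slash_eq_self_of_mem_Gamma0 (N := 1) k Nat.prime_two (by norm_num)
      (fun γ hγ => SlashInvariantFormClass.slash_action_eq F γ (gamma0_one_eq_SL ▸ hγ)) γ
      (gamma0_one_eq_SL.symm ▸ hγ)
  holo' := ModularForm.mdifferentiable_heckeT (ModularFormClass.holo F) k 2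
  bdd_at_cusps' := fun hc => ModularFormClass.isBoundedAt_heckeT F 2 hc

/-- The formal `T₂` in weight `k` on power series. -/
def T2s (k : ℤ) (P : PowerSeries ℂ) : PowerSeries ℂ :=
  PowerSeries.mk fun n =>
    PowerSeries.coeff (n * 2) P + if 2 ∣ n then (2 : ℂ) ^ (k - 1) * PowerSeries.coeff (n / 2) P else 0

theorem coeff_T2s (k : ℤ) (P : PowerSeries ℂ) (n : ℕ) :
    PowerSeries.coeff n (T2s k P) =
      PowerSeries.coeff (n * 2) P +
        if 2 ∣ n then (2 : ℂ) ^ (k - 1) * PowerSeries.coeff (n / 2) P else 0 := by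
  simp [T2s]

theorem qExpansion_T2 (k : ℤ) (F : ModularForm 𝒮ℒ k) :
    qExpansion 1 (T2 k F) = T2s k (qExpansion 1 F) := by
  ext n
  have h := ModularFormClass.qCoeff_heckeT F one_mem_strictPeriods_SL (p := 2) (by norm_num) n
  have hcoe : (⇑(T2 k F) : ℍ → ℂ) = ModularForm.heckeT k 2 ⇑F := rfl
  rw [coeff_T2s, hcoe]
  simpa [ModularFormClass.qCoeff, ModularForm.coeffHeckeT] using h

theorem T2s_add (k : ℤ) (P Q : PowerSeries ℂ) : T2s k (P + Q) = T2s k P + T2s k Q := by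
  ext n
  simp only [coeff_T2s, map_add]
  split_ifs <;> ring

theorem T2s_sub (k : ℤ) (P Q : PowerSeries ℂ) : T2s k (P - Q) = T2s k P - T2s k Q := by
  ext n
  simp only [coeff_T2s, map_sub]
  split_ifs <;> ring

/-! ### Integrality predicates on power series -/

/-- All coefficients lie in the subring `O`. -/
def IsO (O : Subring ℂ) (P : PowerSeries ℂ) : Prop := ∀ n, PowerSeries.coeff n P ∈ O

/-- All coefficients lie in the additive subgroup `A`. -/
def IsA (A : AddSubgroup ℂ) (P : PowerSeries ℂ) : Prop := ∀ n, PowerSeries.coeff n P ∈ A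

variable {O : Subring ℂ} {A : AddSubgroup ℂ}

theorem IsO.mul {P Q : PowerSeries ℂ} (hP : IsO O P) (hQ : IsO O Q) : IsO O (P * Q) := by
  intro n
  rw [PowerSeries.coeff_mul]
  exact Subring.sum_mem _ fun x _ => O.mul_mem (hP _) (hQ _)

theorem IsO.sub {P Q : PowerSeries ℂ} (hP : IsO O P) (hQ : IsO O Q) : IsO O (P - Q) := by
  intro n
  rw [map_sub]
  exact O.sub_mem (hP _) (hQ _)

theorem two_zpow_eq {k : ℤ} (hk : 1 ≤ k) : (2 : ℂ) ^ (k - 1) = ((2 ^ (k - 1).toNat : ℕ) : ℂ) := by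
  have h : k - 1 = ((k - 1).toNat : ℤ) := (Int.toNat_of_nonneg (by omega)).symm
  conv_lhs => rw [h]
  rw [zpow_natCast]
  push_cast
  rfl

theorem IsO.T2s {k : ℤ} (hk : 1 ≤ k) {P : PowerSeries ℂ} (hP : IsO O P) : IsO O (T2s k P) := by
  intro n
  rw [coeff_T2s, two_zpow_eq hk]
  split_ifs
  · exact O.add_mem (hP _) (O.mul_mem (natCast_mem O _) (hP _))
  · rw [add_zero]; exact hP _

theorem IsA.sub {P Q : PowerSeries ℂ} (hP : IsA A P) (hQ : IsA A Q) : IsA A (P - Q) := by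
  intro n
  rw [map_sub]
  exact A.sub_mem (hP _) (hQ _)

theorem natCast_mul_mem {x : ℂ} (hx : x ∈ A) (m : ℕ) : (m : ℂ) * x ∈ A := by
  rw [← nsmul_eq_mul]
  exact A.nsmul_mem hx m

theorem intCast_mul_mem {x : ℂ} (hx : x ∈ A) (m : ℤ) : (m : ℂ) * x ∈ A := by
  rw [← zsmul_eq_mul]
  exact A.zsmul_mem hx m

theorem IsA.T2s {k : ℤ} (hk : 1 ≤ k) {P : PowerSeries ℂ} (hP : IsA A P) : IsA A (T2s k P) := by
  intro n
  rw [coeff_T2s, two_zpow_eq hk]
  split_ifs
  · exact A.add_mem (hP _) (natCast_mul_mem (hP _) _)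
  · rw [add_zero]; exact hP _

theorem IsA.mul_left (hOA : ∀ x ∈ O, ∀ y ∈ A, x * y ∈ A) {P R : PowerSeries ℂ}
    (hP : IsO O P) (hR : IsA A R) : IsA A (P * R) := by
  intro n
  rw [PowerSeries.coeff_mul]
  exact AddSubgroup.sum_mem _ fun x _ => hOA _ (hP _) _ (hR _)

/-! ### The key congruence -/

/-- The integer `c · 2^{k-1} · (2^w - 1)`. -/
def dconst (k : ℤ) (w : ℕ) (c : ℤ) : ℤ := c * 2 ^ (k - 1).toNat * (2 ^ w - 1)

theorem coeff_T2s_const_mul (k : ℤ) (hk : 1 ≤ k) (w : ℕ) (c : ℤ) (P : PowerSeries ℂ) (n : ℕ) :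
    PowerSeries.coeff n
        (T2s (k + w) (PowerSeries.C (c : ℂ) * P) - PowerSeries.C (c : ℂ) * T2s k P) =
      if 2 ∣ n then (dconst k w c : ℂ) * PowerSeries.coeff (n / 2) P else 0 := by
  have hk' : (1 : ℤ) ≤ k + w := by omega
  have e : (k + (w : ℤ) - 1).toNat = (k - 1).toNat + w := by omega
  rw [map_sub, coeff_T2s, PowerSeries.coeff_C_mul, PowerSeries.coeff_C_mul, PowerSeries.coeff_C_mul,
    coeff_T2s, two_zpow_eq hk, two_zpow_eq hk', e]
  unfold dconst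
  split_ifs
  · push_cast
    ring
  · ring

theorem step_series (hOA : ∀ x ∈ O, ∀ y ∈ A, x * y ∈ A) (k : ℤ) (hk : 1 ≤ k) (w : ℕ)
    (Fs Hs : PowerSeries ℂ) (c : ℤ) (hF : IsO O Fs)
    (hR : IsA A (Hs - PowerSeries.C (c : ℂ))) (n : ℕ) :
    PowerSeries.coeff n (T2s (k + w) (Fs * Hs) - T2s k Fs * Hs) -
      (if 2 ∣ n then (dconst k w c : ℂ) * PowerSeries.coeff (n / 2) Fs else 0) ∈ A := by
  have hk' : (1 : ℤ) ≤ k + w := by omega
  set R := Hs - PowerSeries.C (c : ℂ) with hRdef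
  have hHs : Hs = PowerSeries.C (c : ℂ) + R := by rw [hRdef]; ring
  have e1 : T2s (k + w) (Fs * Hs) - T2s k Fs * Hs =
      (T2s (k + w) (PowerSeries.C (c : ℂ) * Fs) - PowerSeries.C (c : ℂ) * T2s k Fs) +
        (T2s (k + w) (Fs * R) - T2s k Fs * R) := by
    have : Fs * Hs = PowerSeries.C (c : ℂ) * Fs + Fs * R := by rw [hHs]; ring
    rw [this, T2s_add, hHs]
    ring
  rw [e1, map_add, coeff_T2s_const_mul k hk, add_sub_cancel_left]
  exact (IsA.sub (IsA.T2s hk' (IsA.mul_left hOA hF hR))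
    (IsA.mul_left hOA (IsO.T2s hk hF) hR)) n

/-! ### The step on modular forms -/

/-- The form `T₂(F H) - T₂(F) H`. -/
def stepForm (k : ℤ) (w : ℕ) (F : ModularForm 𝒮ℒ k) (H : ModularForm 𝒮ℒ (w : ℤ)) :
    ModularForm 𝒮ℒ (k + w) :=
  T2 (k + w) (F.mul H) - (T2 k F).mul H

theorem qExpansion_stepForm (k : ℤ) (w : ℕ) (F : ModularForm 𝒮ℒ k)
    (H : ModularForm 𝒮ℒ (w : ℤ)) :
    qExpansion 1 (stepForm k w F H) =
      T2s (k + w) (qExpansion 1 F * qExpansion 1 H) - T2s k (qExpansion 1 F) * qExpansion 1 H := by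
  have h : (⇑(stepForm k w F H) : ℍ → ℂ) = ⇑(T2 (k + w) (F.mul H)) - ⇑((T2 k F).mul H) := rfl
  rw [h, ModularForm.qExpansion_sub one_pos one_mem_strictPeriods_SL,
    qExpansion_T2, ModularForm.qExpansion_mul one_pos one_mem_strictPeriods_SL,
    ModularForm.qExpansion_mul one_pos one_mem_strictPeriods_SL, qExpansion_T2]

theorem step (hOA : ∀ x ∈ O, ∀ y ∈ A, x * y ∈ A) (k : ℤ) (hk : 1 ≤ k) (w : ℕ)
    (F : ModularForm 𝒮ℒ k) (H : ModularForm 𝒮ℒ (w : ℤ)) (c : ℤ)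
    (hF : IsO O (qExpansion 1 F)) (hH : IsO O (qExpansion 1 H))
    (hR : IsA A (qExpansion 1 H - PowerSeries.C (c : ℂ))) :
    ∃ F' : ModularForm 𝒮ℒ (k + w), IsO O (qExpansion 1 F') ∧
      ∀ n, PowerSeries.coeff n (qExpansion 1 F') -
        (if 2 ∣ n then (dconst k w c : ℂ) * PowerSeries.coeff (n / 2) (qExpansion 1 F) else 0)
          ∈ A := by
  have hk' : (1 : ℤ) ≤ k + w := by omega
  refine ⟨stepForm k w F H, ?_, ?_⟩
  · rw [qExpansion_stepForm]
    exact IsO.sub (IsO.T2s hk' (IsO.mul hF hH)) (IsO.mul (IsO.T2s hk hF) hH)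
  · intro n
    rw [qExpansion_stepForm]
    exact step_series hOA k hk w _ _ c hF hR n

/-! ### Iteration -/

theorem exists_iterate (hOA : ∀ x ∈ O, ∀ y ∈ A, x * y ∈ A) {l : ℤ} (hl : Prime l)
    (hl2 : ¬ l ∣ 2) (k0 : ℤ) (hk0 : 1 ≤ k0) (F0 : ModularForm 𝒮ℒ k0)
    (hF0 : IsO O (qExpansion 1 F0)) (w : ℕ) (H : ModularForm 𝒮ℒ (w : ℤ))
    (hH : IsO O (qExpansion 1 H)) (c : ℤ)
    (hR : IsA A (qExpansion 1 H - PowerSeries.C (c : ℂ)))
    (hc : ¬ l ∣ c) (hw : ¬ l ∣ 2 ^ w - 1) (i : ℕ) :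
    ∃ (D : ℤ) (F : ModularForm 𝒮ℒ (k0 + i * w)), ¬ l ∣ D ∧ IsO O (qExpansion 1 F) ∧
      ∀ n, PowerSeries.coeff n (qExpansion 1 F) -
        (if 2 ^ i ∣ n then (D : ℂ) * PowerSeries.coeff (n / 2 ^ i) (qExpansion 1 F0) else 0)
          ∈ A := by
  induction i with
  | zero =>
    refine ⟨1, ModularForm.mcast (by simp) F0, hl.not_dvd_one, ?_, ?_⟩
    · rw [ModularForm.qExpansion_mcast]; exact hF0
    · intro n
      rw [ModularForm.qExpansion_mcast]
      simp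
  | succ i ih =>
    obtain ⟨D, F, hD, hFO, hFA⟩ := ih
    have hk : (1 : ℤ) ≤ k0 + i * w := by
      have : (0 : ℤ) ≤ (i : ℤ) * (w : ℤ) := by positivity
      omega
    obtain ⟨F', hF'O, hF'A⟩ := step hOA (k0 + i * w) hk w F H c hFO hH hR
    have hd : ¬ l ∣ dconst (k0 + i * w) w c := by
      unfold dconst
      intro h
      rcases hl.dvd_or_dvd h with h | h
      · rcases hl.dvd_or_dvd h with h | h
        · exact hc h
        · exact hl2 (hl.dvd_of_dvd_pow h)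
      · exact hw h
    refine ⟨dconst (k0 + i * w) w c * D, ModularForm.mcast (by push_cast; ring) F', ?_, ?_, ?_⟩
    · intro h
      rcases hl.dvd_or_dvd h with h | h
      · exact hd h
      · exact hD h
    · rw [ModularForm.qExpansion_mcast]; exact hF'O
    · intro n
      rw [ModularForm.qExpansion_mcast]
      have h1 := hF'A n
      by_cases h2 : 2 ∣ n
      · rw [if_pos h2] at h1
        have h3 := intCast_mul_mem (hFA (n / 2)) (dconst (k0 + i * w) w c)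
        have h4 := A.add_mem h1 h3
        have hiff : (2 ^ (i + 1) ∣ n) ↔ (2 ^ i ∣ n / 2) := by
          rw [Nat.dvd_div_iff_mul_dvd h2, pow_succ']
        have hdiv : n / 2 ^ (i + 1) = n / 2 / 2 ^ i := by
          rw [Nat.div_div_eq_div_mul, pow_succ']
        by_cases h5 : 2 ^ i ∣ n / 2
        · rw [if_pos h5] at h4
          rw [if_pos (hiff.mpr h5), hdiv]
          convert h4 using 1
          push_cast
          ring
        · rw [if_neg h5] at h4
          rw [if_neg (fun h => h5 (hiff.mp h))]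
          convert h4 using 1
          ring
      · rw [if_neg h2] at h1
        have : ¬ 2 ^ (i + 1) ∣ n := fun h => h2 (dvd_trans (dvd_pow_self 2 (Nat.succ_ne_zero i)) h)
        rw [if_neg this]
        exact h1

/-! ### The main theorem -/

theorem two_pow_bound (K w : ℕ) : K + (K + 2 * w + 2) * w < 12 * 2 ^ (K + 2 * w + 2) := by
  have h1 : K + 1 ≤ 2 ^ K := Nat.lt_two_pow_self
  have h2 : w + 1 ≤ 2 ^ w := Nat.lt_two_pow_self
  have h3 : 2 ^ (K + 2 * w + 2) = 2 ^ K * (2 ^ w * 2 ^ w) * 4 := by ring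
  have h4 : (K + 1) * ((w + 1) * (w + 1)) ≤ 2 ^ K * (2 ^ w * 2 ^ w) :=
    Nat.mul_le_mul h1 (Nat.mul_le_mul h2 h2)
  rw [h3]
  nlinarith [Nat.zero_le (K * w * w), Nat.zero_le (K * w)]

/-- **The level-one `T₂`-trick.**  Let `O` be a subring of `ℂ`, `A` an additive subgroup with
`O · A ⊆ A` and `l · O ⊆ A`, `l` an odd prime, and assume the level-one Sturm statement for `A`
(on forms with coefficients in `O`).  Assume there is a level-one form `F0` of weight `k0 ≥ 1`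
with coefficients in `O`, constant coefficient in `A` and some coefficient not in `A`
(e.g. `Δ`).  If a level-one form `H` of weight `w` with coefficients in `O` is congruent modulo
`A` to an integer constant `c` prime to `l`, then `l ∣ 2 ^ w - 1`. -/
theorem dvd_two_pow_sub_one (O : Subring ℂ) (A : AddSubgroup ℂ)
    (hOA : ∀ x ∈ O, ∀ y ∈ A, x * y ∈ A) (l : ℕ) (hl : l.Prime) (hl2 : l ≠ 2)
    (hlO : ∀ x ∈ O, (l : ℂ) * x ∈ A)
    (hSturm : ∀ (k : ℤ) (F : ModularForm 𝒮ℒ k), (∀ n, (qExpansion 1 F).coeff n ∈ O) →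
      (∀ n : ℕ, 12 * (n : ℤ) ≤ k → (qExpansion 1 F).coeff n ∈ A) →
        ∀ n, (qExpansion 1 F).coeff n ∈ A)
    (k0 : ℤ) (hk0 : 1 ≤ k0) (F0 : ModularForm 𝒮ℒ k0)
    (hF0 : ∀ n, (qExpansion 1 F0).coeff n ∈ O)
    (hF00 : (qExpansion 1 F0).coeff 0 ∈ A) (m : ℕ) (hm : (qExpansion 1 F0).coeff m ∉ A)
    (w : ℕ) (H : ModularForm 𝒮ℒ (w : ℤ)) (hH : ∀ n, (qExpansion 1 H).coeff n ∈ O)
    (c : ℤ) (hc : ¬ (l : ℤ) ∣ c) (hH0 : (qExpansion 1 H).coeff 0 - c ∈ A)
    (hHn : ∀ n, 1 ≤ n → (qExpansion 1 H).coeff n ∈ A) :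
    (l : ℤ) ∣ 2 ^ w - 1 := by
  by_contra hw
  have hlZ : Prime (l : ℤ) := Nat.prime_iff_prime_int.mp hl
  have hl2Z : ¬ (l : ℤ) ∣ 2 := by
    intro h
    have : l ∣ 2 := by exact_mod_cast h
    exact hl2 ((Nat.prime_dvd_prime_iff_eq hl Nat.prime_two).mp this)
  have hR : IsA A (qExpansion 1 H - PowerSeries.C (c : ℂ)) := by
    intro n
    rw [map_sub, PowerSeries.coeff_C]
    rcases Nat.eq_zero_or_pos n with rfl | hn
    · simpa using hH0
    · rw [if_neg (by omega), sub_zero]; exact hHn n hn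
  set K := k0.toNat with hK
  set i := K + 2 * w + 2 with hi
  obtain ⟨D, F, hD, hFO, hFA⟩ :=
    exists_iterate hOA hlZ hl2Z k0 hk0 F0 hF0 w H hH c hR hc hw i
  have hbound : k0 + (i : ℤ) * w < 12 * 2 ^ i := by
    have h1 := two_pow_bound K w
    have h2 : k0 ≤ (K : ℤ) := Int.self_le_toNat k0
    have h3 : ((K + (K + 2 * w + 2) * w : ℕ) : ℤ) < ((12 * 2 ^ (K + 2 * w + 2) : ℕ) : ℤ) := by
      exact_mod_cast h1
    push_cast at h3
    rw [hi]
    push_cast
    linarith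
  have hall : ∀ n, (qExpansion 1 F).coeff n ∈ A := by
    refine hSturm _ F hFO (fun n hn => ?_)
    have h1 := hFA n
    by_cases h2 : 2 ^ i ∣ n
    · rw [if_pos h2] at h1
      rcases Nat.eq_zero_or_pos n with rfl | hn0
      · simp only [Nat.zero_div] at h1
        have := A.add_mem h1 (intCast_mul_mem hF00 D)
        simpa using this
      · exfalso
        have h3 : 2 ^ i ≤ n := Nat.le_of_dvd hn0 h2
        have h4 : ((2 : ℤ) ^ i) ≤ n := by exact_mod_cast h3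
        linarith
    · rw [if_neg h2, sub_zero] at h1
      exact h1
  have h1 := hFA (2 ^ i * m)
  rw [if_pos (dvd_mul_right _ _), Nat.mul_div_cancel_left _ (by positivity)] at h1
  have h2 : (D : ℂ) * (qExpansion 1 F0).coeff m ∈ A := by
    have := A.sub_mem (hall (2 ^ i * m)) h1
    simpa using this
  obtain ⟨u, v, huv⟩ := hlZ.coprime_iff_not_dvd.mpr hD
  apply hm
  have h3 : (qExpansion 1 F0).coeff m =
      (u : ℂ) * ((l : ℂ) * (qExpansion 1 F0).coeff m) +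
        (v : ℂ) * ((D : ℂ) * (qExpansion 1 F0).coeff m) := by
    have : ((u * l + v * D : ℤ) : ℂ) = 1 := by rw [huv]; simp
    push_cast at this
    linear_combination (-(qExpansion 1 F0).coeff m) * this
  rw [h3]
  exact A.add_mem (intCast_mul_mem (hlO _ (hF0 m)) u) (intCast_mul_mem h2 v)

/-- For a prime `l ≥ 5`, `l ∤ 2 ^ (2 l^b) - 1` (the weight of `Tr(G^{l^b})`, `G` of weight 2). -/
theorem not_dvd_two_pow_sub_one {l : ℕ} (hl : l.Prime) (hl5 : 5 ≤ l) (b : ℕ) :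
    ¬ (l : ℤ) ∣ 2 ^ (2 * l ^ b) - 1 := by
  intro h
  have := Fact.mk hl
  have h1 : ((2 ^ (2 * l ^ b) - 1 : ℤ) : ZMod l) = 0 :=
    (ZMod.intCast_zmod_eq_zero_iff_dvd _ _).mpr h
  push_cast at h1
  rw [pow_mul, ZMod.pow_card_pow] at h1
  have h2 : ((3 : ℕ) : ZMod l) = 0 := by
    push_cast
    linear_combination h1
  have h3 : l ∣ 3 := (ZMod.natCast_eq_zero_iff 3 l).mp h2
  have := Nat.le_of_dvd (by norm_num) h3
  omega

/-- **Corollary.**  For a prime `l ≥ 5` there is no level-one form of weight `2 l^b` with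
coefficients in `O` which is congruent modulo `A` to an integer constant prime to `l`. -/
theorem false_of_weight_two_mul_pow (O : Subring ℂ) (A : AddSubgroup ℂ)
    (hOA : ∀ x ∈ O, ∀ y ∈ A, x * y ∈ A) (l : ℕ) (hl : l.Prime) (hl5 : 5 ≤ l)
    (hlO : ∀ x ∈ O, (l : ℂ) * x ∈ A)
    (hSturm : ∀ (k : ℤ) (F : ModularForm 𝒮ℒ k), (∀ n, (qExpansion 1 F).coeff n ∈ O) →
      (∀ n : ℕ, 12 * (n : ℤ) ≤ k → (qExpansion 1 F).coeff n ∈ A) →
        ∀ n, (qExpansion 1 F).coeff n ∈ A)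
    (k0 : ℤ) (hk0 : 1 ≤ k0) (F0 : ModularForm 𝒮ℒ k0)
    (hF0 : ∀ n, (qExpansion 1 F0).coeff n ∈ O)
    (hF00 : (qExpansion 1 F0).coeff 0 ∈ A) (m : ℕ) (hm : (qExpansion 1 F0).coeff m ∉ A)
    (b : ℕ) (H : ModularForm 𝒮ℒ ((2 * l ^ b : ℕ) : ℤ))
    (hH : ∀ n, (qExpansion 1 H).coeff n ∈ O)
    (c : ℤ) (hc : ¬ (l : ℤ) ∣ c) (hH0 : (qExpansion 1 H).coeff 0 - c ∈ A)
    (hHn : ∀ n, 1 ≤ n → (qExpansion 1 H).coeff n ∈ A) : False :=
  not_dvd_two_pow_sub_one hl hl5 b
    (dvd_two_pow_sub_one O A hOA l hl (by omega) hlO hSturm k0 hk0 F0 hF0 hF00 m hm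
      (2 * l ^ b) H hH c hc hH0 hHn)

end

end Fermat.Agent.S16.UB.T2Trick
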