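import Mathlib
import Fermat.Agent.S16.UB.T2Trick
import Fermat.Agent.S16.UB.LevelOneSturm
import Fermat.Agent.S23.LevelOne

/-!
# The level-one `T₂`-trick, integral form (brick (L1) of the S16 upper bound, final shape)

If a level-one modular form `H` of weight `w` has an integral `q`-expansion `P ∈ ℤ⟦q⟧` with
`l ∤ a₀(P)` and `l ∣ a_n(P)` for all `n ≥ 1` (`l` an odd prime), then `l ∣ 2 ^ w - 1`.
In particular no such `H` exists in weight `2 l^b` when `l ≥ 5`.

This is `T2Trick.dvd_two_pow_sub_one` with `O = ℤ`, `A = l ℤ`, the Sturm hypothesis discharged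
by `LevelOneSturm.coeff_mem` and `F₀ = Δ`.
-/

set_option autoImplicit false

open UpperHalfPlane ModularForm ModularFormClass
open scoped MatrixGroups

namespace Fermat.Agent.S16.UB.T2TrickZ

open Fermat.Agent.S23.LevelOne

noncomputable section

/-- `Δ` as a level-one modular form of weight 12. -/
def deltaMF : ModularForm 𝒮ℒ 12 := CuspForm.toModularFormₗ CuspForm.discriminant

theorem qExpansion_deltaMF :
    qExpansion 1 deltaMF = PowerSeries.map (Int.castRingHom ℂ) deltaZ := by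
  rw [map_deltaZ]
  rfl

theorem dvd_two_pow_sub_one_int (l : ℕ) (hl : l.Prime) (hl2 : l ≠ 2) (w : ℕ)
    (H : ModularForm 𝒮ℒ (w : ℤ)) (P : PowerSeries ℤ)
    (hP : qExpansion 1 H = PowerSeries.map (Int.castRingHom ℂ) P)
    (h0 : ¬ (l : ℤ) ∣ PowerSeries.coeff 0 P)
    (hn : ∀ n, 1 ≤ n → (l : ℤ) ∣ PowerSeries.coeff n P) :
    (l : ℤ) ∣ 2 ^ w - 1 := by
  have hmemA : ∀ z : ℤ, (l : ℤ) ∣ z → (z : ℂ) ∈ AddSubgroup.zmultiples (l : ℂ) := by
    rintro z ⟨t, rfl⟩
    refine AddSubgroup.mem_zmultiples_iff.mpr ⟨t, ?_⟩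
    push_cast
    rw [zsmul_eq_mul]
    ring
  have hmemA' : ∀ z : ℤ, (z : ℂ) ∈ AddSubgroup.zmultiples (l : ℂ) → (l : ℤ) ∣ z := by
    intro z hz
    obtain ⟨t, ht⟩ := AddSubgroup.mem_zmultiples_iff.mp hz
    rw [zsmul_eq_mul] at ht
    refine ⟨t, ?_⟩
    have : ((l * t : ℤ) : ℂ) = (z : ℂ) := by push_cast; rw [← ht]; ring
    exact_mod_cast this.symm
  refine T2Trick.dvd_two_pow_sub_one (Int.castRingHom ℂ).range (AddSubgroup.zmultiples (l : ℂ))
    ?_ l hl hl2 ?_ (fun k F _ hF => LevelOneSturm.coeff_mem _ k F hF) 12 (by norm_num) deltaMF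
    ?_ ?_ 1 ?_ w H ?_ (PowerSeries.coeff 0 P) h0 ?_ ?_
  · rintro x ⟨a, rfl⟩ y hy
    obtain ⟨t, rfl⟩ := AddSubgroup.mem_zmultiples_iff.mp hy
    refine AddSubgroup.mem_zmultiples_iff.mpr ⟨a * t, ?_⟩
    simp only [zsmul_eq_mul, eq_intCast]
    push_cast
    ring
  · rintro x ⟨a, rfl⟩
    refine AddSubgroup.mem_zmultiples_iff.mpr ⟨a, ?_⟩
    simp only [zsmul_eq_mul, eq_intCast]
    ring
  · intro n
    rw [qExpansion_deltaMF, PowerSeries.coeff_map]
    exact ⟨_, rfl⟩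
  · rw [qExpansion_deltaMF, PowerSeries.coeff_map, coeff_zero_deltaZ]
    simp
  · rw [qExpansion_deltaMF, PowerSeries.coeff_map, coeff_one_deltaZ]
    intro h
    have h1 : (l : ℤ) ∣ 1 := hmemA' 1 (by simpa using h)
    have h2 : l ∣ 1 := by exact_mod_cast h1
    exact hl.one_lt.ne' (Nat.dvd_one.mp h2)
  · intro n
    rw [hP, PowerSeries.coeff_map]
    exact ⟨_, rfl⟩
  · rw [hP, PowerSeries.coeff_map]
    simp
  · intro n hn1
    rw [hP, PowerSeries.coeff_map]
    exact hmemA _ (hn n hn1)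

/-- **(L1), final form.**  For a prime `l ≥ 5` there is no level-one modular form of weight
`2 l^b` whose `q`-expansion is integral, with constant term prime to `l` and all higher
coefficients divisible by `l`. -/
theorem false_of_unit_const (l : ℕ) (hl : l.Prime) (hl5 : 5 ≤ l) (b : ℕ) (k : ℤ)
    (hk : k = 2 * (l : ℤ) ^ b) (H : ModularForm 𝒮ℒ k) (P : PowerSeries ℤ)
    (hP : qExpansion 1 H = PowerSeries.map (Int.castRingHom ℂ) P)
    (h0 : ¬ (l : ℤ) ∣ PowerSeries.coeff 0 P)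
    (hn : ∀ n, 1 ≤ n → (l : ℤ) ∣ PowerSeries.coeff n P) : False := by
  have hk' : k = ((2 * l ^ b : ℕ) : ℤ) := by rw [hk]; push_cast; ring
  refine T2Trick.not_dvd_two_pow_sub_one hl hl5 b
    (dvd_two_pow_sub_one_int l hl (by omega) (2 * l ^ b) (ModularForm.mcast hk' H) P ?_ h0 hn)
  rw [ModularForm.qExpansion_mcast]
  exact hP

end

end Fermat.Agent.S16.UB.T2TrickZ
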