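import Mathlib
import Fermat.Agent.S16.UB.Case3bCore
import Fermat.Agent.S16.UB.Pair
import Fermat.Agent.S16.UB.T2TrickZ
import Fermat.Agent.S16.UB.Reduce

/-!
# S16 upper bound, case (B3b): wiring of `Case3bCore` to the pair calculus

For a prime `p ≠ 3` there is no `G ∈ M₂(Γ₀(p))` with integral `q`-expansion `A`,
`3 ∤ a₀(A)` and `9 ∣ aₙ(A)` for all `n ≥ 1`.

`F := (G² - u² E₄)/3 + u² d E₄ ∈ M₄(Γ₀(p))` (`u = a₀`, `3 d = p² - 1`) has the pair
`(AF, p⁻² BF)`; the trace of `F^(2p-2) · Δ(pz)^p` is the level-one form fed to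
`Case3b.false_of_trace`.
-/

set_option autoImplicit false

open PowerSeries UpperHalfPlane ModularForm CongruenceSubgroup EisensteinSeries
open scoped MatrixGroups

namespace Fermat.Agent.S16.UB.Case3b

open Fermat.Agent.S23 Fermat.Agent.S23.LevelOne Fermat.Agent.S16.UB
open Fermat.Agent.S16.UB.T2TrickZ

noncomputable section

/-- `zc` commutes with `U_p` (in the `Engine.Up` spelling). -/
lemma zc_Up (p : ℕ) (A : PowerSeries ℤ) : zc (Engine.Up p A) = U p (zc A) := by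
  ext n
  simp [zc]

/-- The pair of the weight-4 form `F = (G² - u² E₄)/3 + u² d E₄`. -/
theorem isPair_F (p : ℕ) [NeZero p] (hp : p.Prime) (hp3 : p ≠ 3) (A : PowerSeries ℤ)
    (h9 : ∀ n, 1 ≤ n → (9 : ℤ) ∣ coeff n A) (B : PowerSeries ℂ) (hGB : IsPair p 2 (zc A) B) :
    IsPair p 4 (zc (AF p A)) (C (((p : ℂ) ^ 2)⁻¹) * zc (BF p hp.ne_zero A)) := by
  have hpC : (p : ℂ) ≠ 0 := Nat.cast_ne_zero.mpr hp.ne_zero
  have hB := hGB.weight_two hp
  have hsq : IsPair p 4 (zc A * zc A) (B * B) := by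
    have h := hGB.mul hGB
    have h22 : (2 : ℤ) + 2 = 4 := by norm_num
    rwa [h22] at h
  have hE4 : IsPair p 4 (zc e4Z) (V p (zc e4Z)) := by
    have h := IsPair.ofLevelOne (p := p) E₄
    rwa [← map_e4Z] at h
  have h1 := (hsq.smul (1 / 3 : ℂ)).add
    (hE4.smul ((1 / 3 : ℂ) * (3 * (((coeff 0 A : ℤ) : ℂ) ^ 2 * (dOf p : ℂ))
      - ((coeff 0 A : ℤ) : ℂ) ^ 2)))
  -- the two power-series identities, transported to `ℂ`
  have hx : (C (1 / 3 : ℂ) : PowerSeries ℂ) * 3 = 1 := by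
    rw [← map_ofNat (C (R := ℂ)) 3, ← map_mul]
    norm_num
  have hy : (C ((p : ℂ)⁻¹) : PowerSeries ℂ) * C (p : ℂ) = 1 := by
    rw [← map_mul, inv_mul_cancel₀ hpC, map_one]
  have hAF := congrArg zc (three_mul_AF p A h9)
  have hBF := congrArg zc (three_mul_BF p hp hp3 A h9)
  simp only [zc, map_mul, map_add, map_sub, map_pow, PowerSeries.map_C, map_ofNat] at hAF hBF
  simp only [eq_intCast, Int.cast_natCast] at hAF hBF
  have hVe : PowerSeries.map (Int.castRingHom ℂ) (expand p hp.ne_zero e4Z)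
      = V p (zc e4Z) := map_expand p hp.ne_zero (Int.castRingHom ℂ) e4Z
  have hUA : PowerSeries.map (Int.castRingHom ℂ) (Engine.Up p A) = U p (zc A) := zc_Up p A
  rw [hVe, hUA] at hBF
  convert h1 using 1
  · -- `zc AF`
    simp only [PowerSeries.smul_eq_C_mul, map_mul, map_sub, map_pow, map_ofNat]
    linear_combination (C (1 / 3 : ℂ)) * hAF - zc (AF p A) * hx
  · -- `p⁻² zc BF`
    have hpinv : (C (((p : ℂ) ^ 2)⁻¹) : PowerSeries ℂ) = C ((p : ℂ)⁻¹) ^ 2 := by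
      rw [← map_pow, inv_pow]
    rw [hB, hpinv]
    simp only [PowerSeries.smul_eq_C_mul, map_mul, map_sub, map_pow, map_ofNat, map_neg]
    linear_combination (exp := 1) (C (1 / 3 : ℂ)) * (C ((p : ℂ)⁻¹)) ^ 2 * hBF
      - ((C ((p : ℂ)⁻¹)) ^ 2 * zc (BF p hp.ne_zero A)) * hx
      - (C (1 / 3 : ℂ) * (C ((coeff 0 A : ℤ) : ℂ)) ^ 2 * V p (zc e4Z)
          - 3 * C (1 / 3 : ℂ) * (C ((coeff 0 A : ℤ) : ℂ)) ^ 2 * C (dOf p : ℂ) * V p (zc e4Z))
        * (C ((p : ℂ)⁻¹) * C (p : ℂ) + 1) * hy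

/-- **(B3b)** in power-series form: for a prime `p ≠ 3` no `G ∈ M₂(Γ₀(p))` has an integral
`q`-expansion with `3 ∤ a₀` and `9 ∣ aₙ` for all `n ≥ 1`. -/
theorem case3b_series (p : ℕ) [hpF : Fact p.Prime] (hp3 : p ≠ 3)
    (G : ModularForm (Gamma0 p) 2) (A : PowerSeries ℤ)
    (hA : qExpansion 1 G = zc A)
    (h9 : ∀ n, 1 ≤ n → (9 : ℤ) ∣ coeff n A) (h3 : ¬ (3 : ℤ) ∣ coeff 0 A) : False := by
  have hp := hpF.out
  have : NeZero p := ⟨hp.ne_zero⟩
  have hp2 : 2 ≤ p := hp.two_le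
  have hpC : (p : ℂ) ≠ 0 := Nat.cast_ne_zero.mpr hp.ne_zero
  obtain ⟨B, hGB⟩ := exists_isPair G
  rw [hA] at hGB
  have hF := isPair_F p hp hp3 A h9 B hGB
  have hΔ : IsPair p 12 (V p (zc deltaZ)) (((p : ℂ) ^ (-(12 : ℤ))) • zc deltaZ) := by
    have h := IsPair.ofLevelRaise (p := p) deltaMF
    rwa [qExpansion_deltaMF] at h
  have hX := (hF.pow (2 * p - 2)).mul (hΔ.pow p)
  obtain ⟨f, hf⟩ := hX.trace hp
  refine false_of_trace p hp hp3 A h3 _ ?_ f ?_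
  · -- the weight is `20 p - 8`
    have : ((2 * p - 2 : ℕ) : ℤ) = 2 * (p : ℤ) - 2 := by
      rw [Nat.cast_sub (by omega)]; push_cast; ring
    rw [this]
    linarith
  · -- the `q`-expansion is the one predicted
    rw [hf]
    have h1 : (V p (zc deltaZ)) ^ p = expand p hp.ne_zero (zc deltaZ ^ p) :=
      (map_pow (V p) (zc deltaZ) p).symm
    have h2 : ((p : ℂ) ^ (-(12 : ℤ))) ^ p = ((p : ℂ) ^ (12 * p))⁻¹ := by
      rw [zpow_neg, inv_pow, pow_mul]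
      norm_cast
    have h3 : (((p : ℂ) ^ (-(12 : ℤ))) • zc deltaZ) ^ p
        = C (((p : ℂ) ^ (12 * p))⁻¹) * zc deltaZ ^ p := by
      rw [smul_pow, h2, PowerSeries.smul_eq_C_mul]
    rw [h1, h3]
    congr 1
    rw [mul_left_comm, ← PowerSeries.smul_eq_C_mul, map_smul, smul_smul,
      PowerSeries.smul_eq_C_mul]
    rfl

/-- **(B3b)** in the `UnitMod` shape of `Reduce`. -/
theorem not_unitMod (p : ℕ) [Fact p.Prime] (hp3 : p ≠ 3) : ¬ Reduce.UnitMod p 3 2 := by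
  rintro ⟨G, a, ha, h0, hn⟩
  refine case3b_series p hp3 G (PowerSeries.mk a) ?_ ?_ ?_
  · ext n
    rw [PowerSeries.coeff_map, PowerSeries.coeff_mk]
    exact ha n
  · intro n hn1
    rw [PowerSeries.coeff_mk]
    have := hn n hn1
    norm_num at this
    exact this
  · rw [PowerSeries.coeff_mk]
    exact_mod_cast h0

end

end Fermat.Agent.S16.UB.Case3b
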