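import Mathlib

/-!
# S16 upper bound, case `ℓ ≥ 5`, `ℓ ≠ p`: the power-series core

Brick (Bl) of the S16 upper bound (tasks#203).  Let `G ∈ M_2(Γ₀(p))` have integral
`q`-expansion `A` with `ℓ ∤ a₀` and `ℓ ∣ aₙ` for `n ≥ 1`.  With `c = v_ℓ(p^(ℓ-1) - 1)` and
`j = ℓ^c`, the trace of `G^j` to level one is (up to the factor `p^(j-1)`) the integral series
`p^(j-1) A^j - U_p((U_p A)^j)`, which is `≡ a₀^j (p^(j-1) - 1)` modulo `ℓ^(c+1)`, and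
`v_ℓ(p^(j-1) - 1) = c` exactly.  Dividing by `ℓ^c` gives a level-one form of weight `2j` which
is a unit constant modulo `ℓ`; the `T₂`-trick then gives `ℓ ∣ 2^(2j) - 1 ≡ 3`, absurd.

This file is pure algebra: the two analytic inputs (trace formula and `T₂`-trick) enter
`core` as hypotheses.
-/

set_option autoImplicit false

open UpperHalfPlane ModularForm ModularFormClass
open scoped MatrixGroups

namespace Fermat.Agent.S16.UB.CaseL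

noncomputable section

/-- `U_p` on integral power series: `∑ aₙ qⁿ ↦ ∑ a_{pn} qⁿ`. -/
def upZ (p : ℕ) (A : PowerSeries ℤ) : PowerSeries ℤ :=
  PowerSeries.mk fun n => PowerSeries.coeff (p * n) A

@[simp] theorem coeff_upZ (p n : ℕ) (A : PowerSeries ℤ) :
    PowerSeries.coeff n (upZ p A) = PowerSeries.coeff (p * n) A := by
  simp [upZ]

/-- The exponent: there is `c ≥ 1` with `v_ℓ(p^(ℓ^c - 1) - 1) = c` exactly. -/
theorem exists_exponent {p ℓ : ℕ} (hp : p.Prime) (hℓ : ℓ.Prime) (hℓp : ℓ ≠ p) :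
    ∃ c : ℕ, 1 ≤ c ∧ ∃ y' : ℤ, (p : ℤ) ^ (ℓ ^ c - 1) - 1 = (ℓ : ℤ) ^ c * y' ∧ ¬ (ℓ : ℤ) ∣ y' := by
  have : Fact ℓ.Prime := Fact.mk hℓ
  have hℓi : Prime (ℓ : ℤ) := Nat.prime_iff_prime_int.mp hℓ
  set x : ℤ := (p : ℤ) ^ (ℓ - 1) with hx
  have hcop : IsCoprime (p : ℤ) (ℓ : ℤ) :=
    Nat.isCoprime_iff_coprime.mpr ((Nat.coprime_primes hp hℓ).2 (Ne.symm hℓp))
  have hx1 : (ℓ : ℤ) ∣ x - 1 := by
    have := Int.ModEq.pow_card_sub_one_eq_one hℓ hcop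
    exact (Int.modEq_iff_dvd.mp this.symm)
  have hℓ1 : ℓ - 1 ≠ 0 := by have := hℓ.two_le; omega
  have hx0 : x - 1 ≠ 0 := by
    have h2 : (1 : ℤ) < (p : ℤ) := by exact_mod_cast hp.one_lt
    have : (1 : ℤ) < x := one_lt_pow₀ h2 hℓ1
    omega
  set c : ℕ := padicValInt ℓ (x - 1) with hc
  have hcdvd : (ℓ : ℤ) ^ c ∣ x - 1 := (padicValInt_dvd_iff c (x - 1)).2 (Or.inr le_rfl)
  have hcndvd : ¬ (ℓ : ℤ) ^ (c + 1) ∣ x - 1 := by
    intro h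
    rcases (padicValInt_dvd_iff (c + 1) (x - 1)).1 h with h | h
    · exact hx0 h
    · omega
  have hc1 : 1 ≤ c := by
    rcases (padicValInt_dvd_iff 1 (x - 1)).1 (by simpa using hx1) with h | h
    · exact absurd h hx0
    · exact h
  refine ⟨c, hc1, ?_⟩
  obtain ⟨m, hm⟩ : ℓ - 1 ∣ ℓ ^ c - 1 := by
    simpa only [one_pow] using Nat.sub_dvd_pow_sub_pow ℓ 1 c
  obtain ⟨u, hu⟩ := hcdvd
  have hu' : ¬ (ℓ : ℤ) ∣ u := by
    rintro ⟨w, rfl⟩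
    exact hcndvd ⟨w, by rw [hu]; ring⟩
  set S : ℤ := ∑ i ∈ Finset.range m, x ^ i with hS
  have hgeom : S * (x - 1) = x ^ m - 1 := geom_sum_mul x m
  have hxm : (p : ℤ) ^ (ℓ ^ c - 1) = x ^ m := by
    rw [hm, pow_mul]
  -- `S ≡ m ≡ 1 (mod ℓ)`
  have hxz : ((x : ℤ) : ZMod ℓ) = 1 := by
    have h := (ZMod.intCast_zmod_eq_zero_iff_dvd (x - 1) ℓ).2 hx1
    push_cast at h
    exact sub_eq_zero.mp h
  have hmz : ((m : ℕ) : ZMod ℓ) = 1 := by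
    have h1 : ((ℓ ^ c - 1 : ℕ) : ZMod ℓ) = (((ℓ - 1) * m : ℕ) : ZMod ℓ) := by rw [hm]
    have hℓc : 1 ≤ ℓ ^ c := Nat.one_le_pow _ _ hℓ.pos
    have hℓ1' : 1 ≤ ℓ := hℓ.pos
    rw [Nat.cast_sub hℓc, Nat.cast_mul, Nat.cast_sub hℓ1'] at h1
    have hz : ((ℓ : ℕ) : ZMod ℓ) = 0 := ZMod.natCast_self ℓ
    have hc0 : c ≠ 0 := by omega
    simp only [Nat.cast_pow, hz, Nat.cast_one, zero_pow hc0, zero_sub, neg_mul, one_mul,
      neg_inj] at h1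
    exact h1.symm
  have hSz : ((S : ℤ) : ZMod ℓ) = 1 := by
    rw [hS]
    push_cast
    rw [hxz]
    simp [hmz]
  have hSndvd : ¬ (ℓ : ℤ) ∣ S := by
    intro h
    have := (ZMod.intCast_zmod_eq_zero_iff_dvd S ℓ).2 h
    rw [hSz] at this
    exact one_ne_zero this
  refine ⟨S * u, ?_, ?_⟩
  · rw [hxm, ← hgeom, hu]; ring
  · intro h
    rcases hℓi.dvd_or_dvd h with h | h
    · exact hSndvd h
    · exact hu' h

/-- If all higher coefficients of `B` are divisible by `ℓ`, all higher coefficients of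
`B ^ (ℓ ^ c)` are divisible by `ℓ ^ (c + 1)`. -/
theorem coeff_pow_prime_pow_dvd {ℓ : ℕ} (B : PowerSeries ℤ)
    (hB : ∀ n, 1 ≤ n → (ℓ : ℤ) ∣ PowerSeries.coeff n B) (c : ℕ) :
    ∀ n, 1 ≤ n → (ℓ : ℤ) ^ (c + 1) ∣ PowerSeries.coeff n (B ^ (ℓ ^ c)) := by
  intro n hn
  set a0 : ℤ := PowerSeries.coeff 0 B with ha0
  set Y : PowerSeries ℤ :=
    PowerSeries.mk fun n => if n = 0 then 0 else PowerSeries.coeff n B / (ℓ : ℤ) with hY
  have hdiv : ((ℓ : ℕ) : PowerSeries ℤ) ∣ B - PowerSeries.C a0 := by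
    refine ⟨Y, ?_⟩
    ext k
    have hcast : ((ℓ : ℕ) : PowerSeries ℤ) = PowerSeries.C ((ℓ : ℕ) : ℤ) := by
      simp
    rw [hcast, PowerSeries.coeff_C_mul, map_sub, PowerSeries.coeff_C, hY, PowerSeries.coeff_mk]
    by_cases hk : k = 0
    · subst hk; simp [ha0]
    · simp only [hk, if_false, sub_zero]
      exact (Int.mul_ediv_cancel' (hB k (Nat.one_le_iff_ne_zero.mpr hk))).symm
  obtain ⟨Z, hZ⟩ := dvd_sub_pow_of_dvd_sub hdiv c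
  have hn0 : n ≠ 0 := by omega
  have hcoef : PowerSeries.coeff n (B ^ (ℓ ^ c)) =
      (ℓ : ℤ) ^ (c + 1) * PowerSeries.coeff n Z := by
    have h1 : B ^ (ℓ ^ c) = PowerSeries.C (a0 ^ (ℓ ^ c)) +
        PowerSeries.C ((ℓ : ℤ) ^ (c + 1)) * Z := by
      have hcast : ((ℓ : ℕ) : PowerSeries ℤ) ^ (c + 1) = PowerSeries.C ((ℓ : ℤ) ^ (c + 1)) := by
        simp
      rw [map_pow, ← hcast, ← hZ]; ring
    rw [h1, map_add, PowerSeries.coeff_C, PowerSeries.coeff_C_mul]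
    simp [hn0]
  rw [hcoef]
  exact dvd_mul_right _ _

/-- **Core of the case `ℓ ≥ 5`, `ℓ ≠ p`.**  `hTr` is the trace formula applied to `G ^ j`
(with `G♯ = -U_p G / p` in weight two), `hL1` is the `T₂`-trick. -/
theorem core {p ℓ : ℕ} (hp : p.Prime) (hℓ : ℓ.Prime) (hℓ5 : 5 ≤ ℓ) (hℓp : ℓ ≠ p)
    (A : PowerSeries ℤ) (h0 : ¬ (ℓ : ℤ) ∣ PowerSeries.coeff 0 A)
    (hn : ∀ n, 1 ≤ n → (ℓ : ℤ) ∣ PowerSeries.coeff n A)
    (hTr : ∀ j : ℕ, Odd j → ∃ f : ModularForm 𝒮ℒ ((2 * j : ℕ) : ℤ),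
      qExpansion 1 f = PowerSeries.map (Int.castRingHom ℂ)
        (PowerSeries.C ((p : ℤ) ^ (j - 1)) * A ^ j - upZ p ((upZ p A) ^ j)))
    (hL1 : ∀ (j : ℕ) (H : ModularForm 𝒮ℒ ((2 * j : ℕ) : ℤ)) (P : PowerSeries ℤ),
      qExpansion 1 H = PowerSeries.map (Int.castRingHom ℂ) P →
      ¬ (ℓ : ℤ) ∣ PowerSeries.coeff 0 P → (∀ n, 1 ≤ n → (ℓ : ℤ) ∣ PowerSeries.coeff n P) →
      (ℓ : ℤ) ∣ 2 ^ (2 * j) - 1) : False := by
  have : Fact ℓ.Prime := Fact.mk hℓ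
  have hℓi : Prime (ℓ : ℤ) := Nat.prime_iff_prime_int.mp hℓ
  obtain ⟨c, hc1, y', hy, hy'⟩ := exists_exponent hp hℓ hℓp
  set j : ℕ := ℓ ^ c with hj
  have hℓodd : Odd ℓ := hℓ.odd_of_ne_two (by omega)
  have hjodd : Odd j := hℓodd.pow
  obtain ⟨f, hf⟩ := hTr j hjodd
  set F : PowerSeries ℤ :=
    PowerSeries.C ((p : ℤ) ^ (j - 1)) * A ^ j - upZ p ((upZ p A) ^ j) with hF
  set a0 : ℤ := PowerSeries.coeff 0 A with ha0
  -- coefficients of `F`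
  have hUA : ∀ n, 1 ≤ n → (ℓ : ℤ) ∣ PowerSeries.coeff n (upZ p A) := by
    intro n hn1
    rw [coeff_upZ]
    exact hn _ (Nat.mul_pos hp.pos hn1)
  have hF0 : PowerSeries.coeff 0 F = (ℓ : ℤ) ^ c * (a0 ^ j * y') := by
    have e1 : PowerSeries.coeff 0 (A ^ j) = a0 ^ j := by
      rw [PowerSeries.coeff_zero_eq_constantCoeff_apply, map_pow,
        ← PowerSeries.coeff_zero_eq_constantCoeff_apply]
    have e2 : PowerSeries.coeff 0 (upZ p A ^ j) = a0 ^ j := by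
      rw [PowerSeries.coeff_zero_eq_constantCoeff_apply, map_pow,
        ← PowerSeries.coeff_zero_eq_constantCoeff_apply, coeff_upZ, mul_zero]
    rw [hF, map_sub, PowerSeries.coeff_C_mul, coeff_upZ, mul_zero, e1, e2]
    have : (p : ℤ) ^ (j - 1) = (ℓ : ℤ) ^ c * y' + 1 := by rw [← hy]; ring
    rw [this]; ring
  have hFn : ∀ n, 1 ≤ n → (ℓ : ℤ) ^ (c + 1) ∣ PowerSeries.coeff n F := by
    intro n hn1
    rw [hF, map_sub, PowerSeries.coeff_C_mul, coeff_upZ]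
    refine dvd_sub (Dvd.dvd.mul_left (coeff_pow_prime_pow_dvd A hn c n hn1) _) ?_
    exact coeff_pow_prime_pow_dvd (upZ p A) hUA c _ (Nat.mul_pos hp.pos hn1)
  -- divide by `ℓ ^ c`
  set P : PowerSeries ℤ := PowerSeries.mk fun n => PowerSeries.coeff n F / (ℓ : ℤ) ^ c with hP
  have hℓc0 : ((ℓ : ℤ) ^ c) ≠ 0 := pow_ne_zero _ hℓi.ne_zero
  have hFdvd : ∀ n, (ℓ : ℤ) ^ c ∣ PowerSeries.coeff n F := by
    intro n
    rcases Nat.eq_zero_or_pos n with rfl | hpos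
    · rw [hF0]; exact dvd_mul_right _ _
    · exact (pow_dvd_pow _ (Nat.le_succ c)).trans (hFn n hpos)
  have hFP : F = PowerSeries.C ((ℓ : ℤ) ^ c) * P := by
    ext n
    rw [PowerSeries.coeff_C_mul, hP, PowerSeries.coeff_mk]
    exact (Int.mul_ediv_cancel' (hFdvd n)).symm
  have hP0 : ¬ (ℓ : ℤ) ∣ PowerSeries.coeff 0 P := by
    have : PowerSeries.coeff 0 P = a0 ^ j * y' := by
      rw [hP, PowerSeries.coeff_mk, hF0]
      exact Int.mul_ediv_cancel_left _ hℓc0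
    rw [this]
    intro h
    rcases hℓi.dvd_or_dvd h with h | h
    · exact h0 (hℓi.dvd_of_dvd_pow h)
    · exact hy' h
  have hPn : ∀ n, 1 ≤ n → (ℓ : ℤ) ∣ PowerSeries.coeff n P := by
    intro n hn1
    obtain ⟨w, hw⟩ := hFn n hn1
    have : PowerSeries.coeff n P = (ℓ : ℤ) * w := by
      rw [hP, PowerSeries.coeff_mk, hw, pow_succ, mul_assoc]
      exact Int.mul_ediv_cancel_left _ hℓc0
    rw [this]
    exact dvd_mul_right _ _
  -- the level-one form `H = f / ℓ ^ c`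
  set H : ModularForm 𝒮ℒ ((2 * j : ℕ) : ℤ) := (((ℓ : ℂ) ^ c)⁻¹) • f with hH
  have hHq : qExpansion 1 H = PowerSeries.map (Int.castRingHom ℂ) P := by
    have hℓC : ((ℓ : ℂ) ^ c) ≠ 0 := pow_ne_zero _ (Nat.cast_ne_zero.mpr hℓ.ne_zero)
    have hcoe : (⇑H : ℍ → ℂ) = (((ℓ : ℂ) ^ c)⁻¹) • (⇑f : ℍ → ℂ) := rfl
    rw [hcoe, ModularForm.qExpansion_smul one_pos one_mem_strictPeriods_SL, hf]
    ext n
    have hFn' : PowerSeries.coeff n F = (ℓ : ℤ) ^ c * PowerSeries.coeff n P := by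
      rw [hFP, PowerSeries.coeff_C_mul]
    rw [PowerSeries.coeff_smul, PowerSeries.coeff_map, PowerSeries.coeff_map, hFn']
    simp only [eq_intCast, smul_eq_mul]
    push_cast
    field_simp
  have hdvd := hL1 j H P hHq hP0 hPn
  -- `2 ^ (2 j) = 4 ^ (ℓ ^ c) ≡ 4 (mod ℓ)`
  have h3 : (ℓ : ℤ) ∣ 3 := by
    have hz := (ZMod.intCast_zmod_eq_zero_iff_dvd (2 ^ (2 * j) - 1) ℓ).2 hdvd
    have h4 : ((2 : ZMod ℓ) ^ 2) ^ (ℓ ^ c) = (2 : ZMod ℓ) ^ 2 := ZMod.pow_card_pow _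
    push_cast at hz
    rw [pow_mul, hj, h4] at hz
    refine (ZMod.intCast_zmod_eq_zero_iff_dvd 3 ℓ).1 ?_
    push_cast
    rw [← hz]; norm_num
  have : ℓ ∣ 3 := by exact_mod_cast h3
  have := Nat.le_of_dvd (by norm_num) this
  omega

end

end Fermat.Agent.S16.UB.CaseL
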