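import Mathlib
import Fermat.Agent.S16.UB.Pair
import Fermat.Agent.S16.UB.T2Trick
import Fermat.Agent.S16.UB.LevelOneSturm
import Fermat.Agent.S16.UB.Reduce
import Fermat.Agent.S16.UB.CaseLCore

/-!
# S16 upper bound, case `ℓ ≥ 5`, `ℓ ≠ p` (tasks#203, hypothesis `hBl` of `Reduce.upper_bound`)

There is no `G ∈ M_2(Γ₀(p))` with integral `q`-expansion, constant term prime to `ℓ` and all
higher coefficients divisible by `ℓ`.  Wiring of `CaseL.core` (pure algebra) with the pair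
calculus (`IsPair.weight_two`, `IsPair.pow`, `IsPair.trace`), the `T₂`-trick and the level-one
Sturm bound.
-/

set_option autoImplicit false

open UpperHalfPlane ModularForm ModularFormClass CongruenceSubgroup
open scoped MatrixGroups

namespace Fermat.Agent.S16.UB.CaseL

noncomputable section

theorem map_upZ (p : ℕ) (X : PowerSeries ℤ) :
    PowerSeries.map (Int.castRingHom ℂ) (upZ p X) =
      U p (PowerSeries.map (Int.castRingHom ℂ) X) := by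
  ext n
  simp

/-- The trace of `G ^ j` (`j` odd), rescaled by `p ^ (j - 1)`: a level-one form of weight `2 j`
with `q`-expansion `p^(j-1) A^j - U_p((U_p A)^j)`. -/
theorem exists_trace_pow {p : ℕ} [NeZero p] (hp : p.Prime) (G : ModularForm (Gamma0 p) 2)
    (A : PowerSeries ℤ) (hA : qExpansion 1 G = PowerSeries.map (Int.castRingHom ℂ) A)
    (j : ℕ) (hj : Odd j) :
    ∃ f : ModularForm 𝒮ℒ ((2 * j : ℕ) : ℤ),
      qExpansion 1 f = PowerSeries.map (Int.castRingHom ℂ)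
        (PowerSeries.C ((p : ℤ) ^ (j - 1)) * A ^ j - upZ p ((upZ p A) ^ j)) := by
  obtain ⟨B, hB⟩ := exists_isPair G
  have hw := hB.weight_two hp
  obtain ⟨f, hf⟩ := (hB.pow j).trace hp
  have hwt : (j : ℤ) * 2 = ((2 * j : ℕ) : ℤ) := by push_cast; ring
  refine ⟨((p : ℂ) ^ (j - 1)) • (ModularForm.mcast hwt f : ModularForm 𝒮ℒ ((2 * j : ℕ) : ℤ)), ?_⟩
  have hcoe : (⇑(((p : ℂ) ^ (j - 1)) •
      (ModularForm.mcast hwt f : ModularForm 𝒮ℒ ((2 * j : ℕ) : ℤ))) : ℍ → ℂ) =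
      ((p : ℂ) ^ (j - 1)) • (⇑f : ℍ → ℂ) := rfl
  have hp0 : (p : ℂ) ≠ 0 := Nat.cast_ne_zero.mpr hp.ne_zero
  have hj1 : 1 ≤ j := hj.pos
  have hsc : (p : ℂ) ^ (j - 1) * (p : ℂ) * (-(p : ℂ)⁻¹) ^ j = -1 := by
    rw [hj.neg_pow, inv_pow]
    have : (p : ℂ) ^ (j - 1) * (p : ℂ) = (p : ℂ) ^ j := by
      rw [← pow_succ, Nat.sub_add_cancel hj1]
    have hpj : (p : ℂ) ^ j ≠ 0 := pow_ne_zero _ hp0
    rw [this, mul_neg, mul_inv_cancel₀ hpj]
  have hR : PowerSeries.map (Int.castRingHom ℂ)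
      (PowerSeries.C ((p : ℤ) ^ (j - 1)) * A ^ j - upZ p ((upZ p A) ^ j)) =
      PowerSeries.C ((p : ℂ) ^ (j - 1)) * (PowerSeries.map (Int.castRingHom ℂ) A) ^ j -
        U p ((U p (PowerSeries.map (Int.castRingHom ℂ) A)) ^ j) := by
    rw [map_sub, map_mul, map_upZ]
    congr 1
    · rw [PowerSeries.map_C, map_pow (PowerSeries.map (Int.castRingHom ℂ)) A j]
      simp
    · rw [map_pow (PowerSeries.map (Int.castRingHom ℂ)) (upZ p A) j, map_upZ]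
  rw [hcoe, ModularForm.qExpansion_smul one_pos one_mem_strictPeriods_SL, hf, hw, hA, hR,
    smul_pow, map_smul, smul_add, smul_smul, smul_smul, hsc, neg_one_smul,
    ← sub_eq_add_neg, PowerSeries.smul_eq_C_mul]

/-- **Case `ℓ ≥ 5`, `ℓ ≠ p`**, in the integral power-series shape. -/
theorem false_of_unit_mod {p : ℕ} [NeZero p] (hp : p.Prime) {ℓ : ℕ} (hℓ : ℓ.Prime)
    (hℓ5 : 5 ≤ ℓ) (hℓp : ℓ ≠ p) (G : ModularForm (Gamma0 p) 2) (A : PowerSeries ℤ)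
    (hA : qExpansion 1 G = PowerSeries.map (Int.castRingHom ℂ) A)
    (h0 : ¬ (ℓ : ℤ) ∣ PowerSeries.coeff 0 A)
    (hn : ∀ n, 1 ≤ n → (ℓ : ℤ) ∣ PowerSeries.coeff n A) : False := by
  refine core hp hℓ hℓ5 hℓp A h0 hn (fun j hj => exists_trace_pow hp G A hA j hj) ?_
  intro j H P hH hP0 hPn
  -- the `T₂`-trick with `O = ℤ`, `A = ℓ ℤ`, `F₀ = Δ`
  set O : Subring ℂ := (Int.castRingHom ℂ).range with hO
  set I : AddSubgroup ℂ := AddSubgroup.zmultiples (ℓ : ℂ) with hI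
  have hOI : ∀ x ∈ O, ∀ y ∈ I, x * y ∈ I := by
    rintro _ ⟨a, rfl⟩ _ ⟨k, rfl⟩
    refine ⟨a * k, ?_⟩
    simp only [zsmul_eq_mul, eq_intCast]
    push_cast
    ring
  have hℓO : ∀ x ∈ O, (ℓ : ℂ) * x ∈ I := by
    rintro _ ⟨a, rfl⟩
    refine ⟨a, ?_⟩
    simp only [zsmul_eq_mul, eq_intCast]
    ring
  have hSturm : ∀ (k : ℤ) (F : ModularForm 𝒮ℒ k), (∀ n, (qExpansion 1 F).coeff n ∈ O) →
      (∀ n : ℕ, 12 * (n : ℤ) ≤ k → (qExpansion 1 F).coeff n ∈ I) →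
        ∀ n, (qExpansion 1 F).coeff n ∈ I :=
    fun k F _ h => LevelOneSturm.coeff_mem I k F h
  set F0 : ModularForm 𝒮ℒ ((12 : ℕ) : ℤ) :=
    Fermat.Agent.S23.LevelOne.ofPoly 12 Fermat.Agent.S23.LevelOne.discPoly with hF0def
  have hF0q : qExpansion 1 F0 =
      PowerSeries.map (Int.castRingHom ℂ) Fermat.Agent.S23.LevelOne.deltaZ := by
    have h : (F0 : ℍ → ℂ) = ModularForm.discriminant :=
      funext Fermat.Agent.S23.LevelOne.ofPoly_discPoly_apply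
    rw [h, Fermat.Agent.S23.LevelOne.map_deltaZ]
  have hF0 : ∀ n, (qExpansion 1 F0).coeff n ∈ O := by
    intro n
    rw [hF0q, PowerSeries.coeff_map]
    exact ⟨_, rfl⟩
  have hF00 : (qExpansion 1 F0).coeff 0 ∈ I := by
    rw [hF0q, PowerSeries.coeff_map, Fermat.Agent.S23.LevelOne.coeff_zero_deltaZ]
    simp
  have hF01 : (qExpansion 1 F0).coeff 1 ∉ I := by
    rw [hF0q, PowerSeries.coeff_map, Fermat.Agent.S23.LevelOne.coeff_one_deltaZ]
    rintro ⟨k, hk⟩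
    have hk' : (k * (ℓ : ℤ) : ℤ) = 1 := by
      have : ((k * (ℓ : ℤ) : ℤ) : ℂ) = ((1 : ℤ) : ℂ) := by
        push_cast
        simpa [zsmul_eq_mul] using hk
      exact_mod_cast this
    have : (ℓ : ℤ) ∣ 1 := ⟨k, by rw [← hk']; ring⟩
    have h1 : ℓ ∣ 1 := by exact_mod_cast this
    exact hℓ.one_lt.ne' (Nat.dvd_one.mp h1)
  have hHO : ∀ n, (qExpansion 1 H).coeff n ∈ O := by
    intro n
    rw [hH, PowerSeries.coeff_map]
    exact ⟨_, rfl⟩
  have hH0 : (qExpansion 1 H).coeff 0 - ((PowerSeries.coeff 0 P : ℤ) : ℂ) ∈ I := by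
    rw [hH, PowerSeries.coeff_map]
    simp
  have hHn : ∀ n, 1 ≤ n → (qExpansion 1 H).coeff n ∈ I := by
    intro n hn1
    obtain ⟨t, ht⟩ := hPn n hn1
    rw [hH, PowerSeries.coeff_map, ht]
    refine ⟨t, ?_⟩
    simp only [zsmul_eq_mul, eq_intCast]
    push_cast
    ring
  exact T2Trick.dvd_two_pow_sub_one O I hOI ℓ hℓ (by omega) hℓO hSturm ((12 : ℕ) : ℤ)
    (by norm_num) F0 hF0 hF00 1 hF01 (2 * j) H hHO (PowerSeries.coeff 0 P) hP0 hH0 hHn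

/-- **Case `ℓ ≥ 5`, `ℓ ≠ p`** in the shape of `Reduce.upper_bound` (hypothesis `hBl`). -/
theorem not_unitMod (p : ℕ) [Fact p.Prime] (ℓ : ℕ) (hℓ : ℓ.Prime) (hℓ5 : 5 ≤ ℓ) (hℓp : ℓ ≠ p) :
    ¬ Reduce.UnitMod p ℓ 1 := by
  have hp : p.Prime := Fact.out
  have : NeZero p := ⟨hp.ne_zero⟩
  rintro ⟨G, a, ha, h0, hn⟩
  refine false_of_unit_mod hp hℓ hℓ5 hℓp G (PowerSeries.mk a) ?_ (by simpa using h0) ?_
  · ext n
    rw [PowerSeries.coeff_map, PowerSeries.coeff_mk]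
    exact ha n
  · intro n hn1
    simpa using hn n hn1

end

end Fermat.Agent.S16.UB.CaseL
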