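import Mathlib

/-!
# S16 upper bound, case `l = p`: the pure power-series core

`A : PowerSeries ℤ` is the `q`-expansion of a weight-two form `G` on `Γ₀(p)` and `K = U_p A`
(`coeff i K = coeff (p * i) A`).  The trace identities

* `K2 : p * A² + U_p(K²) = (p + 1) a₀² E₄`,
* `K3 : p² * A³ - U_p(K³) = (p² - 1) a₀³ E₆`

are used only through their coefficients of `q¹`.  From them: `A ≡ a₀ mod p` with `p ∤ a₀`
is impossible for `p ≥ 5`; for `p = 3` the same modulo `9`, for `p = 2` modulo `16`.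
-/

set_option autoImplicit false

namespace Fermat.Agent.S16.UB.CasePCore

open PowerSeries

/-- If all higher coefficients of `F` and of `H` are divisible by `m`, so are those of
`F * H`. -/
theorem dvd_coeff_mul (m : ℤ) (F H : PowerSeries ℤ)
    (hF : ∀ n : ℕ, 1 ≤ n → m ∣ coeff n F) (hH : ∀ n : ℕ, 1 ≤ n → m ∣ coeff n H)
    (n : ℕ) (hn : 1 ≤ n) : m ∣ coeff n (F * H) := by
  rw [coeff_mul]
  refine Finset.dvd_sum fun x hx => ?_
  have hx : x.1 + x.2 = n := Finset.HasAntidiagonal.mem_antidiagonal.mp hx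
  rcases Nat.eq_zero_or_pos x.1 with h0 | h0
  · exact Dvd.dvd.mul_left (hH x.2 (by omega)) _
  · exact Dvd.dvd.mul_right (hF x.1 h0) _

/-- If all higher coefficients of `F` are divisible by `m`, so are those of `F ^ j`. -/
theorem dvd_coeff_pow (m : ℤ) (F : PowerSeries ℤ)
    (hF : ∀ n : ℕ, 1 ≤ n → m ∣ coeff n F) (j : ℕ) (n : ℕ) (hn : 1 ≤ n) :
    m ∣ coeff n (F ^ j) := by
  induction j generalizing n with
  | zero =>
    rw [pow_zero, coeff_one, if_neg (by omega)]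
    exact dvd_zero m
  | succ j ih =>
    rw [pow_succ]
    exact dvd_coeff_mul m _ _ (fun k hk => ih k hk) hF n hn

/-- Core of the case `l = p ≥ 5`. -/
theorem core_ge_five (p : ℕ) (hp : p.Prime) (hp5 : 5 ≤ p) (A K : PowerSeries ℤ)
    (hK : ∀ i : ℕ, coeff i K = coeff (p * i) A)
    (hA : ∀ n : ℕ, 1 ≤ n → (p : ℤ) ∣ coeff n A) (h0 : ¬ (p : ℤ) ∣ coeff 0 A)
    (K2 : (p : ℤ) * coeff 1 (A ^ 2) + coeff p (K ^ 2) = ((p : ℤ) + 1) * coeff 0 A ^ 2 * 240)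
    (K3 : (p : ℤ) ^ 2 * coeff 1 (A ^ 3) - coeff p (K ^ 3) =
      ((p : ℤ) ^ 2 - 1) * coeff 0 A ^ 3 * (-504)) : False := by
  have hpp : Prime (p : ℤ) := Nat.prime_iff_prime_int.mp hp
  have hKd : ∀ n : ℕ, 1 ≤ n → (p : ℤ) ∣ coeff n K := fun n hn => by
    rw [hK]
    exact hA _ (Nat.mul_pos hp.pos hn)
  have h1 : (p : ℤ) ∣ coeff p (K ^ 2) := dvd_coeff_pow _ K hKd 2 p hp.pos
  have h2 : (p : ℤ) ∣ coeff p (K ^ 3) := dvd_coeff_pow _ K hKd 3 p hp.pos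
  have hnd1 : ¬ (p : ℤ) ∣ (p : ℤ) + 1 := fun h => by
    have : (p : ℤ) ∣ 1 := (dvd_add_right (dvd_refl _)).mp h
    exact hpp.not_dvd_one this
  have hnd2 : ¬ (p : ℤ) ∣ (p : ℤ) ^ 2 - 1 := fun h => by
    have : (p : ℤ) ∣ 1 := by
      have h3 : (p : ℤ) ∣ (p : ℤ) ^ 2 := Dvd.intro_left _ (by ring)
      have := dvd_sub h3 h
      simpa using this
    exact hpp.not_dvd_one this
  -- `p ∣ 240`
  have d240 : (p : ℤ) ∣ 240 := by
    have h : (p : ℤ) ∣ ((p : ℤ) + 1) * coeff 0 A ^ 2 * 240 := by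
      rw [← K2]
      exact dvd_add (Dvd.intro _ rfl) h1
    rcases hpp.dvd_or_dvd h with h | h
    · rcases hpp.dvd_or_dvd h with h | h
      · exact absurd h hnd1
      · exact absurd (hpp.dvd_of_dvd_pow h) h0
    · exact h
  -- `p ∣ 504`
  have d504 : (p : ℤ) ∣ 504 := by
    have h : (p : ℤ) ∣ ((p : ℤ) ^ 2 - 1) * coeff 0 A ^ 3 * (-504) := by
      rw [← K3]
      exact dvd_sub (dvd_mul_of_dvd_left (dvd_pow_self _ two_ne_zero) _) h2
    rcases hpp.dvd_or_dvd h with h | h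
    · rcases hpp.dvd_or_dvd h with h | h
      · exact absurd h hnd2
      · exact absurd (hpp.dvd_of_dvd_pow h) h0
    · exact (dvd_neg.mp h)
  have d24 : (p : ℤ) ∣ 24 := by
    have : (p : ℤ) ∣ 240 * (-2) + 504 * 1 := dvd_add (Dvd.dvd.mul_right d240 _)
      (Dvd.dvd.mul_right d504 _)
    simpa using this
  have : p ∣ 24 := by exact_mod_cast d24
  have hle : p ≤ 24 := Nat.le_of_dvd (by norm_num) this
  interval_cases p <;> first | omega | (norm_num at hp)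

/-- Core of the case `p = 3` (modulo `9`). -/
theorem core_three (A K : PowerSeries ℤ)
    (hK : ∀ i : ℕ, coeff i K = coeff (3 * i) A)
    (hA : ∀ n : ℕ, 1 ≤ n → (9 : ℤ) ∣ coeff n A) (h0 : ¬ (3 : ℤ) ∣ coeff 0 A)
    (K2 : (3 : ℤ) * coeff 1 (A ^ 2) + coeff 3 (K ^ 2) = 4 * coeff 0 A ^ 2 * 240) : False := by
  have hKd : ∀ n : ℕ, 1 ≤ n → (9 : ℤ) ∣ coeff n K := fun n hn => by
    rw [hK]
    exact hA _ (by omega)
  have h1 : (9 : ℤ) ∣ coeff 3 (K ^ 2) := dvd_coeff_pow _ K hKd 2 3 (by norm_num)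
  have h2 : (9 : ℤ) ∣ coeff 1 (A ^ 2) := dvd_coeff_pow _ A hA 2 1 le_rfl
  have h : (9 : ℤ) ∣ 4 * coeff 0 A ^ 2 * 240 := by
    rw [← K2]
    exact dvd_add (Dvd.dvd.mul_left h2 _) h1
  have h3 : (3 : ℤ) ∣ coeff 0 A ^ 2 := by
    obtain ⟨c, hc⟩ := h
    exact ⟨107 * coeff 0 A ^ 2 - c, by linarith⟩
  have hpp : Prime (3 : ℤ) := by norm_num
  exact h0 (hpp.dvd_of_dvd_pow h3)

/-- Core of the case `p = 2` (modulo `16`). -/
theorem core_two (A K : PowerSeries ℤ)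
    (hK : ∀ i : ℕ, coeff i K = coeff (2 * i) A)
    (hA : ∀ n : ℕ, 1 ≤ n → (16 : ℤ) ∣ coeff n A) (h0 : ¬ (2 : ℤ) ∣ coeff 0 A)
    (K2 : (2 : ℤ) * coeff 1 (A ^ 2) + coeff 2 (K ^ 2) = 3 * coeff 0 A ^ 2 * 240) : False := by
  have hK1 : (16 : ℤ) ∣ coeff 1 K := by rw [hK]; exact hA _ (by norm_num)
  have hK2 : (16 : ℤ) ∣ coeff 2 K := by rw [hK]; exact hA _ (by norm_num)
  have h2 : (16 : ℤ) ∣ coeff 1 (A ^ 2) := dvd_coeff_pow _ A hA 2 1 le_rfl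
  have e : coeff 2 (K ^ 2) = 2 * (coeff 0 K * coeff 2 K) + coeff 1 K ^ 2 := by
    rw [pow_two, coeff_mul]
    simp [Finset.Nat.antidiagonal_succ]
    ring
  obtain ⟨a, ha⟩ := hK1
  obtain ⟨b, hb⟩ := hK2
  obtain ⟨c, hc⟩ := h2
  rw [e, ha, hb, hc] at K2
  have h3 : (2 : ℤ) ∣ coeff 0 A ^ 2 := by
    refine ⟨c + coeff 0 K * b + 8 * a ^ 2 - 22 * coeff 0 A ^ 2, ?_⟩
    linarith
  have hpp : Prime (2 : ℤ) := by norm_num
  exact h0 (hpp.dvd_of_dvd_pow h3)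

end Fermat.Agent.S16.UB.CasePCore
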