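import Mathlib
import Fermat.Agent.S23.LevelOne
import Fermat.Agent.S16.UB.LevelOneSturm
import Fermat.Agent.S16.UB.Pair
import Fermat.Agent.S16.UB.Reduce
import Fermat.Agent.S16.UB.CasePCore

/-!
# S16 upper bound, case `l = p` (brick UB-BP)

For `G ∈ M₂(Γ₀(p))` with integer `q`-expansion `A`, the traces of `G²` and `G³` to level one
are multiples of `E₄` and `E₆`; this gives the identities

* `K2 : p * A² + U_p((U_p A)²) = (p + 1) a₀² E₄`,
* `K3 : p² * A³ - U_p((U_p A)³) = (p² - 1) a₀³ E₆`,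

whose `q¹`-coefficients exclude `A ≡ a₀ mod p` (`p ∤ a₀`) for `p ≥ 5`, and the analogous
congruences modulo `9` for `p = 3` and modulo `16` for `p = 2`.

Exports (shape of `Reduce.upper_bound`): `not_unitMod_self`, `not_unitMod_three`,
`not_unitMod_two`.
-/

set_option autoImplicit false

open UpperHalfPlane ModularForm ModularFormClass CongruenceSubgroup EisensteinSeries
open scoped MatrixGroups

namespace Fermat.Agent.S16.UB.CaseP

open Fermat.Agent.S23.LevelOne Fermat.Agent.S16.UB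

noncomputable section

/-- A level-one form of weight `< 12` is determined by its constant term: it is that constant
times any form `g` of the same weight with constant term `1`. -/
theorem qExpansion_eq_smul_of_lt_twelve (k : ℤ) (hk : k < 12) (f g : ModularForm 𝒮ℒ k)
    (hg : PowerSeries.coeff 0 (qExpansion 1 g) = 1) :
    qExpansion 1 f = PowerSeries.coeff 0 (qExpansion 1 f) • qExpansion 1 g := by
  set c := PowerSeries.coeff 0 (qExpansion 1 f) with hc
  have hq : qExpansion 1 ((f - c • g : ModularForm 𝒮ℒ k) : ℍ → ℂ) =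
      qExpansion 1 f - c • qExpansion 1 g := by
    have h1 := ModularForm.qExpansion_sub one_pos one_mem_strictPeriods_SL f (c • g)
    have h2 := ModularForm.qExpansion_smul one_pos one_mem_strictPeriods_SL c g
    have h3 : (⇑(f - c • g) : ℍ → ℂ) = ⇑f - ⇑(c • g) := rfl
    have h4 : (⇑(c • g) : ℍ → ℂ) = c • ⇑g := rfl
    rw [h3, h1, h4, h2]
  have hz : f - c • g = 0 := by
    refine LevelOneSturm.eq_zero_of_coeff_eq_zero k (f - c • g) fun i hi => ?_
    have hi0 : i = 0 := by omega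
    subst hi0
    rw [hq, map_sub, PowerSeries.coeff_smul, hg, ← hc]
    simp
  have : qExpansion 1 ((f - c • g : ModularForm 𝒮ℒ k) : ℍ → ℂ) = 0 := by
    rw [hz]
    have : (⇑(0 : ModularForm 𝒮ℒ k) : ℍ → ℂ) = 0 := rfl
    rw [this]
    exact qExpansion_zero 1
  rw [hq] at this
  exact sub_eq_zero.mp this

/-- Weight-`4` level-one forms are multiples of `E₄`. -/
theorem qExpansion_weight_four (k : ℤ) (hk : k = 4) (f : ModularForm 𝒮ℒ k) :
    qExpansion 1 f = PowerSeries.coeff 0 (qExpansion 1 f) •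
      PowerSeries.map (Int.castRingHom ℂ) e4Z := by
  subst hk
  rw [map_e4Z]
  refine qExpansion_eq_smul_of_lt_twelve 4 (by norm_num) f E₄ ?_
  rw [← map_e4Z, PowerSeries.coeff_map]
  simp [e4Z]

/-- Weight-`6` level-one forms are multiples of `E₆`. -/
theorem qExpansion_weight_six (k : ℤ) (hk : k = 6) (f : ModularForm 𝒮ℒ k) :
    qExpansion 1 f = PowerSeries.coeff 0 (qExpansion 1 f) •
      PowerSeries.map (Int.castRingHom ℂ) e6Z := by
  subst hk
  rw [map_e6Z]
  refine qExpansion_eq_smul_of_lt_twelve 6 (by norm_num) f E₆ ?_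
  rw [← map_e6Z, PowerSeries.coeff_map]
  simp [e6Z]


/-- Coefficients of a power of the complexification of an integral series. -/
theorem coeff_map_pow (A : PowerSeries ℤ) (j n : ℕ) :
    PowerSeries.coeff n ((PowerSeries.map (Int.castRingHom ℂ) A) ^ j) =
      ((PowerSeries.coeff n (A ^ j) : ℤ) : ℂ) := by
  rw [← map_pow, PowerSeries.coeff_map]
  simp

/-- The constant coefficient of a power. -/
theorem coeff_zero_pow (A : PowerSeries ℤ) (j : ℕ) :
    PowerSeries.coeff 0 (A ^ j) = PowerSeries.coeff 0 A ^ j := by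
  simp [PowerSeries.coeff_zero_eq_constantCoeff_apply]

/-- The `q¹`-coefficient of the trace identity `K2`:
`p * A² + U_p((U_p A)²) = (p + 1) a₀² E₄`. -/
theorem K2_coeff (p : ℕ) [hp : Fact p.Prime] (G : ModularForm (Gamma0 p) 2) (A : PowerSeries ℤ)
    (hA : qExpansion 1 G = PowerSeries.map (Int.castRingHom ℂ) A) :
    (p : ℤ) * PowerSeries.coeff 1 (A ^ 2) + PowerSeries.coeff p ((U p A) ^ 2) =
      ((p : ℤ) + 1) * PowerSeries.coeff 0 A ^ 2 * 240 := by
  have hp0 : (p : ℂ) ≠ 0 := by exact_mod_cast hp.out.ne_zero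
  have hpp : (p : ℂ) * (p : ℂ)⁻¹ = 1 := mul_inv_cancel₀ hp0
  obtain ⟨B, hB⟩ := exists_isPair (p := p) G
  rw [hA] at hB
  have hw := hB.weight_two hp.out
  obtain ⟨f, hf⟩ := (hB.pow 2).trace hp.out
  have h4 := qExpansion_weight_four _ (by norm_num) f
  have hKc : U p (PowerSeries.map (Int.castRingHom ℂ) A) =
      PowerSeries.map (Int.castRingHom ℂ) (U p A) := (map_U p _ A).symm
  have hB2 : B ^ 2 = ((p : ℂ)⁻¹ ^ 2) • (PowerSeries.map (Int.castRingHom ℂ) (U p A)) ^ 2 := by
    rw [hw, smul_pow, hKc]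
    congr 1
    ring
  have hf' : qExpansion 1 f = (PowerSeries.map (Int.castRingHom ℂ) A) ^ 2 +
      (p : ℂ)⁻¹ • U p ((PowerSeries.map (Int.castRingHom ℂ) (U p A)) ^ 2) := by
    rw [hf, hB2, map_smul, smul_smul]
    congr 2
    field_simp
  have hU0 : PowerSeries.coeff 0 (U p A) = PowerSeries.coeff 0 A := by
    rw [coeff_U, mul_zero]
  -- constant term
  have hc0 : PowerSeries.coeff 0 (qExpansion 1 f) =
      ((PowerSeries.coeff 0 A : ℤ) : ℂ) ^ 2 * (1 + (p : ℂ)⁻¹) := by
    rw [hf', map_add, PowerSeries.coeff_smul, coeff_U, mul_zero, coeff_map_pow, coeff_map_pow,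
      coeff_zero_pow, coeff_zero_pow, hU0, smul_eq_mul]
    push_cast
    ring
  -- coefficient of `q`
  have he : PowerSeries.coeff 1 (PowerSeries.map (Int.castRingHom ℂ) e4Z) = 240 := by
    rw [PowerSeries.coeff_map]
    simp [e4Z]
  have hc1 := congrArg (PowerSeries.coeff 1) h4
  rw [hc0, hf', map_add, PowerSeries.coeff_smul, PowerSeries.coeff_smul, coeff_U, mul_one,
    coeff_map_pow, coeff_map_pow, he, smul_eq_mul, smul_eq_mul] at hc1
  have hfin : ((p : ℂ)) * ((PowerSeries.coeff 1 (A ^ 2) : ℤ) : ℂ) +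
      ((PowerSeries.coeff p ((U p A) ^ 2) : ℤ) : ℂ) =
      ((p : ℂ) + 1) * ((PowerSeries.coeff 0 A : ℤ) : ℂ) ^ 2 * 240 := by
    linear_combination (p : ℂ) * hc1 -
      (((PowerSeries.coeff p ((U p A) ^ 2) : ℤ) : ℂ) -
        240 * ((PowerSeries.coeff 0 A : ℤ) : ℂ) ^ 2) * hpp
  exact_mod_cast hfin

/-- The `q¹`-coefficient of the trace identity `K3`:
`p² * A³ - U_p((U_p A)³) = (p² - 1) a₀³ E₆`. -/
theorem K3_coeff (p : ℕ) [hp : Fact p.Prime] (G : ModularForm (Gamma0 p) 2) (A : PowerSeries ℤ)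
    (hA : qExpansion 1 G = PowerSeries.map (Int.castRingHom ℂ) A) :
    (p : ℤ) ^ 2 * PowerSeries.coeff 1 (A ^ 3) - PowerSeries.coeff p ((U p A) ^ 3) =
      ((p : ℤ) ^ 2 - 1) * PowerSeries.coeff 0 A ^ 3 * (-504) := by
  have hp0 : (p : ℂ) ≠ 0 := by exact_mod_cast hp.out.ne_zero
  have hpp : (p : ℂ) ^ 2 * (p : ℂ)⁻¹ ^ 2 = 1 := by
    rw [← mul_pow, mul_inv_cancel₀ hp0, one_pow]
  obtain ⟨B, hB⟩ := exists_isPair (p := p) G
  rw [hA] at hB
  have hw := hB.weight_two hp.out
  obtain ⟨f, hf⟩ := (hB.pow 3).trace hp.out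
  have h6 := qExpansion_weight_six _ (by norm_num) f
  have hKc : U p (PowerSeries.map (Int.castRingHom ℂ) A) =
      PowerSeries.map (Int.castRingHom ℂ) (U p A) := (map_U p _ A).symm
  have hB3 : B ^ 3 =
      (-((p : ℂ)⁻¹ ^ 3)) • (PowerSeries.map (Int.castRingHom ℂ) (U p A)) ^ 3 := by
    rw [hw, smul_pow, hKc]
    congr 1
    ring
  have hf' : qExpansion 1 f = (PowerSeries.map (Int.castRingHom ℂ) A) ^ 3 +
      (-((p : ℂ)⁻¹ ^ 2)) • U p ((PowerSeries.map (Int.castRingHom ℂ) (U p A)) ^ 3) := by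
    rw [hf, hB3, map_smul, smul_smul]
    congr 2
    field_simp
  have hU0 : PowerSeries.coeff 0 (U p A) = PowerSeries.coeff 0 A := by
    rw [coeff_U, mul_zero]
  -- constant term
  have hc0 : PowerSeries.coeff 0 (qExpansion 1 f) =
      ((PowerSeries.coeff 0 A : ℤ) : ℂ) ^ 3 * (1 - (p : ℂ)⁻¹ ^ 2) := by
    rw [hf', map_add, PowerSeries.coeff_smul, coeff_U, mul_zero, coeff_map_pow, coeff_map_pow,
      coeff_zero_pow, coeff_zero_pow, hU0, smul_eq_mul]
    push_cast
    ring
  -- coefficient of `q`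
  have he : PowerSeries.coeff 1 (PowerSeries.map (Int.castRingHom ℂ) e6Z) = -504 := by
    rw [PowerSeries.coeff_map]
    simp [e6Z]
  have hc1 := congrArg (PowerSeries.coeff 1) h6
  rw [hc0, hf', map_add, PowerSeries.coeff_smul, PowerSeries.coeff_smul, coeff_U, mul_one,
    coeff_map_pow, coeff_map_pow, he, smul_eq_mul, smul_eq_mul] at hc1
  have hfin : ((p : ℂ)) ^ 2 * ((PowerSeries.coeff 1 (A ^ 3) : ℤ) : ℂ) -
      ((PowerSeries.coeff p ((U p A) ^ 3) : ℤ) : ℂ) =
      ((p : ℂ) ^ 2 - 1) * ((PowerSeries.coeff 0 A : ℤ) : ℂ) ^ 3 * (-504) := by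
    linear_combination (p : ℂ) ^ 2 * hc1 +
      (((PowerSeries.coeff p ((U p A) ^ 3) : ℤ) : ℂ) +
        504 * ((PowerSeries.coeff 0 A : ℤ) : ℂ) ^ 3) * hpp
  exact_mod_cast hfin

/-- Extract the integer `q`-expansion from a `UnitMod` witness. -/
theorem exists_series {p : ℕ} (G : ModularForm (Gamma0 p) 2) (a : ℕ → ℤ)
    (ha : ∀ n, qCoeff G n = (a n : ℂ)) :
    qExpansion 1 G = PowerSeries.map (Int.castRingHom ℂ) (PowerSeries.mk a) := by
  ext n
  rw [PowerSeries.coeff_map, PowerSeries.coeff_mk]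
  exact ha n

/-- **(BP)**: for `p ≥ 5` there is no `G ∈ M₂(Γ₀(p))` with integer `q`-expansion, constant
term prime to `p` and all higher coefficients divisible by `p`. -/
theorem not_unitMod_self (p : ℕ) [hp : Fact p.Prime] (h5 : 5 ≤ p) : ¬ Reduce.UnitMod p p 1 := by
  rintro ⟨G, a, ha, h0, hn⟩
  have hA := exists_series G a ha
  refine CasePCore.core_ge_five p hp.out h5 (PowerSeries.mk a) (U p (PowerSeries.mk a))
    (fun i => coeff_U p _ i) (fun n hn1 => ?_) ?_ (K2_coeff p G _ hA) (K3_coeff p G _ hA)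
  · rw [PowerSeries.coeff_mk]
    simpa using hn n hn1
  · rw [PowerSeries.coeff_mk]
    exact h0

/-- **(BP3)**: no `G ∈ M₂(Γ₀(3))` with integer `q`-expansion, constant term prime to `3` and
all higher coefficients divisible by `9`. -/
theorem not_unitMod_three : ¬ Reduce.UnitMod 3 3 2 := by
  rintro ⟨G, a, ha, h0, hn⟩
  haveI : Fact (Nat.Prime 3) := ⟨by norm_num⟩
  have hA := exists_series G a ha
  refine CasePCore.core_three (PowerSeries.mk a) (U 3 (PowerSeries.mk a))
    (fun i => coeff_U 3 _ i) (fun n hn1 => ?_) ?_ ?_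
  · rw [PowerSeries.coeff_mk]
    simpa using hn n hn1
  · rw [PowerSeries.coeff_mk]
    exact_mod_cast h0
  · have := K2_coeff 3 G _ hA
    norm_num at this ⊢
    linarith

/-- **(BP2)**: no `G ∈ M₂(Γ₀(2))` with integer `q`-expansion, odd constant term and all
higher coefficients divisible by `16`. -/
theorem not_unitMod_two : ¬ Reduce.UnitMod 2 2 4 := by
  rintro ⟨G, a, ha, h0, hn⟩
  haveI : Fact (Nat.Prime 2) := ⟨by norm_num⟩
  have hA := exists_series G a ha
  refine CasePCore.core_two (PowerSeries.mk a) (U 2 (PowerSeries.mk a))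
    (fun i => coeff_U 2 _ i) (fun n hn1 => ?_) ?_ ?_
  · rw [PowerSeries.coeff_mk]
    simpa using hn n hn1
  · rw [PowerSeries.coeff_mk]
    exact_mod_cast h0
  · have := K2_coeff 2 G _ hA
    norm_num at this ⊢
    linarith

end

end Fermat.Agent.S16.UB.CaseP
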