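import Fermat.Agent.S16.UB.EisE
import Fermat.Agent.S16.EisCoeff

/-!
# Integer `q`-expansion of `24 E` and the bridge to `EisCoeff.eisCoeff`

Adapters between `UB.EisE` (the Eisenstein series `E = (N E₂(Nz) - E₂(z))/24` on `Γ₀(N)`) and the
coefficient system `EisCoeff.eisCoeff` used by `S16.Frame`.
-/

set_option autoImplicit false

namespace Fermat.Agent.S16.UB.EisEZ

open UpperHalfPlane hiding I
open ModularForm CongruenceSubgroup
open Fermat.Agent.S16.UB.EisE Fermat.Agent.S16.EisCoeff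
open scoped MatrixGroups ModularForm

theorem sigmaP_eq_eisCoeff (N k : ℕ) (hN : 0 < N) (hk : k ≠ 0) :
    (sigmaP N k : ℤ) = eisCoeff N k := by
  have h := sigma_one_eq N hN k hk
  rw [eisCoeff, h]
  push_cast
  split_ifs <;> simp

/-- The integer `q`-expansion `(N - 1) + 24 ∑_{k ≥ 1} σ'(k) q^k` of `24 E`. -/
def e24Z (N : ℕ) : PowerSeries ℤ :=
  PowerSeries.mk fun n => if n = 0 then (N : ℤ) - 1 else 24 * eisCoeff N n

@[simp] theorem coeff_e24Z_zero (N : ℕ) : PowerSeries.coeff 0 (e24Z N) = (N : ℤ) - 1 := by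
  simp [e24Z]

theorem coeff_e24Z (N : ℕ) {k : ℕ} (hk : k ≠ 0) :
    PowerSeries.coeff k (e24Z N) = 24 * eisCoeff N k := by
  simp [e24Z, hk]

/-- `24 E = N E₂(Nz) - E₂(z)` has the integer `q`-expansion `e24Z N`. -/
theorem qExpansion_E24 (N : ℕ) [NeZero N] :
    qExpansion 1 (E24 N) = PowerSeries.map (Int.castRingHom ℂ) (e24Z N) := by
  have hN : 0 < N := Nat.pos_of_ne_zero (NeZero.ne N)
  ext n
  rw [qExpansion_E24_coeff, PowerSeries.coeff_map]
  by_cases hn : n = 0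
  · subst hn
    simp [e24Coeff]
  · rw [coeff_e24Z N hn, ← sigmaP_eq_eisCoeff N n hN hn]
    simp [e24Coeff, hn]

/-- The `q`-coefficients of `E` for `k ≥ 1` are the `eisCoeff`. -/
theorem qCoeff_eisE_eq_eisCoeff (N : ℕ) [NeZero N] {k : ℕ} (hk : 1 ≤ k) :
    ModularFormClass.qCoeff (eisE N) k = ((eisCoeff N k : ℤ) : ℂ) := by
  have hN : 0 < N := Nat.pos_of_ne_zero (NeZero.ne N)
  rw [qCoeff_eisE N (by omega : k ≠ 0), ← sigmaP_eq_eisCoeff N k hN (by omega)]
  simp

/-- Packaged form: `24 E` as a weight-2 form on `Γ₀(N)` with an integer `q`-expansion whose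
constant term is `N - 1` and whose higher coefficients are `24 σ'(k)`. -/
theorem exists_E24 (N : ℕ) [NeZero N] :
    ∃ (G : ModularForm (Gamma0 N) 2) (A : PowerSeries ℤ),
      qExpansion 1 G = PowerSeries.map (Int.castRingHom ℂ) A ∧
      PowerSeries.coeff 0 A = (N : ℤ) - 1 ∧
      ∀ k : ℕ, 1 ≤ k → PowerSeries.coeff k A = 24 * eisCoeff N k :=
  ⟨E24 N, e24Z N, qExpansion_E24 N, coeff_e24Z_zero N, fun _ hk => coeff_e24Z N (by omega)⟩

end Fermat.Agent.S16.UB.EisEZ
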