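import Mathlib
import Fermat.Agent.S16.Frame
import Fermat.Agent.S16.UB.Reduce
import Fermat.Agent.S16.UB.EisEZ

/-!
# S16 upper bound: wiring of the case bricks to the Frame hypothesis `hU`

* `exists_series_of_unitMod`: unpack `Reduce.UnitMod p l r` into a modular form with an integral
  power series (the shape in which the case bricks are proved).
* `upper_bound_of_cases`: the eight case bricks (in `UnitMod` form) give the upper bound in the
  exact shape required by `Frame.card_eq_of_bounds` / `LBFrame.card_eq_of_upper`.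
-/

set_option autoImplicit false

open CongruenceSubgroup ModularFormClass UpperHalfPlane

namespace Fermat.Agent.S16.UB.Wire

open Fermat.Agent.S16.UB.Reduce

/-- Unpack `UnitMod p l r`: a form `G ∈ M₂(Γ₀(p))` whose `q`-expansion is the image of an integral
power series `A` with `l ∤ a₀` and `l ^ r ∣ aₙ` for `n ≥ 1`. -/
theorem exists_series_of_unitMod {p l r : ℕ} (h : UnitMod p l r) :
    ∃ (G : ModularForm (Gamma0 p) 2) (A : PowerSeries ℤ),
      qExpansion 1 G = PowerSeries.map (Int.castRingHom ℂ) A ∧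
      ¬ (l : ℤ) ∣ PowerSeries.coeff 0 A ∧
      ∀ n : ℕ, 1 ≤ n → (l : ℤ) ^ r ∣ PowerSeries.coeff n A := by
  obtain ⟨G, a, ha, h0, hn⟩ := h
  refine ⟨G, PowerSeries.mk a, ?_, by simpa using h0, fun n hn1 => by simpa using hn n hn1⟩
  ext n
  rw [PowerSeries.coeff_map, PowerSeries.coeff_mk]
  exact ha n

/-- Conversely, pack a form with integral `q`-expansion into `UnitMod`. -/
theorem unitMod_of_series {p l r : ℕ} (G : ModularForm (Gamma0 p) 2) (A : PowerSeries ℤ)
    (hA : qExpansion 1 G = PowerSeries.map (Int.castRingHom ℂ) A)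
    (h0 : ¬ (l : ℤ) ∣ PowerSeries.coeff 0 A)
    (hn : ∀ n : ℕ, 1 ≤ n → (l : ℤ) ^ r ∣ PowerSeries.coeff n A) : UnitMod p l r := by
  refine ⟨G, fun n => PowerSeries.coeff n A, fun n => ?_, h0, hn⟩
  rw [ModularFormClass.qCoeff, hA, PowerSeries.coeff_map]
  rfl

/-- **Upper bound of S16 from the case bricks**, in the shape of the Frame hypothesis `hU`. -/
theorem upper_bound_of_cases (p : ℕ) [hp : Fact p.Prime]
    (hBl : ∀ l : ℕ, l.Prime → 5 ≤ l → l ≠ p → ¬ UnitMod p l 1)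
    (hBP : 5 ≤ p → ¬ UnitMod p p 1)
    (hBP3 : p = 3 → ¬ UnitMod p 3 2)
    (hBP2 : p = 2 → ¬ UnitMod p 2 4)
    (hB3a : p ≠ 3 → UnitMod p 3 1 → p % 3 = 2)
    (hB3b : p ≠ 3 → ¬ UnitMod p 3 2)
    (hB2a : p ≠ 2 → UnitMod p 2 2 → p % 4 = 3)
    (hB2b : p % 4 = 3 → ¬ UnitMod p 2 3)
    (M : ℕ) (f : CuspForm (Gamma0 p) 2)
    (h : Fermat.Agent.S16.Frame.IsEisMod p (Fermat.Agent.S16.EisCoeff.eisCoeff p) M f) :
    M ∣ ModularCurve.eisensteinNumerator p := by
  have : NeZero p := ⟨hp.out.ne_zero⟩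
  refine Reduce.upper_bound p (Fermat.Agent.S16.UB.EisE.eisE p)
    (fun k => Fermat.Agent.S16.EisCoeff.eisCoeff p k)
    (Fermat.Agent.S16.UB.EisE.qCoeff_eisE_zero p)
    (fun k hk => Fermat.Agent.S16.UB.EisEZ.qCoeff_eisE_eq_eisCoeff p hk)
    hBl hBP hBP3 hBP2 hB3a hB3b hB2a ?_ M f ?_
  · intro hp2 hU
    have h43 : p % 4 = 3 := hB2a hp2 (hU.mono (by norm_num))
    exact hB2b h43 hU
  · intro k hk
    obtain ⟨c, hc, hdvd⟩ := h k hk
    refine ⟨c, hc, ?_⟩
    have := (ZMod.intCast_eq_intCast_iff_dvd_sub (Fermat.Agent.S16.EisCoeff.eisCoeff p k) c M).mpr hdvd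
    exact this.symm

end Fermat.Agent.S16.UB.Wire
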