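import Mathlib
import Fermat.Agent.S23.LevelOne
import Fermat.Agent.S16.UB.PairDefs
import Fermat.Agent.S16.UB.TwoAdic

/-!
# S16 upper bound, case `ℓ = 2`, `p ≡ 3 mod 4` (insurance copy): the pure power-series core

With `P₀ = S₃ + S₃² = q + ⋯` and `δ = Δ = q + ⋯` in `ℤ⟦q⟧`, the series

  `T = p^e · (P₀ + 2Z)^N · V_p(δ)^p + U_p((V_p(P₀) + 2Z')^N · δ^p)`

is `≡ P₀^N · (V_p(δ)^p + U_p(δ^p)) = q^(N+1) + ⋯` modulo `2` (for odd `p`).
-/

set_option autoImplicit false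

namespace Fermat.Agent.S16.UB.Case2bAlt

open PowerSeries
open Fermat.Agent.S23.LevelOne

/-- Product of two series vanishing below `q^a`, resp. `q^c`. -/
theorem coeff_mul_low {R : Type*} [CommRing R] {X Y : PowerSeries R} {a c : ℕ}
    (hX : ∀ i < a, coeff i X = 0) (hY : ∀ j < c, coeff j Y = 0) :
    (∀ n < a + c, coeff n (X * Y) = 0) ∧ coeff (a + c) (X * Y) = coeff a X * coeff c Y := by
  obtain ⟨X', rfl⟩ : (PowerSeries.X : PowerSeries R) ^ a ∣ X := PowerSeries.X_pow_dvd_iff.mpr hX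
  obtain ⟨Y', rfl⟩ : (PowerSeries.X : PowerSeries R) ^ c ∣ Y := PowerSeries.X_pow_dvd_iff.mpr hY
  have e : (PowerSeries.X : PowerSeries R) ^ a * X' * (PowerSeries.X ^ c * Y')
      = PowerSeries.X ^ (a + c) * (X' * Y') := by ring
  rw [e]
  constructor
  · intro n hn
    rw [coeff_X_pow_mul', if_neg (by omega)]
  · rw [coeff_X_pow_mul', if_pos le_rfl, Nat.sub_self, coeff_X_pow_mul', if_pos le_rfl,
      Nat.sub_self, coeff_X_pow_mul', if_pos le_rfl, Nat.sub_self]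
    simp [coeff_zero_eq_constantCoeff]

/-- Powers of a series with zero constant term. -/
theorem coeff_pow_low {R : Type*} [CommRing R] {D : PowerSeries R} (hD0 : coeff 0 D = 0)
    (a : ℕ) : (∀ i < a, coeff i (D ^ a) = 0) ∧ coeff a (D ^ a) = (coeff 1 D) ^ a := by
  induction a with
  | zero => simp
  | succ a ih =>
    have hD : ∀ j < 1, coeff j D = 0 := by
      intro j hj
      obtain rfl : j = 0 := by omega
      exact hD0
    have h := coeff_mul_low ih.1 hD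
    rw [pow_succ]
    refine ⟨h.1, ?_⟩
    rw [h.2, ih.2, pow_succ]

/-- The core congruence modulo `2`. -/
theorem core (p : ℕ) [NeZero p] (hp2 : 2 ≤ p) (hodd : Odd p) (N e : ℕ) (Z Z' : PowerSeries ℤ)
    (T : PowerSeries ℤ)
    (hT : T = C ((p : ℤ) ^ e) * (aZ + aZ ^ 2 + 2 * Z) ^ N * V p deltaZ ^ p
        + U p ((V p (aZ + aZ ^ 2) + 2 * Z') ^ N * deltaZ ^ p)) :
    (∀ n ≤ N, (2 : ℤ) ∣ coeff n T) ∧ ¬ (2 : ℤ) ∣ coeff (N + 1) T := by
  obtain ⟨φ, hφ⟩ : ∃ φ : PowerSeries ℤ →+* PowerSeries (ZMod 2),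
      φ = PowerSeries.map (Int.castRingHom (ZMod 2)) := ⟨_, rfl⟩
  obtain ⟨P, hP⟩ : ∃ P : PowerSeries (ZMod 2), P = φ (aZ + aZ ^ 2) := ⟨_, rfl⟩
  obtain ⟨δ, hδ⟩ : ∃ δ : PowerSeries (ZMod 2), δ = φ deltaZ := ⟨_, rfl⟩
  have h2 : φ (2 : PowerSeries ℤ) = 0 := by
    rw [map_ofNat]
    rw [show (2 : PowerSeries (ZMod 2)) = C (2 : ZMod 2) from (map_ofNat C 2).symm]
    rw [show (2 : ZMod 2) = 0 by decide, map_zero]
  have hC : φ (C ((p : ℤ) ^ e)) = 1 := by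
    rw [hφ, PowerSeries.map_C]
    have h1 : (Int.castRingHom (ZMod 2)) ((p : ℤ) ^ e) = 1 := by
      have hp1 : ((p : ℕ) : ZMod 2) = 1 := ZMod.natCast_eq_one_iff_odd.mpr hodd
      simp [hp1]
    rw [h1, map_one]
  have hV : ∀ A : PowerSeries ℤ, φ (V p A) = V p (φ A) := fun A => by
    rw [hφ]; exact map_V p _ A
  have hU : ∀ A : PowerSeries ℤ, φ (U p A) = U p (φ A) := fun A => by
    rw [hφ]; exact map_U p _ A
  have e0 : ∀ Y : PowerSeries ℤ, ∀ W : PowerSeries ℤ, φ (Y + 2 * W) = φ Y := by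
    intro Y W
    rw [map_add, map_mul, h2, zero_mul, add_zero]
  have e1 : φ (C ((p : ℤ) ^ e) * (aZ + aZ ^ 2 + 2 * Z) ^ N * V p deltaZ ^ p)
      = P ^ N * V p δ ^ p := by
    rw [map_mul, map_mul, hC, one_mul, map_pow, map_pow, hV, e0, ← hP, ← hδ]
  have e2 : φ (U p ((V p (aZ + aZ ^ 2) + 2 * Z') ^ N * deltaZ ^ p)) = P ^ N * U p (δ ^ p) := by
    rw [hU, map_mul, map_pow, map_pow, e0, hV, ← hP, ← hδ, ← map_pow (V p) P N, U_V_mul]
  have hφT : φ T = P ^ N * (V p δ ^ p + U p (δ ^ p)) := by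
    rw [hT, map_add, e1, e2, mul_add]
  -- orders
  have hP0 : coeff 0 P = 0 := by
    rw [hP, hφ, PowerSeries.coeff_map, Fermat.Agent.S16.UB.TwoAdic.coeff_zero_P0, map_zero]
  have hP1 : coeff 1 P = 1 := by
    rw [hP, hφ, PowerSeries.coeff_map, Fermat.Agent.S16.UB.TwoAdic.coeff_one_P0, map_one]
  have hδ0 : coeff 0 δ = 0 := by
    rw [hδ, hφ, PowerSeries.coeff_map, coeff_zero_deltaZ, map_zero]
  have hδ1 : coeff 1 δ = 1 := by
    rw [hδ, hφ, PowerSeries.coeff_map, coeff_one_deltaZ, map_one]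
  have hPN := coeff_pow_low hP0 N
  have hδp := coeff_pow_low hδ0 p
  have hp0 : 0 < p := by omega
  have hW : ∀ j < 1, coeff j (V p δ ^ p + U p (δ ^ p)) = 0 := by
    intro j hj
    obtain rfl : j = 0 := by omega
    rw [map_add, coeff_U, mul_zero, hδp.1 0 hp0, add_zero, ← map_pow (V p) δ p]
    have := coeff_V_mul p (δ ^ p) 0
    rw [mul_zero] at this
    rw [this, hδp.1 0 hp0]
  have hW1 : coeff 1 (V p δ ^ p + U p (δ ^ p)) = 1 := by
    rw [map_add, coeff_U, mul_one, hδp.2, hδ1, one_pow, ← map_pow (V p) δ p, coeff_V,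
      if_neg (by rw [Nat.dvd_one]; omega), zero_add]
  have hmul := coeff_mul_low hPN.1 hW
  have key : ∀ n, ((coeff n T : ℤ) : ZMod 2) = coeff n (φ T) := by
    intro n
    rw [hφ, PowerSeries.coeff_map]
    rfl
  constructor
  · intro n hn
    apply (ZMod.intCast_zmod_eq_zero_iff_dvd _ 2).mp
    rw [key, hφT]
    exact hmul.1 n (by omega)
  · intro hdvd
    have h0 := (ZMod.intCast_zmod_eq_zero_iff_dvd _ 2).mpr hdvd
    rw [key, hφT, hmul.2, hPN.2, hP1, one_pow, hW1, one_mul] at h0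
    exact one_ne_zero h0

end Fermat.Agent.S16.UB.Case2bAlt
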