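import Mathlib
import Fermat.Agent.S16.UB.Pair
import Fermat.Agent.S16.UB.LevelOneSturm
import Fermat.Agent.S16.UB.Reduce
import Fermat.Agent.S16.UB.UnitModSeries
import Fermat.Agent.S16.UB.TwoAdic
import Fermat.Agent.S16.UB.Case2bAltCore

/-!
# S16 upper bound, case `ℓ = 2`, `p ≡ 3 mod 4` (hypothesis `hB2b`), insurance copy

There is no `G ∈ M₂(Γ₀(p))` with integral `q`-expansion, odd constant term and all higher
coefficients divisible by `8`.  Proof: the weight-8 form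
`F = (27 G⁴ - 18 b² E₄ G² - 8 b³ E₆ G - b⁴ E₄²)/256` has `F ≡ P₀`, `p⁴ F♯ ≡ V_p P₀` modulo `2`
(`TwoAdic`), and the trace of `F^N · Δ(pz)^p` (`N = 3p - 2`) contradicts the level-one Sturm
bound (`Case2bAltCore.core`).
-/

set_option autoImplicit false

open UpperHalfPlane ModularForm ModularFormClass CongruenceSubgroup EisensteinSeries
open scoped MatrixGroups

namespace Fermat.Agent.S16.UB.Case2bAlt

noncomputable section

open Fermat.Agent.S23.LevelOne Fermat.Agent.S16.UB.TwoAdic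

/-- Coefficientwise cast `ℤ⟦q⟧ → ℂ⟦q⟧`. -/
abbrev zc : PowerSeries ℤ →+* PowerSeries ℂ := PowerSeries.map (Int.castRingHom ℂ)

theorem zc_V (p : ℕ) [NeZero p] (X : PowerSeries ℤ) : zc (V p X) = V p (zc X) := map_V p _ X

theorem zc_U (p : ℕ) (X : PowerSeries ℤ) : zc (U p X) = U p (zc X) := map_U p _ X

theorem isPair_E4 (p : ℕ) [NeZero p] : IsPair p 4 (zc e4Z) (V p (zc e4Z)) := by
  have h := IsPair.ofLevelOne (p := p) E₄
  rwa [← map_e4Z] at h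

theorem isPair_E6 (p : ℕ) [NeZero p] : IsPair p 6 (zc e6Z) (V p (zc e6Z)) := by
  have h := IsPair.ofLevelOne (p := p) E₆
  rwa [← map_e6Z] at h

theorem isPair_Delta (p : ℕ) [NeZero p] :
    IsPair p 12 (V p (zc deltaZ)) (((p : ℂ) ^ (-12 : ℤ)) • zc deltaZ) := by
  have hF0q : qExpansion 1 (ofPoly 12 discPoly) = zc deltaZ := by
    have h : ((ofPoly 12 discPoly : ModularForm 𝒮ℒ ((12 : ℕ) : ℤ)) : ℍ → ℂ)
        = ModularForm.discriminant := funext ofPoly_discPoly_apply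
    rw [h, map_deltaZ]
  have h := IsPair.ofLevelRaise (p := p) (ofPoly 12 discPoly)
  rw [hF0q] at h
  exact h.congr_weight (by norm_num)

theorem aside_alg {R : Type*} [CommRing R] (β c a e4 e6 S : R) (hc : c * 256 = 1)
    (h : 27 * a ^ 4 - 18 * β ^ 2 * e4 * a ^ 2 - 8 * β ^ 3 * e6 * a - β ^ 4 * e4 ^ 2 = 256 * S) :
    c * (27 * a ^ 4 - 18 * β ^ 2 * (a ^ 2 * e4) - 8 * β ^ 3 * (a * e6) - β ^ 4 * e4 ^ 2) = S := by
  linear_combination c * h + S * hc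

theorem bside_alg {R : Type*} [CommRing R] (ι π β c a e4 e6 S : R) (hι : ι * π = 1)
    (hc : c * 256 = 1)
    (h : 27 * a ^ 4 - 18 * (β * π) ^ 2 * e4 * a ^ 2 + 8 * (β * π) ^ 3 * e6 * a
      - (β * π) ^ 4 * e4 ^ 2 = 256 * S) :
    c * (27 * (-ι * a) ^ 4 - 18 * β ^ 2 * ((-ι * a) ^ 2 * e4) - 8 * β ^ 3 * ((-ι * a) * e6)
      - β ^ 4 * e4 ^ 2) = ι ^ 4 * S := by
  linear_combination
    (c * (18 * β ^ 2 * ι ^ 2 * a ^ 2 * e4 * (ι * π + 1)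
      - 8 * β ^ 3 * ι * a * e6 * ((ι * π) ^ 2 + ι * π + 1)
      + β ^ 4 * e4 ^ 2 * ((ι * π) ^ 3 + (ι * π) ^ 2 + ι * π + 1))) * hι
    + (c * ι ^ 4) * h + (ι ^ 4 * S) * hc

/-- The weight-8 pair: `F = D/256` has `q`-expansion `P₀ + 2Z` and `F♯` has `q`-expansion
`p⁻⁴ (V_p P₀ + 2 Z')`. -/
theorem exists_weight_eight {p : ℕ} [NeZero p] (hp : p.Prime) (hp4 : p % 4 = 3)
    (G : ModularForm (Gamma0 p) 2) (A : PowerSeries ℤ) (hA : qExpansion 1 G = zc A)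
    (hb : Odd (PowerSeries.coeff 0 A))
    (h8 : ∀ n : ℕ, 1 ≤ n → (8 : ℤ) ∣ PowerSeries.coeff n A) :
    ∃ Z Z' : PowerSeries ℤ,
      IsPair p 8 (zc (aZ + aZ ^ 2 + 2 * Z))
        ((((p : ℂ)⁻¹) ^ 4) • zc (V p (aZ + aZ ^ 2) + 2 * Z')) := by
  have hp0 : p ≠ 0 := hp.ne_zero
  have hpC : (p : ℂ) ≠ 0 := Nat.cast_ne_zero.mpr hp0
  obtain ⟨b, hbdef⟩ : ∃ b : ℤ, b = PowerSeries.coeff 0 A := ⟨_, rfl⟩
  rw [← hbdef] at hb
  obtain ⟨Z, hZ⟩ := magic_at_infty A b hb hbdef.symm h8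
  have h0' : PowerSeries.coeff 0 (U p A) = b := by
    rw [coeff_U, mul_zero, hbdef]
  have h8' : ∀ n : ℕ, 1 ≤ n → (8 : ℤ) ∣ PowerSeries.coeff n (U p A) := by
    intro n hn
    rw [coeff_U]
    exact h8 _ (Nat.mul_pos hp.pos hn)
  obtain ⟨Z', hZ'⟩ := magic_at_zero p hp0 hp4 (U p A) b hb h0' h8'
  refine ⟨Z, Z', ?_⟩
  obtain ⟨B, hB⟩ := exists_isPair G
  rw [hA] at hB
  have hw := hB.weight_two hp
  have h4 : IsPair p 8 ((zc A) ^ 4) (B ^ 4) := (hB.pow 4).congr_weight (by norm_num)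
  have h2E : IsPair p 8 ((zc A) ^ 2 * zc e4Z) (B ^ 2 * V p (zc e4Z)) :=
    ((hB.pow 2).mul (isPair_E4 p)).congr_weight (by norm_num)
  have h1E : IsPair p 8 (zc A * zc e6Z) (B * V p (zc e6Z)) :=
    (hB.mul (isPair_E6 p)).congr_weight (by norm_num)
  have hEE : IsPair p 8 ((zc e4Z) ^ 2) ((V p (zc e4Z)) ^ 2) :=
    ((isPair_E4 p).pow 2).congr_weight (by norm_num)
  have hF := ((((h4.smul 27).sub (h2E.smul (18 * (b : ℂ) ^ 2))).sub
    (h1E.smul (8 * (b : ℂ) ^ 3))).sub (hEE.smul ((b : ℂ) ^ 4))).smul ((256 : ℂ)⁻¹)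
  have hCb : ∀ x : ℤ, zc (PowerSeries.C x) = PowerSeries.C (x : ℂ) := fun x => by
    rw [PowerSeries.map_C]; rfl
  have h256 : PowerSeries.C (256 : ℂ)⁻¹ * (256 : PowerSeries ℂ) = 1 := by
    rw [← map_ofNat (PowerSeries.C (R := ℂ)) 256, ← map_mul, inv_mul_cancel₀ (by norm_num),
      map_one]
  have hAside : ((256 : ℂ)⁻¹) • ((27 : ℂ) • (zc A) ^ 4
      - (18 * (b : ℂ) ^ 2) • ((zc A) ^ 2 * zc e4Z)
      - (8 * (b : ℂ) ^ 3) • (zc A * zc e6Z) - ((b : ℂ) ^ 4) • (zc e4Z) ^ 2)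
      = zc (aZ + aZ ^ 2 + 2 * Z) := by
    have h := congrArg zc hZ
    simp only [map_sub, map_mul, map_pow, map_add, map_ofNat] at h
    rw [hCb] at h
    have h'' : 27 * zc A ^ 4 - 18 * PowerSeries.C (b : ℂ) ^ 2 * zc e4Z * zc A ^ 2
        - 8 * PowerSeries.C (b : ℂ) ^ 3 * zc e6Z * zc A - PowerSeries.C (b : ℂ) ^ 4 * zc e4Z ^ 2
        = 256 * zc (aZ + aZ ^ 2 + 2 * Z) := by
      rw [h]
      simp only [map_add, map_mul, map_pow, map_ofNat]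
      ring
    calc ((256 : ℂ)⁻¹) • ((27 : ℂ) • (zc A) ^ 4
          - (18 * (b : ℂ) ^ 2) • ((zc A) ^ 2 * zc e4Z)
          - (8 * (b : ℂ) ^ 3) • (zc A * zc e6Z) - ((b : ℂ) ^ 4) • (zc e4Z) ^ 2)
        = PowerSeries.C (256 : ℂ)⁻¹ * (27 * zc A ^ 4
          - 18 * PowerSeries.C (b : ℂ) ^ 2 * (zc A ^ 2 * zc e4Z)
          - 8 * PowerSeries.C (b : ℂ) ^ 3 * (zc A * zc e6Z)
          - PowerSeries.C (b : ℂ) ^ 4 * zc e4Z ^ 2) := by
          simp only [PowerSeries.smul_eq_C_mul, map_mul, map_pow, map_ofNat]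
      _ = zc (aZ + aZ ^ 2 + 2 * Z) := aside_alg _ _ _ _ _ _ h256 h''
  have hι : PowerSeries.C (p : ℂ)⁻¹ * PowerSeries.C (p : ℂ) = 1 := by
    rw [← map_mul, inv_mul_cancel₀ hpC, map_one]
  have hBside : ((256 : ℂ)⁻¹) • ((27 : ℂ) • B ^ 4
      - (18 * (b : ℂ) ^ 2) • (B ^ 2 * V p (zc e4Z))
      - (8 * (b : ℂ) ^ 3) • (B * V p (zc e6Z)) - ((b : ℂ) ^ 4) • (V p (zc e4Z)) ^ 2)
      = (((p : ℂ)⁻¹) ^ 4) • zc (V p (aZ + aZ ^ 2) + 2 * Z') := by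
    have h := congrArg zc hZ'
    have hV : ∀ X : PowerSeries ℤ, zc (PowerSeries.expand p hp0 X) = V p (zc X) :=
      fun X => zc_V p X
    simp only [map_sub, map_mul, map_pow, map_add, map_ofNat, hCb, Int.cast_natCast, hV] at h
    have hR : zc (V p (aZ + aZ ^ 2) + 2 * Z') = V p (zc aZ) + V p (zc aZ) ^ 2 + 2 * zc Z' := by
      simp only [map_add, map_mul, map_pow, map_ofNat, zc_V]
    have h'' : 27 * zc (U p A) ^ 4
        - 18 * (PowerSeries.C (b : ℂ) * PowerSeries.C (p : ℂ)) ^ 2 * V p (zc e4Z) * zc (U p A) ^ 2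
        + 8 * (PowerSeries.C (b : ℂ) * PowerSeries.C (p : ℂ)) ^ 3 * V p (zc e6Z) * zc (U p A)
        - (PowerSeries.C (b : ℂ) * PowerSeries.C (p : ℂ)) ^ 4 * V p (zc e4Z) ^ 2
        = 256 * zc (V p (aZ + aZ ^ 2) + 2 * Z') := by
      rw [hR]
      linear_combination h
    have hB' : B = -PowerSeries.C (p : ℂ)⁻¹ * zc (U p A) := by
      rw [hw, zc_U, PowerSeries.smul_eq_C_mul, map_neg]
    calc ((256 : ℂ)⁻¹) • ((27 : ℂ) • B ^ 4
          - (18 * (b : ℂ) ^ 2) • (B ^ 2 * V p (zc e4Z))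
          - (8 * (b : ℂ) ^ 3) • (B * V p (zc e6Z)) - ((b : ℂ) ^ 4) • (V p (zc e4Z)) ^ 2)
        = PowerSeries.C (256 : ℂ)⁻¹ * (27 * (-PowerSeries.C (p : ℂ)⁻¹ * zc (U p A)) ^ 4
          - 18 * PowerSeries.C (b : ℂ) ^ 2
            * ((-PowerSeries.C (p : ℂ)⁻¹ * zc (U p A)) ^ 2 * V p (zc e4Z))
          - 8 * PowerSeries.C (b : ℂ) ^ 3
            * ((-PowerSeries.C (p : ℂ)⁻¹ * zc (U p A)) * V p (zc e6Z))
          - PowerSeries.C (b : ℂ) ^ 4 * V p (zc e4Z) ^ 2) := by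
          rw [hB']
          simp only [PowerSeries.smul_eq_C_mul, map_mul, map_pow, map_ofNat]
      _ = PowerSeries.C (p : ℂ)⁻¹ ^ 4 * zc (V p (aZ + aZ ^ 2) + 2 * Z') :=
          bside_alg _ _ _ _ _ _ _ _ hι h256 h''
      _ = (((p : ℂ)⁻¹) ^ 4) • zc (V p (aZ + aZ ^ 2) + 2 * Z') := by
          rw [PowerSeries.smul_eq_C_mul, map_pow]
  rw [hAside, hBside] at hF
  exact hF

/-- **Case `ℓ = 2`, `p ≡ 3 mod 4`**, in the integral power-series shape. -/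
theorem false_of_unit_mod_eight {p : ℕ} [NeZero p] (hp : p.Prime) (hp4 : p % 4 = 3)
    (G : ModularForm (Gamma0 p) 2) (A : PowerSeries ℤ) (hA : qExpansion 1 G = zc A)
    (hb : Odd (PowerSeries.coeff 0 A))
    (h8 : ∀ n : ℕ, 1 ≤ n → (8 : ℤ) ∣ PowerSeries.coeff n A) : False := by
  obtain ⟨Z, Z', hF⟩ := exists_weight_eight hp hp4 G A hA hb h8
  have hp0 : p ≠ 0 := hp.ne_zero
  have hpC : (p : ℂ) ≠ 0 := Nat.cast_ne_zero.mpr hp0
  have hp3 : 3 ≤ p := by omega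
  have hodd : Odd p := Nat.odd_iff.mpr (by omega)
  obtain ⟨N, hN⟩ : ∃ N : ℕ, N + 2 = 3 * p := ⟨3 * p - 2, by omega⟩
  obtain ⟨e, he⟩ : ∃ e : ℕ, e + 1 = 4 * N + 12 * p := ⟨4 * N + 12 * p - 1, by omega⟩
  have hX := (hF.pow N).mul ((isPair_Delta p).pow p)
  obtain ⟨f, hf⟩ := hX.trace hp
  obtain ⟨T, hT⟩ : ∃ T : PowerSeries ℤ,
      T = PowerSeries.C ((p : ℤ) ^ e) * (aZ + aZ ^ 2 + 2 * Z) ^ N * V p deltaZ ^ p
        + U p ((V p (aZ + aZ ^ 2) + 2 * Z') ^ N * deltaZ ^ p) := ⟨_, rfl⟩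
  have hcore := core p (by omega) hodd N e Z Z' T hT
  have hsc : (p : ℂ) ^ e * ((p : ℂ) * ((((p : ℂ)⁻¹) ^ 4) ^ N * ((p : ℂ) ^ (-12 : ℤ)) ^ p)) = 1 := by
    have h1 : ((p : ℂ) ^ (-12 : ℤ)) = ((p : ℂ)⁻¹) ^ 12 := by
      rw [zpow_neg, inv_pow]
      norm_cast
    rw [h1, ← pow_mul, ← pow_mul]
    calc (p : ℂ) ^ e * ((p : ℂ) * (((p : ℂ)⁻¹) ^ (4 * N) * ((p : ℂ)⁻¹) ^ (12 * p)))
        = (p : ℂ) ^ (e + 1) * ((p : ℂ)⁻¹) ^ (4 * N + 12 * p) := by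
          rw [pow_succ, pow_add]; ring
      _ = ((p : ℂ) * (p : ℂ)⁻¹) ^ (4 * N + 12 * p) := by rw [he, mul_pow]
      _ = 1 := by rw [mul_inv_cancel₀ hpC, one_pow]
  obtain ⟨f', hf'⟩ : ∃ f' : ModularForm 𝒮ℒ ((N : ℤ) * 8 + (p : ℤ) * 12),
      f' = ((p : ℂ) ^ e) • f := ⟨_, rfl⟩
  have hq : qExpansion 1 f' = zc T := by
    have hcoe : (⇑f' : ℍ → ℂ) = ((p : ℂ) ^ e) • (⇑f : ℍ → ℂ) := by rw [hf']; rfl
    have hCp : zc (PowerSeries.C ((p : ℤ) ^ e)) = PowerSeries.C ((p : ℂ) ^ e) := by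
      rw [PowerSeries.map_C]
      simp
    have hzT : zc T = PowerSeries.C ((p : ℂ) ^ e) * zc (aZ + aZ ^ 2 + 2 * Z) ^ N
          * V p (zc deltaZ) ^ p
        + U p (zc (V p (aZ + aZ ^ 2) + 2 * Z') ^ N * zc deltaZ ^ p) := by
      rw [hT, map_add, map_mul, map_mul, hCp, zc_U, map_mul]
      rw [map_pow zc, map_pow zc, map_pow zc, map_pow zc, zc_V]
    rw [hcoe, ModularForm.qExpansion_smul one_pos one_mem_strictPeriods_SL, hf, hzT]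
    have hsc' : (p : ℂ) ^ e * (p : ℂ) * ((((p : ℂ)⁻¹) ^ 4) ^ N * ((p : ℂ) ^ (-12 : ℤ)) ^ p) = 1 := by
      rw [mul_assoc]; exact hsc
    rw [smul_add, smul_pow, smul_pow, smul_mul_smul_comm, map_smul, smul_smul, smul_smul, hsc',
      one_smul, PowerSeries.smul_eq_C_mul]
    ring
  -- the Sturm bound modulo `2`
  have hmem : ∀ n : ℕ, (2 : ℤ) ∣ PowerSeries.coeff n T →
      PowerSeries.coeff n (zc T) ∈ AddSubgroup.zmultiples (2 : ℂ) := by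
    rintro n ⟨k, hk⟩
    refine ⟨k, ?_⟩
    rw [PowerSeries.coeff_map, hk]
    simp only [zsmul_eq_mul, eq_intCast]
    push_cast
    ring
  have hSt := LevelOneSturm.coeff_mem (AddSubgroup.zmultiples (2 : ℂ)) _ f'
    (fun i hi => by
      rw [hq]
      apply hmem
      apply hcore.1
      have h1 : 12 * (i : ℤ) ≤ (N : ℤ) * 8 + (p : ℤ) * 12 := hi
      omega) (N + 1)
  rw [hq, PowerSeries.coeff_map] at hSt
  obtain ⟨k, hk⟩ := hSt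
  apply hcore.2
  refine ⟨k, ?_⟩
  have h2 : ((PowerSeries.coeff (N + 1) T : ℤ) : ℂ) = ((2 * k : ℤ) : ℂ) := by
    have hk' : (k : ℂ) * 2 = ((PowerSeries.coeff (N + 1) T : ℤ) : ℂ) := by
      simpa [zsmul_eq_mul] using hk
    push_cast
    rw [← hk']
    ring
  exact_mod_cast h2

/-- **Case `ℓ = 2`, `p ≡ 3 mod 4`** in the shape of hypothesis `hB2b`
(`Wire.upper_bound_of_cases`). -/
theorem not_unitMod (p : ℕ) [Fact p.Prime] (h : p % 4 = 3) : ¬ Reduce.UnitMod p 2 3 := by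
  intro hU
  have hp : p.Prime := Fact.out
  have : NeZero p := ⟨hp.ne_zero⟩
  obtain ⟨G, A, hA, h0, hn⟩ := UnitModSeries.exists_series hU
  refine false_of_unit_mod_eight hp h G A hA ?_ ?_
  · rw [← Int.not_even_iff_odd, even_iff_two_dvd]
    exact_mod_cast h0
  · intro n hn1
    have := hn n hn1
    norm_num at this
    exact this

end

end Fermat.Agent.S16.UB.Case2bAlt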