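import Mathlib
import Fermat.Agent.S23.Basic
import Fermat.Agent.S23.LevelOne
import Fermat.Agent.S16.UB.Engine
import Fermat.Agent.S16.UB.Pair
import Fermat.Agent.S16.UB.T2TrickZ

/-!
# S16 upper bound, case (B2b): the pair-calculus half

For `G ∈ M₂(Γ₀(p))` with integral `q`-expansion `A` and any integer `b`, the weight-8 form

  `D = 27 G⁴ - 18 b² E₄ G² - 8 b³ E₆ G - b⁴ E₄²`

has the pair `(zc DA, p⁻⁴ · zc DB)` where `DA`, `DB` are exactly the left-hand sides of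
`TwoAdic.magic_at_infty` and `TwoAdic.magic_at_zero` (the latter at `A' = Engine.Up p A`).

* `isPair_D`      : the pair of `D`;
* `isPair_F`      : the pair of `F = D / 256` given the two divisibility identities;
* `exists_trace`  : the level-one form `Tr (F^N · Δ(pz)^p)` with its `q`-expansion, in the
  shape consumed by `Engine.engineA` (same shape as `Case3b.false_of_trace`).
-/

set_option autoImplicit false

open PowerSeries UpperHalfPlane ModularForm CongruenceSubgroup EisensteinSeries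
open scoped MatrixGroups

namespace Fermat.Agent.S16.UB.Case2bPair

open Fermat.Agent.S23 Fermat.Agent.S23.LevelOne Fermat.Agent.S16.UB
open Fermat.Agent.S16.UB.T2TrickZ

noncomputable section

/-- `zc` commutes with `U_p` (in the `Engine.Up` spelling). -/
lemma zc_Up (p : ℕ) (A : PowerSeries ℤ) : zc (Engine.Up p A) = U p (zc A) := by
  ext n
  simp [zc]

/-- The commutative-ring identity behind the cusp-`0` expansion. -/
lemma ring_key {R : Type*} [CommRing R] (x P K V4 V6 cb : R) (h : x * P = 1) :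
    x ^ 4 * (27 * K ^ 4 - 18 * (cb * P) ^ 2 * V4 * K ^ 2 + 8 * (cb * P) ^ 3 * V6 * K
        - (cb * P) ^ 4 * V4 ^ 2)
      = 27 * (-(x * K)) ^ 4 - 18 * cb ^ 2 * (V4 * (-(x * K)) ^ 2)
        - 8 * cb ^ 3 * (V6 * (-(x * K))) - cb ^ 4 * V4 ^ 2 := by
  linear_combination (-18 * cb ^ 2 * V4 * K ^ 2 * x ^ 2 * (x * P + 1)
    + 8 * cb ^ 3 * V6 * K * x * (x ^ 2 * P ^ 2 + x * P + 1)
    - cb ^ 4 * V4 ^ 2 * (x ^ 3 * P ^ 3 + x ^ 2 * P ^ 2 + x * P + 1)) * h

/-- The weight-8 form `27 G⁴ - 18 c² E₄ G² - 8 c³ E₆ G - c⁴ E₄²` as a pair (complex form). -/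
theorem isPair_D_complex (p : ℕ) [NeZero p] (X B : PowerSeries ℂ) (c : ℂ)
    (hGB : IsPair p 2 X B) :
    IsPair p 8
      ((27 : ℂ) • X ^ 4 - (18 * c ^ 2) • (zc e4Z * X ^ 2) - (8 * c ^ 3) • (zc e6Z * X)
        - (c ^ 4) • (zc e4Z) ^ 2)
      ((27 : ℂ) • B ^ 4 - (18 * c ^ 2) • (V p (zc e4Z) * B ^ 2) - (8 * c ^ 3) • (V p (zc e6Z) * B)
        - (c ^ 4) • (V p (zc e4Z)) ^ 2) := by
  have hE4 : IsPair p 4 (zc e4Z) (V p (zc e4Z)) := by
    have h := IsPair.ofLevelOne (p := p) E₄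
    rwa [← map_e4Z] at h
  have hE6 : IsPair p 6 (zc e6Z) (V p (zc e6Z)) := by
    have h := IsPair.ofLevelOne (p := p) E₆
    rwa [← map_e6Z] at h
  have t1 : IsPair p 8 (X ^ 4) (B ^ 4) := (hGB.pow 4).congr_weight (by norm_num)
  have t2 : IsPair p 8 (zc e4Z * X ^ 2) (V p (zc e4Z) * B ^ 2) :=
    (hE4.mul (hGB.pow 2)).congr_weight (by norm_num)
  have t3 : IsPair p 8 (zc e6Z * X) (V p (zc e6Z) * B) :=
    (hE6.mul hGB).congr_weight (by norm_num)
  have t4 : IsPair p 8 (zc e4Z ^ 2) (V p (zc e4Z) ^ 2) :=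
    (hE4.pow 2).congr_weight (by norm_num)
  exact (((t1.smul 27).sub (t2.smul (18 * c ^ 2))).sub (t3.smul (8 * c ^ 3))).sub (t4.smul (c ^ 4))

/-- **The pair of the magic weight-8 form**, integral shape: the two components are the images
of the left-hand sides of `TwoAdic.magic_at_infty` (for `A`) and of `TwoAdic.magic_at_zero`
(for `A' = Engine.Up p A`), the latter divided by `p⁴`. -/
theorem isPair_D (p : ℕ) [NeZero p] (hp : p.Prime) (A : PowerSeries ℤ) (b : ℤ)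
    (B : PowerSeries ℂ) (hGB : IsPair p 2 (zc A) B) :
    IsPair p 8
      (zc (27 * A ^ 4 - 18 * C b ^ 2 * e4Z * A ^ 2 - 8 * C b ^ 3 * e6Z * A - C b ^ 4 * e4Z ^ 2))
      (C (((p : ℂ) ^ 4)⁻¹) *
        zc (27 * Engine.Up p A ^ 4
          - 18 * C (b * (p : ℤ)) ^ 2 * expand p hp.ne_zero e4Z * Engine.Up p A ^ 2
          + 8 * C (b * (p : ℤ)) ^ 3 * expand p hp.ne_zero e6Z * Engine.Up p A
          - C (b * (p : ℤ)) ^ 4 * expand p hp.ne_zero e4Z ^ 2)) := by
  have hpC : (p : ℂ) ≠ 0 := Nat.cast_ne_zero.mpr hp.ne_zero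
  have hB := hGB.weight_two hp
  have h := isPair_D_complex p (zc A) B (b : ℂ) hGB
  have hy : (C ((p : ℂ)⁻¹) : PowerSeries ℂ) * C (p : ℂ) = 1 := by
    rw [← map_mul, inv_mul_cancel₀ hpC, map_one]
  have hVe4 : PowerSeries.map (Int.castRingHom ℂ) (expand p hp.ne_zero e4Z) = V p (zc e4Z) :=
    map_expand p hp.ne_zero (Int.castRingHom ℂ) e4Z
  have hVe6 : PowerSeries.map (Int.castRingHom ℂ) (expand p hp.ne_zero e6Z) = V p (zc e6Z) :=
    map_expand p hp.ne_zero (Int.castRingHom ℂ) e6Z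
  have hUA : PowerSeries.map (Int.castRingHom ℂ) (Engine.Up p A) = U p (zc A) := zc_Up p A
  convert h using 1
  · simp only [zc, map_sub, map_mul, map_pow, PowerSeries.map_C, map_ofNat,
      PowerSeries.smul_eq_C_mul]
    simp only [eq_intCast]
    ring
  · have hpinv : (C (((p : ℂ) ^ 4)⁻¹) : PowerSeries ℂ) = C ((p : ℂ)⁻¹) ^ 4 := by
      rw [← map_pow, inv_pow]
    have key := ring_key (C ((p : ℂ)⁻¹) : PowerSeries ℂ) (C (p : ℂ)) (U p (zc A))
      (V p (zc e4Z)) (V p (zc e6Z)) (C (b : ℂ)) hy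
    rw [hB, hpinv]
    simp only [zc, map_sub, map_add, map_mul, map_pow, PowerSeries.map_C, map_ofNat,
      PowerSeries.smul_eq_C_mul, hVe4, hVe6, hUA, map_neg]
    simp only [eq_intCast, Int.cast_natCast]
    linear_combination key

/-- The pair of `F = D / 256`, given the two integral identities `DA = 256 * AF`,
`DB = 256 * BF` (obtained from `TwoAdic.magic_at_infty` / `magic_at_zero`). -/
theorem isPair_F (p : ℕ) [NeZero p] (hp : p.Prime) (A : PowerSeries ℤ) (b : ℤ)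
    (B : PowerSeries ℂ) (hGB : IsPair p 2 (zc A) B) (AF BF : PowerSeries ℤ)
    (hAF : 27 * A ^ 4 - 18 * C b ^ 2 * e4Z * A ^ 2 - 8 * C b ^ 3 * e6Z * A - C b ^ 4 * e4Z ^ 2
      = 256 * AF)
    (hBF : 27 * Engine.Up p A ^ 4
          - 18 * C (b * (p : ℤ)) ^ 2 * expand p hp.ne_zero e4Z * Engine.Up p A ^ 2
          + 8 * C (b * (p : ℤ)) ^ 3 * expand p hp.ne_zero e6Z * Engine.Up p A
          - C (b * (p : ℤ)) ^ 4 * expand p hp.ne_zero e4Z ^ 2
      = 256 * BF) :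
    IsPair p 8 (zc AF) (C (((p : ℂ) ^ 4)⁻¹) * zc BF) := by
  have h := (isPair_D p hp A b B hGB).smul (1 / 256 : ℂ)
  rw [hAF, hBF] at h
  have h256 : ∀ X : PowerSeries ℤ, (1 / 256 : ℂ) • zc (256 * X) = zc X := by
    intro X
    rw [zc, map_mul, map_ofNat, PowerSeries.smul_eq_C_mul, ← mul_assoc,
      ← map_ofNat (C (R := ℂ)) 256, ← map_mul]
    norm_num
  convert h using 1
  · exact (h256 AF).symm
  · rw [← mul_smul_comm, h256 BF]

/-- **The level-one trace form** of `F^N · Δ(pz)^p` for a pair `(X, Y)` of weight `k`, with its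
`q`-expansion in the shape consumed by `Engine.engineA`
(`T = A^N * expand p (D^p) + C u * Up p (B^N * D^p)`, `u = p · p^(-12p)`). -/
theorem exists_trace (p : ℕ) [NeZero p] (hp : p.Prime) {k : ℤ} (X Y : PowerSeries ℂ)
    (hF : IsPair p k X Y) (N : ℕ) :
    ∃ f : ModularForm 𝒮ℒ ((N : ℤ) * k + (p : ℤ) * 12),
      qExpansion 1 f = X ^ N * expand p hp.ne_zero (zc deltaZ ^ p)
        + C ((p : ℂ) * ((p : ℂ) ^ (12 * p))⁻¹) * Engine.Up p (Y ^ N * zc deltaZ ^ p) := by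
  have hΔ : IsPair p 12 (V p (zc deltaZ)) (((p : ℂ) ^ (-(12 : ℤ))) • zc deltaZ) := by
    have h := IsPair.ofLevelRaise (p := p) deltaMF
    rwa [qExpansion_deltaMF] at h
  have hX := (hF.pow N).mul (hΔ.pow p)
  obtain ⟨f, hf⟩ := hX.trace hp
  refine ⟨f, ?_⟩
  rw [hf]
  have h1 : (V p (zc deltaZ)) ^ p = expand p hp.ne_zero (zc deltaZ ^ p) :=
    (map_pow (V p) (zc deltaZ) p).symm
  have h2 : ((p : ℂ) ^ (-(12 : ℤ))) ^ p = ((p : ℂ) ^ (12 * p))⁻¹ := by
    rw [zpow_neg, inv_pow, pow_mul]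
    norm_cast
  have h3 : (((p : ℂ) ^ (-(12 : ℤ))) • zc deltaZ) ^ p
      = C (((p : ℂ) ^ (12 * p))⁻¹) * zc deltaZ ^ p := by
    rw [smul_pow, h2, PowerSeries.smul_eq_C_mul]
  rw [h1, h3]
  congr 1
  rw [mul_left_comm, ← PowerSeries.smul_eq_C_mul, map_smul, smul_smul,
    PowerSeries.smul_eq_C_mul]
  rfl

end

end Fermat.Agent.S16.UB.Case2bPair
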