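import Mathlib
import Fermat.Agent.S23.LevelRaise
import Fermat.Prelude.Def_FLTPrelim_Modularity

/-!
# The weight-2 Eisenstein series of level `Γ₀(N)`

`E24 N := N·E₂(Nz) − E₂(z)` is a modular form of weight `2` on `Γ₀(N)`, with `q`-expansion
`(N − 1) + 24 ∑_{n ≥ 1} σ'(n) qⁿ`, where `σ'(n)` is the sum of the divisors of `n` that are
not divisible by `N`.  (For `N = p` prime: `E = E24 / 24 = (p−1)/24 + ∑ σ'(n) qⁿ`.)
-/

set_option autoImplicit false

namespace Fermat.Agent.S16.UB.EisE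

open UpperHalfPlane hiding I
open ModularForm EisensteinSeries CongruenceSubgroup Matrix.SpecialLinearGroup Complex Real Filter
open Fermat.Agent.S23.LevelRaise
open scoped MatrixGroups Manifold ModularForm Topology ArithmeticFunction.sigma

/-- `N E₂(Nz) - E₂(z)` as a function on the upper half plane. -/
noncomputable def e24Fun (N : ℕ) [NeZero N] : ℍ → ℂ := E2 ∣[(2 : ℤ)] dg N - E2

lemma e24Fun_apply (N : ℕ) [NeZero N] (τ : ℍ) :
    e24Fun N τ = N * E2 (dg N • τ) - E2 τ := by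
  simp [e24Fun, slash_dg_apply, mul_comm]

lemma isBoundedAtImInfty_D2 (γ : SL(2, ℤ)) : IsBoundedAtImInfty (D2 γ) := by
  by_cases hc : γ 1 0 = 0
  · have : D2 γ = 0 := by
      ext z; simp [D2, hc]
    rw [this]; exact zero_form_isBoundedAtImInfty
  · rw [isBoundedAtImInfty_iff]
    refine ⟨2 * π, 1, fun z hz => ?_⟩
    have hcR : (0 : ℝ) < |((γ 1 0 : ℤ) : ℝ)| := by
      rw [abs_pos]; exact_mod_cast hc
    have hden : |((γ 1 0 : ℤ) : ℝ)| ≤ ‖denom γ z‖ := by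
      have h1 : |(denom γ z).im| ≤ ‖denom γ z‖ := Complex.abs_im_le_norm _
      have h2 : (denom γ z).im = (γ 1 0 : ℝ) * z.im := by
        simp [ModularGroup.denom_apply]
      rw [h2, abs_mul, abs_of_pos z.im_pos] at h1
      calc |((γ 1 0 : ℤ) : ℝ)| = |((γ 1 0 : ℤ) : ℝ)| * 1 := by ring
        _ ≤ |((γ 1 0 : ℤ) : ℝ)| * z.im := by gcongr
        _ ≤ _ := h1
    have hden0 : 0 < ‖denom γ z‖ := lt_of_lt_of_le hcR hden
    simp only [D2, norm_div, norm_mul, Complex.norm_I, mul_one]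
    rw [div_le_iff₀ hden0]
    have : ‖(2 : ℂ)‖ * ‖(π : ℂ)‖ * ‖((γ 1 0 : ℤ) : ℂ)‖ = 2 * π * |((γ 1 0 : ℤ) : ℝ)| := by
      rw [Complex.norm_intCast]
      simp [abs_of_pos Real.pi_pos]
    rw [this]
    gcongr

/-- Hermite normal form: `diag(N,1) · γ = γ' · β` with `γ' ∈ SL₂(ℤ)` and `β` upper triangular. -/
lemma exists_decomp (N : ℕ) [NeZero N] (γ : SL(2, ℤ)) :
    ∃ (γ' : SL(2, ℤ)) (β : GL (Fin 2) ℝ), β 1 0 = 0 ∧ dg N * mapGL ℝ γ = mapGL ℝ γ' * β := by
  set a := γ 0 0 with ha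
  set c := γ 1 0 with hc
  have hdet : γ 0 0 * γ 1 1 - γ 0 1 * γ 1 0 = 1 := by
    have := γ.det_coe
    rwa [Matrix.det_fin_two] at this
  set g : ℤ := (Int.gcd (N * a) c : ℤ) with hg
  have hg0 : g ≠ 0 := by
    intro h
    have h' : Int.gcd (N * a) c = 0 := by
      have h2 := h
      simp only [hg] at h2
      exact_mod_cast h2
    rw [Int.gcd_eq_zero_iff] at h'
    have hN : (N : ℤ) ≠ 0 := by exact_mod_cast NeZero.ne N
    have ha0 : a = 0 := by
      rcases mul_eq_zero.mp h'.1 with h | h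
      · exact absurd h hN
      · exact h
    rw [← ha, ← hc, ha0, h'.2] at hdet
    simp at hdet
  obtain ⟨a₁, ha₁⟩ : g ∣ N * a := Int.gcd_dvd_left _ _
  obtain ⟨c₁, hc₁⟩ : g ∣ c := Int.gcd_dvd_right _ _
  have hbez : g = N * a * Int.gcdA (N * a) c + c * Int.gcdB (N * a) c := Int.gcd_eq_gcd_ab _ _
  set x := Int.gcdA (N * a) c
  set y := Int.gcdB (N * a) c
  have h1 : a₁ * x + c₁ * y = 1 := by
    have : g * (a₁ * x + c₁ * y) = g * 1 := by
      rw [mul_add, ← mul_assoc, ← ha₁, ← mul_assoc, ← hc₁, mul_one]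
      exact hbez.symm
    exact mul_left_cancel₀ hg0 this
  let γ' : SL(2, ℤ) := ⟨!![a₁, -y; c₁, x], by
    rw [Matrix.det_fin_two_of]; linarith⟩
  refine ⟨γ', (mapGL ℝ γ')⁻¹ * (dg N * mapGL ℝ γ), ?_, by group⟩
  rw [← map_inv]
  have hzero : -c₁ * (N * a) + a₁ * c = 0 := by
    rw [ha₁, hc₁]; ring
  have hzeroR : -(c₁ : ℝ) * (N * a) + a₁ * c = 0 := by exact_mod_cast hzero
  simp only [Matrix.GeneralLinearGroup.coe_mul, mapGL_coe_matrix,
    Matrix.SpecialLinearGroup.map_apply_coe, Matrix.SpecialLinearGroup.coe_inv, Matrix.mul_apply,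
    Fin.sum_univ_two]
  simp [dg, Matrix.GeneralLinearGroup.mkOfDetNeZero, γ', Matrix.adjugate_fin_two]
  rw [← ha, ← hc]
  linarith

lemma isBoundedAtImInfty_E2_slash (γ : SL(2, ℤ)) : IsBoundedAtImInfty (E2 ∣[(2 : ℤ)] γ) := by
  rw [E2_slash_action]
  exact isBoundedAtImInfty_E2.sub ((isBoundedAtImInfty_D2 γ).const_smul_left _)

lemma isBoundedAtImInfty_e24Fun_slash (N : ℕ) [NeZero N] (γ : SL(2, ℤ)) :
    IsBoundedAtImInfty (e24Fun N ∣[(2 : ℤ)] γ) := by
  obtain ⟨γ', β, hβ, h⟩ := exists_decomp N γ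
  have h2 : IsBoundedAtImInfty ((E2 ∣[(2 : ℤ)] dg N) ∣[(2 : ℤ)] γ) := by
    have h' : dg N * (γ : GL (Fin 2) ℝ) = (γ' : GL (Fin 2) ℝ) * β := h
    rw [SL_slash, ← SlashAction.slash_mul, h', SlashAction.slash_mul, ← SL_slash]
    exact IsBoundedAtImInfty.slash 2 hβ (isBoundedAtImInfty_E2_slash γ')
  have : e24Fun N ∣[(2 : ℤ)] γ = (E2 ∣[(2 : ℤ)] dg N) ∣[(2 : ℤ)] γ - E2 ∣[(2 : ℤ)] γ := by
    rw [e24Fun, sub_eq_add_neg, SlashAction.add_slash, SlashAction.neg_slash, ← sub_eq_add_neg]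
  rw [this]
  exact h2.sub (isBoundedAtImInfty_E2_slash γ)

lemma D2_slash_dg (N : ℕ) [NeZero N] (γ : SL(2, ℤ)) (c' : ℤ) (hc : γ 1 0 = N * c') (τ : ℍ) :
    D2 (conjSL N γ c' hc) (dg N • τ) * (N : ℂ) = D2 γ τ := by
  have h1 : denom (conjSL N γ c' hc) ((dg N • τ : ℍ) : ℂ) = denom γ (τ : ℂ) := by
    rw [ModularGroup.denom_apply, ModularGroup.denom_apply, coe_dg_smul, coe_conjSL, hc]
    simp
    ring
  simp only [D2, h1]
  simp only [coe_conjSL, hc]
  simp
  ring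

lemma e24Fun_slash_of_mem (N : ℕ) [NeZero N] (γ : SL(2, ℤ)) (hγ : γ ∈ Gamma0 N) :
    e24Fun N ∣[(2 : ℤ)] γ = e24Fun N := by
  rw [Gamma0_mem] at hγ
  obtain ⟨c', hc⟩ : (N : ℤ) ∣ γ 1 0 := (ZMod.intCast_zmod_eq_zero_iff_dvd _ _).mp hγ
  have h := dg_mul_mapGL N γ c' hc
  have h' : dg N * (γ : GL (Fin 2) ℝ) =
      ((conjSL N γ c' hc : SL(2, ℤ)) : GL (Fin 2) ℝ) * dg N := h
  have e1 : (E2 ∣[(2 : ℤ)] dg N) ∣[(2 : ℤ)] γ =
      E2 ∣[(2 : ℤ)] dg N - (1 / (2 * riemannZeta 2)) • D2 γ := by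
    rw [SL_slash, ← SlashAction.slash_mul, h', SlashAction.slash_mul, ← SL_slash, E2_slash_action]
    ext τ
    simp only [slash_dg_apply, Pi.sub_apply, Pi.smul_apply, smul_eq_mul]
    rw [← D2_slash_dg N γ c' hc τ]
    norm_num
    ring
  rw [e24Fun, sub_eq_add_neg, SlashAction.add_slash, SlashAction.neg_slash, e1, E2_slash_action]
  abel

lemma e24Fun_mdifferentiable (N : ℕ) [NeZero N] : MDiff (e24Fun N) :=
  (E2_mdifferentiable.slash 2 (dg N)).sub E2_mdifferentiable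

/-- `N E₂(Nz) - E₂(z)` as a modular form of weight `2` on `Γ₀(N)`. -/
noncomputable def E24 (N : ℕ) [NeZero N] : ModularForm (Gamma0 N) 2 where
  toFun := e24Fun N
  slash_action_eq' := by
    rintro _ ⟨γ, hγ, rfl⟩
    exact e24Fun_slash_of_mem N γ hγ
  holo' := e24Fun_mdifferentiable N
  bdd_at_cusps' := by
    intro c hc
    rw [Subgroup.IsArithmetic.isCusp_iff_isCusp_SL2Z] at hc
    rw [OnePoint.isBoundedAt_iff_forall_SL2Z hc]
    exact fun γ _ => isBoundedAtImInfty_e24Fun_slash N γ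

@[simp] lemma coe_E24 (N : ℕ) [NeZero N] : ⇑(E24 N) = e24Fun N := rfl

lemma E24_apply (N : ℕ) [NeZero N] (τ : ℍ) : E24 N τ = N * E2 (dg N • τ) - E2 τ :=
  e24Fun_apply N τ

/-! ### The `q`-expansion -/

/-- The sum of the divisors of `n` that are not divisible by `N`. -/
def sigmaP (N n : ℕ) : ℕ := ∑ d ∈ n.divisors with ¬ N ∣ d, d

lemma sum_divisors_dvd (N : ℕ) (hN : 0 < N) (m : ℕ) (hm : m ≠ 0) :
    ∑ d ∈ (N * m).divisors with N ∣ d, d = N * ∑ d ∈ m.divisors, d := by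
  rw [Finset.mul_sum]
  symm
  apply Finset.sum_nbij' (fun d => N * d) (fun d => d / N)
  · intro d hd
    simp only [Nat.mem_divisors, Finset.mem_filter] at hd ⊢
    exact ⟨⟨mul_dvd_mul_left N hd.1, mul_ne_zero hN.ne' hm⟩, dvd_mul_right N d⟩
  · intro d hd
    simp only [Nat.mem_divisors, Finset.mem_filter] at hd ⊢
    obtain ⟨⟨h1, -⟩, k, rfl⟩ := hd
    rw [Nat.mul_div_cancel_left _ hN]
    exact ⟨(Nat.mul_dvd_mul_iff_left hN).mp h1, hm⟩
  · intro d _
    simp [Nat.mul_div_cancel_left _ hN]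
  · intro d hd
    simp only [Nat.mem_divisors, Finset.mem_filter] at hd
    exact Nat.mul_div_cancel' hd.2
  · intro d _
    rfl

lemma sigma_one_eq (N : ℕ) (hN : 0 < N) (n : ℕ) (hn : n ≠ 0) :
    σ 1 n = sigmaP N n + if N ∣ n then N * σ 1 (n / N) else 0 := by
  rw [ArithmeticFunction.sigma_one_apply, sigmaP,
    ← Finset.sum_filter_not_add_sum_filter n.divisors (fun d => N ∣ d)]
  congr 1
  split_ifs with h
  · obtain ⟨m, rfl⟩ := h
    have hm : m ≠ 0 := by rintro rfl; simp at hn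
    rw [Nat.mul_div_cancel_left _ hN, ArithmeticFunction.sigma_one_apply,
      sum_divisors_dvd N hN m hm]
  · apply Finset.sum_eq_zero
    intro d hd
    simp only [Nat.mem_divisors, Finset.mem_filter] at hd
    exact absurd (hd.2.trans hd.1.1) h

/-- The `q`-expansion coefficients of `E24 N`. -/
noncomputable def e24Coeff (N n : ℕ) : ℂ := if n = 0 then (N : ℂ) - 1 else 24 * (sigmaP N n : ℂ)

lemma hasSum_E2_dg (N : ℕ) [NeZero N] (τ : ℍ) :
    HasSum (fun n : ℕ ↦ (if N ∣ n then (if n / N = 0 then 1 else -24 * σ 1 (n / N) : ℂ) else 0) •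
      cexp (2 * π * I * τ) ^ n) (E2 (dg N • τ)) := by
  have hN : 0 < N := Nat.pos_of_ne_zero (NeZero.ne N)
  have h := hasSum_qExpansion_E2 (z := dg N • τ)
  have hinj : Function.Injective (fun m : ℕ => N * m) := fun a b hab =>
    Nat.eq_of_mul_eq_mul_left hN hab
  rw [← hinj.hasSum_iff]
  · convert h using 2 with m
    simp only [Function.comp_apply, dvd_mul_right, if_true, Nat.mul_div_cancel_left _ hN]
    congr 1
    rw [coe_dg_smul, ← Complex.exp_nat_mul, ← Complex.exp_nat_mul]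
    congr 1
    push_cast
    ring
  · intro n hn
    have : ¬ N ∣ n := fun ⟨m, hm⟩ => hn ⟨m, hm.symm⟩
    simp [this]

lemma hasSum_e24Fun (N : ℕ) [NeZero N] (τ : ℍ) :
    HasSum (fun n : ℕ ↦ e24Coeff N n • cexp (2 * π * I * τ) ^ n) (e24Fun N τ) := by
  have hN : 0 < N := Nat.pos_of_ne_zero (NeZero.ne N)
  have h1 := (hasSum_E2_dg N τ).mul_left (N : ℂ)
  have h2 := hasSum_qExpansion_E2 (z := τ)
  have h3 := h1.sub h2
  rw [e24Fun_apply]
  have h4 : (fun n : ℕ ↦ e24Coeff N n • cexp (2 * π * I * τ) ^ n) = fun b : ℕ =>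
      (N : ℂ) * (if N ∣ b then if b / N = 0 then 1 else -24 * ((σ 1 (b / N) : ℕ) : ℂ) else 0) •
        cexp (2 * ↑π * I * ↑τ) ^ b -
      (if b = 0 then 1 else -24 * ((σ 1 b : ℕ) : ℂ)) • cexp (2 * ↑π * I * ↑τ) ^ b := by
    funext n
    simp only [smul_eq_mul, e24Coeff]
    rw [← mul_assoc, ← sub_mul]
    congr 1
    by_cases hn : n = 0
    · subst hn
      simp
    · simp only [hn, if_false]
      have hs := sigma_one_eq N hN n hn
      by_cases hd : N ∣ n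
      · have hnN : n / N ≠ 0 := by
          obtain ⟨m, rfl⟩ := hd
          rw [Nat.mul_div_cancel_left _ hN]
          rintro rfl; simp at hn
        simp only [hd, if_true, hnN, if_false] at hs ⊢
        rw [hs]
        push_cast
        ring
      · simp only [hd, if_false, add_zero] at hs ⊢
        rw [hs]
        ring
  rw [h4]
  exact h3

theorem qExpansion_E24_coeff (N : ℕ) [NeZero N] (n : ℕ) :
    (qExpansion 1 (E24 N)).coeff n = e24Coeff N n := by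
  refine (ModularFormClass.qExpansion_coeff_unique (c := e24Coeff N) one_pos
    (CongruenceSubgroup.one_mem_strictPeriods_Gamma0 N) (f := E24 N) (fun τ => ?_) n).symm
  change HasSum _ (e24Fun N τ)
  simpa only [Function.Periodic.qParam, ofReal_one, div_one] using hasSum_e24Fun N τ

theorem qCoeff_E24_zero (N : ℕ) [NeZero N] :
    ModularFormClass.qCoeff (E24 N) 0 = (N : ℂ) - 1 := by
  rw [ModularFormClass.qCoeff, qExpansion_E24_coeff]; simp [e24Coeff]

theorem qCoeff_E24 (N : ℕ) [NeZero N] {n : ℕ} (hn : n ≠ 0) :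
    ModularFormClass.qCoeff (E24 N) n = 24 * (sigmaP N n : ℂ) := by
  rw [ModularFormClass.qCoeff, qExpansion_E24_coeff]; simp [e24Coeff, hn]

/-- The normalised Eisenstein series `E = (N E₂(Nz) - E₂(z)) / 24 = (N-1)/24 + ∑ σ'(n) qⁿ`
of weight `2` on `Γ₀(N)`. -/
noncomputable def eisE (N : ℕ) [NeZero N] : ModularForm (Gamma0 N) 2 := (1 / 24 : ℂ) • E24 N

lemma eisE_apply (N : ℕ) [NeZero N] (τ : ℍ) :
    eisE N τ = (N * E2 (dg N • τ) - E2 τ) / 24 := by
  simp only [eisE, smul_apply, smul_eq_mul, E24_apply]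
  ring

theorem qExpansion_eisE (N : ℕ) [NeZero N] :
    qExpansion 1 (eisE N) = (1 / 24 : ℂ) • qExpansion 1 (E24 N) :=
  ModularForm.qExpansion_smul one_pos (CongruenceSubgroup.one_mem_strictPeriods_Gamma0 N)
    (1 / 24 : ℂ) (E24 N)

theorem qCoeff_eisE_zero (N : ℕ) [NeZero N] :
    ModularFormClass.qCoeff (eisE N) 0 = ((N : ℂ) - 1) / 24 := by
  rw [ModularFormClass.qCoeff, qExpansion_eisE, PowerSeries.coeff_smul, qExpansion_E24_coeff]
  simp [e24Coeff]
  ring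

theorem qCoeff_eisE (N : ℕ) [NeZero N] {n : ℕ} (hn : n ≠ 0) :
    ModularFormClass.qCoeff (eisE N) n = (sigmaP N n : ℂ) := by
  rw [ModularFormClass.qCoeff, qExpansion_eisE, PowerSeries.coeff_smul, qExpansion_E24_coeff]
  simp [e24Coeff, hn]

/-- For `p` prime, `sigmaP p n` is the sum of the divisors of `n` prime to `p`. -/
lemma sigmaP_eq_sum_coprime (p : ℕ) (hp : p.Prime) (n : ℕ) :
    sigmaP p n = ∑ d ∈ n.divisors with Nat.Coprime p d, d := by
  unfold sigmaP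
  refine Finset.sum_congr (Finset.filter_congr fun d _ => ?_) fun _ _ => rfl
  exact (Nat.Prime.coprime_iff_not_dvd hp).symm

lemma sigmaP_one (N : ℕ) (hN : N ≠ 1) : sigmaP N 1 = 1 := by
  simp [sigmaP, Finset.filter_singleton, Nat.dvd_one, hN]

lemma sigmaP_prime_of_ne (N : ℕ) (hN : 1 < N) {ℓ : ℕ} (hℓ : ℓ.Prime) (h : ¬ N ∣ ℓ) :
    sigmaP N ℓ = 1 + ℓ := by
  have h1 : ¬ N ∣ 1 := by rw [Nat.dvd_one]; exact hN.ne'
  rw [sigmaP, hℓ.divisors, Finset.filter_insert, if_pos h1, Finset.filter_singleton, if_pos h,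
    Finset.sum_insert (by simpa using hℓ.one_lt.ne), Finset.sum_singleton]

lemma sigmaP_self (N : ℕ) (hN : N.Prime) : sigmaP N N = 1 := by
  have h1 : ¬ N ∣ 1 := by rw [Nat.dvd_one]; exact hN.one_lt.ne'
  rw [sigmaP, hN.divisors, Finset.filter_insert, if_pos h1, Finset.filter_singleton,
    if_neg (by simp)]
  simp

end Fermat.Agent.S16.UB.EisE
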