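import Fermat.Agent.S16.UB.Reduce
import Fermat.Agent.S16.UB.EisEZ
import Fermat.Agent.S16.Frame

/-!
# S16, upper bound: the eight case bricks give the upper-bound hypothesis `hU` of the frame

`upper_bound_frame` is exactly the hypothesis `hU` of `Frame.card_eq_of_bounds` /
`LBFrame.card_eq_of_upper`, deduced from the eight `UnitMod` case statements.
-/

set_option autoImplicit false

namespace Fermat.Agent.S16.UB.Final

open Fermat.Agent.S16.UB.Reduce

/-- The upper bound in the shape required by the S16 frame, from the eight case bricks. -/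
theorem upper_bound_frame (p : ℕ) [hp : Fact p.Prime]
    (hBl : ∀ l : ℕ, l.Prime → 5 ≤ l → l ≠ p → ¬ UnitMod p l 1)
    (hBP : 5 ≤ p → ¬ UnitMod p p 1)
    (hBP3 : p = 3 → ¬ UnitMod p 3 2)
    (hBP2 : p = 2 → ¬ UnitMod p 2 4)
    (hB3a : p ≠ 3 → UnitMod p 3 1 → p % 3 = 2)
    (hB3b : p ≠ 3 → ¬ UnitMod p 3 2)
    (hB2a : p ≠ 2 → UnitMod p 2 2 → p % 4 = 3)
    (hB2b : p ≠ 2 → ¬ UnitMod p 2 3)
    (M : ℕ) (f : CuspForm (CongruenceSubgroup.Gamma0 p) 2)
    (h : Fermat.Agent.S16.Frame.IsEisMod p (Fermat.Agent.S16.EisCoeff.eisCoeff p) M f) :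
    M ∣ ModularCurve.eisensteinNumerator p := by
  have : NeZero p := ⟨hp.out.ne_zero⟩
  refine upper_bound p (Fermat.Agent.S16.UB.EisE.eisE p) (Fermat.Agent.S16.EisCoeff.eisCoeff p)
    (Fermat.Agent.S16.UB.EisE.qCoeff_eisE_zero p)
    (fun k hk => Fermat.Agent.S16.UB.EisEZ.qCoeff_eisE_eq_eisCoeff p hk)
    hBl hBP hBP3 hBP2 hB3a hB3b hB2a hB2b M f ?_
  intro k hk
  obtain ⟨c, hc, hdvd⟩ := h k hk
  exact ⟨c, hc, (ZMod.intCast_eq_intCast_iff_dvd_sub _ _ _).2 ((dvd_sub_comm).1 hdvd)⟩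

end Fermat.Agent.S16.UB.Final
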