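import Mathlib

set_option autoImplicit false

noncomputable section

namespace Fermat.Agent.S16.UB.PExp

open UpperHalfPlane Complex
open scoped Real

local notation "𝕢" => Function.Periodic.qParam

/-- `f` has the power series expansion `s` in the variable `t = exp(2πiτ/N)`, on all of `ℍ`. -/
def HasPExp (N : ℕ) (f : ℍ → ℂ) (s : PowerSeries ℂ) : Prop :=
  ∀ τ : ℍ, HasSum (fun n : ℕ => PowerSeries.coeff n s * 𝕢 (N : ℝ) τ ^ n) (f τ)

variable {N : ℕ} {f g : ℍ → ℂ} {s s' : PowerSeries ℂ}

theorem HasPExp.congr_fun (h : HasPExp N f s) (hfg : ∀ τ, f τ = g τ) : HasPExp N g s :=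
  fun τ => hfg τ ▸ h τ

theorem hasPExp_zero (N : ℕ) : HasPExp N (fun _ => 0) 0 := fun τ => by
  simp

theorem hasPExp_C (N : ℕ) (c : ℂ) : HasPExp N (fun _ => c) (PowerSeries.C c) := fun τ => by
  have h := hasSum_ite_eq (0 : ℕ) c
  have heq : (fun n : ℕ => PowerSeries.coeff n (PowerSeries.C c) * 𝕢 (N : ℝ) τ ^ n) =
      fun n : ℕ => if n = 0 then c else 0 := by
    funext n
    rw [PowerSeries.coeff_C]
    split_ifs with hn
    · subst hn; simp
    · simp
  rw [heq]; exact h

theorem hasPExp_one (N : ℕ) : HasPExp N (fun _ => 1) 1 := by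
  simpa using hasPExp_C N 1

theorem HasPExp.add (h : HasPExp N f s) (h' : HasPExp N g s') :
    HasPExp N (fun τ => f τ + g τ) (s + s') := fun τ => by
  simpa [add_mul] using (h τ).add (h' τ)

theorem HasPExp.neg (h : HasPExp N f s) : HasPExp N (fun τ => - f τ) (-s) := fun τ => by
  simpa using (h τ).neg

theorem HasPExp.sub (h : HasPExp N f s) (h' : HasPExp N g s') :
    HasPExp N (fun τ => f τ - g τ) (s - s') := fun τ => by
  simpa [sub_mul] using (h τ).sub (h' τ)

/-- Cauchy product of two convergent power series expansions at a point. -/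
theorem hasSum_mul_of_hasSum (s s' : PowerSeries ℂ) (t : ℂ) (a b : ℂ)
    (h1 : HasSum (fun n : ℕ => PowerSeries.coeff n s * t ^ n) a)
    (h2 : HasSum (fun n : ℕ => PowerSeries.coeff n s' * t ^ n) b) :
    HasSum (fun n : ℕ => PowerSeries.coeff n (s * s') * t ^ n) (a * b) := by
  have hn1 := h1.summable.norm
  have hn2 := h2.summable.norm
  have hsum := summable_norm_sum_mul_antidiagonal_of_summable_norm hn1 hn2
  have htsum := tsum_mul_tsum_eq_tsum_sum_antidiagonal_of_summable_norm hn1 hn2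
  rw [h1.tsum_eq, h2.tsum_eq] at htsum
  have heq : (fun n : ℕ => PowerSeries.coeff n (s * s') * t ^ n) =
      fun n => ∑ kl ∈ Finset.HasAntidiagonal.antidiagonal n,
        (PowerSeries.coeff kl.1 s * t ^ kl.1) * (PowerSeries.coeff kl.2 s' * t ^ kl.2) := by
    funext n
    rw [PowerSeries.coeff_mul, Finset.sum_mul]
    refine Finset.sum_congr rfl fun kl hkl => ?_
    rw [← Finset.HasAntidiagonal.mem_antidiagonal.mp hkl, pow_add]; ring
  rw [heq, htsum]
  exact (Summable.of_norm hsum).hasSum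

theorem HasPExp.mul (h : HasPExp N f s) (h' : HasPExp N g s') :
    HasPExp N (fun τ => f τ * g τ) (s * s') := fun τ =>
  hasSum_mul_of_hasSum s s' _ _ _ (h τ) (h' τ)

theorem HasPExp.const_mul (c : ℂ) (h : HasPExp N f s) :
    HasPExp N (fun τ => c * f τ) (PowerSeries.C c * s) :=
  (hasPExp_C N c).mul h

theorem HasPExp.pow (h : HasPExp N f s) (n : ℕ) : HasPExp N (fun τ => f τ ^ n) (s ^ n) := by
  induction n with
  | zero => simpa using hasPExp_one N
  | succ n ih => simpa [pow_succ] using ih.mul h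

theorem HasPExp.finset_sum {ι : Type*} (T : Finset ι) (F : ι → ℍ → ℂ) (S : ι → PowerSeries ℂ)
    (h : ∀ i ∈ T, HasPExp N (F i) (S i)) :
    HasPExp N (fun τ => ∑ i ∈ T, F i τ) (∑ i ∈ T, S i) := by
  classical
  induction T using Finset.induction_on with
  | empty => simpa using hasPExp_zero N
  | insert a T ha ih =>
    simp only [Finset.sum_insert ha]
    exact (h a (Finset.mem_insert_self a T)).add (ih fun i hi => h i (Finset.mem_insert_of_mem hi))

theorem HasPExp.finset_prod {ι : Type*} (T : Finset ι) (F : ι → ℍ → ℂ) (S : ι → PowerSeries ℂ)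
    (h : ∀ i ∈ T, HasPExp N (F i) (S i)) :
    HasPExp N (fun τ => ∏ i ∈ T, F i τ) (∏ i ∈ T, S i) := by
  classical
  induction T using Finset.induction_on with
  | empty => simpa using hasPExp_one N
  | insert a T ha ih =>
    simp only [Finset.prod_insert ha]
    exact (h a (Finset.mem_insert_self a T)).mul (ih fun i hi => h i (Finset.mem_insert_of_mem hi))

theorem HasPExp.esymm {ι : Type*} (T : Finset ι) (F : ι → ℍ → ℂ) (S : ι → PowerSeries ℂ)
    (h : ∀ i ∈ T, HasPExp N (F i) (S i)) (k : ℕ) :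
    HasPExp N (fun τ => (T.val.map fun i => F i τ).esymm k) ((T.val.map S).esymm k) := by
  simp only [Finset.esymm_map_val]
  refine HasPExp.finset_sum _ (fun t τ => ∏ i ∈ t, F i τ) (fun t => ∏ i ∈ t, S i) fun t ht => ?_
  exact HasPExp.finset_prod t F S fun i hi => h i ((Finset.mem_powersetCard.mp ht).1 hi)

/-! ### Uniqueness -/

theorem cuspFunction_zero_fun (h : ℝ) : cuspFunction h (0 : ℍ → ℂ) = 0 := by
  simpa [cuspFunction, Function.Periodic.cuspFunction]
    using! (tendsto_const_nhds.mono_left nhdsWithin_le_nhds).limUnder_eq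

theorem coeff_zero_of_hasSum_zero {h : ℝ} (hh : 0 < h) {c : ℕ → ℂ}
    (hc : ∀ τ : ℍ, HasSum (fun m => c m * 𝕢 h τ ^ m) 0) (m : ℕ) : c m = 0 := by
  have h1 : AnalyticAt ℂ (cuspFunction h (0 : ℍ → ℂ)) 0 := by
    rw [cuspFunction_zero_fun h]; exact analyticAt_const
  have h2 := (hasFPowerSeriesOnBall_cuspFunction (f := (0 : ℍ → ℂ)) (c := c) hh h1
    (fun τ => by simpa using hc τ)).hasFPowerSeriesAt
  rw [cuspFunction_zero_fun h] at h2
  have h3 := h2.eq_zero
  have h4 : (FormalMultilinearSeries.ofScalars ℂ c).coeff m =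
      (0 : FormalMultilinearSeries ℂ ℂ ℂ).coeff m := by
    rw [h3]
  rw [FormalMultilinearSeries.coeff_ofScalars] at h4
  rw [h4]
  simp [FormalMultilinearSeries.coeff]

/-- The zero function only has the zero expansion. -/
theorem HasPExp.eq_zero (hN : N ≠ 0) (h : HasPExp N (fun _ => 0) s) : s = 0 := by
  have hNpos : (0 : ℝ) < N := by exact_mod_cast Nat.pos_of_ne_zero hN
  ext m
  rw [map_zero]
  exact coeff_zero_of_hasSum_zero hNpos (c := fun m => PowerSeries.coeff m s) (fun τ => h τ) m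

theorem HasPExp.unique (hN : N ≠ 0) (h : HasPExp N f s) (h' : HasPExp N f s') : s = s' := by
  have := (h.sub h').congr_fun (g := fun _ => 0) (fun τ => sub_self _)
  exact sub_eq_zero.mp (this.eq_zero hN)

theorem HasPExp.unique_of_eq (hN : N ≠ 0) (h : HasPExp N f s) (h' : HasPExp N g s')
    (hfg : ∀ τ, f τ = g τ) : s = s' :=
  (h.congr_fun hfg).unique hN h'

/-! ### Substitution -/

/-- Core substitution lemma: evaluating `s` at `u t^k` is evaluating
`expand k (rescale u s)` at `t`. -/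
theorem hasSum_expand_rescale (u : ℂ) {k : ℕ} (hk : k ≠ 0) (s : PowerSeries ℂ) (t : ℂ) (a : ℂ)
    (h : HasSum (fun n : ℕ => PowerSeries.coeff n s * (u * t ^ k) ^ n) a) :
    HasSum (fun m : ℕ => PowerSeries.coeff m (PowerSeries.expand k hk (PowerSeries.rescale u s))
      * t ^ m) a := by
  have hinj : Function.Injective (fun n : ℕ => k * n) :=
    mul_right_injective₀ hk
  refine (hinj.hasSum_iff (f := fun m : ℕ =>
    PowerSeries.coeff m (PowerSeries.expand k hk (PowerSeries.rescale u s)) * t ^ m) ?_).mp ?_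
  · intro x hx
    rw [PowerSeries.coeff_expand_of_not_dvd k hk _ (fun ⟨m, hm⟩ => hx ⟨m, hm.symm⟩), zero_mul]
  · have heq : ((fun m : ℕ =>
        PowerSeries.coeff m (PowerSeries.expand k hk (PowerSeries.rescale u s)) * t ^ m) ∘
          fun n : ℕ => k * n) = fun n : ℕ => PowerSeries.coeff n s * (u * t ^ k) ^ n := by
      funext n
      simp only [Function.comp_apply]
      rw [PowerSeries.coeff_expand_mul, PowerSeries.coeff_rescale, mul_pow, pow_mul]
      ring
    rw [heq]; exact h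

/-- Substitution `τ ↦ φ τ` where `q_{N₁}(φ τ) = u · q_N(τ)^k`. -/
theorem HasPExp.comp_of_qParam {N₁ : ℕ} (h : HasPExp N₁ f s) (φ : ℍ → ℍ) (u : ℂ) {k : ℕ}
    (hk : k ≠ 0) (hφ : ∀ τ : ℍ, 𝕢 (N₁ : ℝ) (φ τ) = u * 𝕢 (N : ℝ) τ ^ k) :
    HasPExp N (fun τ => f (φ τ)) (PowerSeries.expand k hk (PowerSeries.rescale u s)) := fun τ =>
  hasSum_expand_rescale u hk s _ _ (by rw [← hφ τ]; exact h (φ τ))

/-- `HasPExp 1 f s` implies `HasPExp N f (s(q^N))`. -/
theorem HasPExp.of_one (h : HasPExp 1 f s) (hN : N ≠ 0) :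
    HasPExp N f (PowerSeries.expand N hN s) := by
  have h1 := h.comp_of_qParam (N := N) id 1 hN (fun τ => by
    have hN' : (N : ℂ) ≠ 0 := by exact_mod_cast hN
    rw [one_mul, Function.Periodic.qParam, Function.Periodic.qParam, ← Complex.exp_nat_mul]
    congr 1
    push_cast
    simp only [id]
    field_simp)
  simpa using h1

/-- The expansion of a function with an absolutely convergent `q`-expansion with period one. -/
theorem hasPExp_qExpansion {F : Type*} [FunLike F ℍ ℂ] {Γ : Subgroup (GL (Fin 2) ℝ)} {k : ℤ}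
    [ModularFormClass F Γ k] [Fact (IsCusp OnePoint.infty Γ)] (hΓ : (1 : ℝ) ∈ Γ.strictPeriods)
    (f : F) : HasPExp 1 (⇑f) (qExpansion 1 f) := fun τ => by
  simpa using ModularForm.hasSum_qExpansion (f := f) (h := 1) one_pos hΓ τ

/-- Conversely, an expansion with `N = 1` of a modular form is its `q`-expansion. -/
theorem HasPExp.eq_qExpansion {F : Type*} [FunLike F ℍ ℂ] {Γ : Subgroup (GL (Fin 2) ℝ)} {k : ℤ}
    [ModularFormClass F Γ k] (hΓ : (1 : ℝ) ∈ Γ.strictPeriods)
    (f : F) (h : HasPExp 1 (⇑f) s) : s = qExpansion 1 f := by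
  ext m
  exact ModularFormClass.qExpansion_coeff_unique (c := fun m => PowerSeries.coeff m s)
    one_pos hΓ (fun τ => by simpa using h τ) m

end Fermat.Agent.S16.UB.PExp
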