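import Mathlib
import Fermat.Agent.S23.LevelRaise
import Fermat.Agent.S16.UB.PairDefs

/-!
# S16 upper bound: the sharp operation as a modular form, and the `IsPair` closure lemmas

`F♯(τ) = (F ∣[k] S)(p τ)` for `F ∈ M_k(Γ₀(p))` is again in `M_k(Γ₀(p))` (`sharpMF`), it is
additive, multiplicative, and `F♯♯ = p^{-k} F` for even `k`.
-/

set_option autoImplicit false

open UpperHalfPlane ModularForm CongruenceSubgroup Matrix.SpecialLinearGroup
open scoped MatrixGroups ModularForm Pointwise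

namespace Fermat.Agent.S16.UB.SharpAlt

open Fermat.Agent.S23.LevelRaise Fermat.Agent.S16.UB

noncomputable section

variable (p : ℕ) [NeZero p]

/-- The Fricke matrix `S * diag(p, 1) = [[0, -1], [p, 0]]`. -/
def fricke : GL (Fin 2) ℝ := mapGL ℝ ModularGroup.S * dg p

/-- Conjugate of an element of `Γ₀(p)` by the Fricke matrix. -/
def conjW (γ : SL(2, ℤ)) (c' : ℤ) (hc : γ 1 0 = p * c') : SL(2, ℤ) :=
  ModularGroup.S * conjSL p γ c' hc * ModularGroup.S⁻¹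

lemma fricke_mul_mapGL (γ : SL(2, ℤ)) (c' : ℤ) (hc : γ 1 0 = p * c') :
    fricke p * mapGL ℝ γ = mapGL ℝ (conjW p γ c' hc) * fricke p := by
  unfold fricke conjW
  rw [mul_assoc, dg_mul_mapGL p γ c' hc, map_mul, map_mul, map_inv]
  group

omit [NeZero p] in
lemma conjW_mem (γ : SL(2, ℤ)) (c' : ℤ) (hc : γ 1 0 = p * c') : conjW p γ c' hc ∈ Gamma0 p := by
  rw [Gamma0_mem]
  have h : (conjW p γ c' hc) 1 0 = -(p * γ 0 1) := by
    unfold conjW
    have hS : (ModularGroup.S⁻¹ : SL(2, ℤ)) = ⟨!![0, 1; -1, 0], by simp [Matrix.det_fin_two_of]⟩ := by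
      rw [inv_eq_iff_mul_eq_one, ]
      ext i j
      fin_cases i <;> fin_cases j <;>
        simp [ModularGroup.S, Matrix.mul_apply, Fin.sum_univ_two]
    rw [hS]
    simp [ModularGroup.S, Matrix.mul_apply, Fin.sum_univ_two, conjSL]
  rw [h]
  simp

lemma gamma0_le_conjW :
    (Gamma0 p).map (mapGL ℝ) ≤
      ConjAct.toConjAct (fricke p)⁻¹ • ((Gamma0 p).map (mapGL ℝ) : Subgroup (GL (Fin 2) ℝ)) := by
  rintro x ⟨γ, hγ, rfl⟩
  rw [Subgroup.mem_pointwise_smul_iff_inv_smul_mem, ← map_inv, inv_inv, ConjAct.toConjAct_smul]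
  have hγ' := hγ
  rw [SetLike.mem_coe, Gamma0_mem] at hγ'
  obtain ⟨c', hc⟩ : (p : ℤ) ∣ γ 1 0 := (ZMod.intCast_zmod_eq_zero_iff_dvd _ _).mp hγ'
  exact ⟨conjW p γ c' hc, conjW_mem p γ c' hc, by rw [fricke_mul_mapGL p γ c' hc, mul_inv_cancel_right]⟩

variable {p} {k : ℤ}

/-- `F♯` as a modular form on `Γ₀(p)`. -/
def sharpMF (F : ModularForm (Gamma0 p) k) : ModularForm (Gamma0 p) k :=
  ((p : ℂ) ^ (1 - k)) • restrict (gamma0_le_conjW p) (ModularForm.translate F (fricke p))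

lemma sharpMF_apply (F : ModularForm (Gamma0 p) k) (τ : ℍ) :
    sharpMF F τ = sharpFun p k F τ := by
  have hN : (p : ℂ) ≠ 0 := Nat.cast_ne_zero.mpr (NeZero.ne p)
  simp only [sharpMF, smul_apply, coe_restrict, ModularForm.coe_translate, smul_eq_mul, fricke]
  rw [SlashAction.slash_mul, slash_dg_apply, sharpFun, mul_comm, mul_assoc, ← zpow_add₀ hN]
  simp
  rfl

lemma coe_sharpMF (F : ModularForm (Gamma0 p) k) : ⇑(sharpMF F) = sharpFun p k F :=
  funext (sharpMF_apply F)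

/-! ### Pointwise formulas -/

lemma S_smul_coe (z : ℍ) : ((ModularGroup.S • z : ℍ) : ℂ) = (-(z : ℂ))⁻¹ := by
  rw [modular_S_smul]

lemma sharpFun_apply (f : ℍ → ℂ) (τ : ℍ) :
    sharpFun p k f τ = f (ModularGroup.S • (dg p • τ)) * ((p : ℂ) * τ) ^ (-k) := by
  unfold sharpFun
  rw [SL_slash_apply, ModularGroup.denom_S, coe_dg_smul]

lemma dg_S_dg (τ : ℍ) : dg p • (ModularGroup.S • (dg p • τ)) = ModularGroup.S • τ := by
  apply UpperHalfPlane.ext
  rw [coe_dg_smul, S_smul_coe, coe_dg_smul, S_smul_coe]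
  have hp : (p : ℂ) ≠ 0 := Nat.cast_ne_zero.mpr (NeZero.ne p)
  have hτ : (τ : ℂ) ≠ 0 := UpperHalfPlane.ne_zero τ
  field_simp

omit [NeZero p] in
lemma S_S (τ : ℍ) : ModularGroup.S • (ModularGroup.S • τ) = τ := by
  apply UpperHalfPlane.ext
  rw [S_smul_coe, S_smul_coe]
  have hτ : (τ : ℂ) ≠ 0 := UpperHalfPlane.ne_zero τ
  field_simp

lemma sharpFun_zero : sharpFun p k (0 : ℍ → ℂ) = 0 := by
  ext τ
  simp [sharpFun_apply]

lemma sharpFun_add (f g : ℍ → ℂ) : sharpFun p k (f + g) = sharpFun p k f + sharpFun p k g := by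
  ext τ
  simp only [sharpFun_apply, Pi.add_apply]
  ring

lemma sharpFun_smul (c : ℂ) (f : ℍ → ℂ) : sharpFun p k (c • f) = c • sharpFun p k f := by
  ext τ
  simp only [sharpFun_apply, Pi.smul_apply, smul_eq_mul]
  ring

lemma sharpFun_mul (k₁ k₂ : ℤ) (f g : ℍ → ℂ) :
    sharpFun p (k₁ + k₂) (f * g) = sharpFun p k₁ f * sharpFun p k₂ g := by
  ext τ
  have hp : (p : ℂ) ≠ 0 := Nat.cast_ne_zero.mpr (NeZero.ne p)
  have hτ : (τ : ℂ) ≠ 0 := UpperHalfPlane.ne_zero τ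
  have h0 : (p : ℂ) * τ ≠ 0 := mul_ne_zero hp hτ
  simp only [sharpFun_apply, Pi.mul_apply]
  rw [neg_add, zpow_add₀ h0]
  ring

lemma sharpFun_one : sharpFun p 0 (1 : ℍ → ℂ) = 1 := by
  ext τ
  simp [sharpFun_apply]

lemma sharpFun_sharpFun (hk : Even k) (f : ℍ → ℂ) :
    sharpFun p k (sharpFun p k f) = ((p : ℂ) ^ (-k)) • f := by
  ext τ
  have hp : (p : ℂ) ≠ 0 := Nat.cast_ne_zero.mpr (NeZero.ne p)
  have hτ : (τ : ℂ) ≠ 0 := UpperHalfPlane.ne_zero τ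
  rw [sharpFun_apply, sharpFun_apply, dg_S_dg, S_S, S_smul_coe, coe_dg_smul, mul_assoc,
    ← mul_zpow]
  have h1 : (p : ℂ) * (-((p : ℂ) * (τ : ℂ)))⁻¹ * ((p : ℂ) * (τ : ℂ)) = -(p : ℂ) := by
    field_simp
  rw [h1, Even.neg_zpow hk.neg, Pi.smul_apply, smul_eq_mul, mul_comm]

/-! ### The `IsPair` closure lemmas -/

variable {A B A₁ B₁ A₂ B₂ : PowerSeries ℂ} {k₁ k₂ : ℤ}

omit [NeZero p] in
lemma hΓ0 : (1 : ℝ) ∈ ((Gamma0 p).map (mapGL ℝ)).strictPeriods :=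
  CongruenceSubgroup.one_mem_strictPeriods_Gamma0 p

theorem isPair_zero : IsPair p k 0 0 := by
  refine ⟨0, ?_, ?_⟩
  · rw [FunLike.coe_zero]; exact qExpansion_zero 1
  · rw [FunLike.coe_zero, sharpFun_zero]; exact qExpansion_zero 1

theorem isPair_add (h₁ : IsPair p k A₁ B₁) (h₂ : IsPair p k A₂ B₂) :
    IsPair p k (A₁ + A₂) (B₁ + B₂) := by
  obtain ⟨F₁, rfl, rfl⟩ := h₁
  obtain ⟨F₂, rfl, rfl⟩ := h₂
  refine ⟨F₁ + F₂, ?_, ?_⟩
  · rw [FunLike.coe_add]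
    exact ModularForm.qExpansion_add one_pos hΓ0 F₁ F₂
  · rw [FunLike.coe_add, sharpFun_add, ← coe_sharpMF, ← coe_sharpMF]
    exact ModularForm.qExpansion_add one_pos hΓ0 (sharpMF F₁) (sharpMF F₂)

theorem isPair_smul (c : ℂ) (h : IsPair p k A B) : IsPair p k (c • A) (c • B) := by
  obtain ⟨F, rfl, rfl⟩ := h
  refine ⟨c • F, ?_, ?_⟩
  · rw [FunLike.coe_smul]
    exact ModularForm.qExpansion_smul one_pos hΓ0 c F
  · rw [FunLike.coe_smul, sharpFun_smul, ← coe_sharpMF]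
    exact ModularForm.qExpansion_smul one_pos hΓ0 c (sharpMF F)

theorem isPair_mul (h₁ : IsPair p k₁ A₁ B₁) (h₂ : IsPair p k₂ A₂ B₂) :
    IsPair p (k₁ + k₂) (A₁ * A₂) (B₁ * B₂) := by
  obtain ⟨F₁, rfl, rfl⟩ := h₁
  obtain ⟨F₂, rfl, rfl⟩ := h₂
  refine ⟨F₁.mul F₂, ?_, ?_⟩
  · rw [ModularForm.coe_mul]
    exact ModularForm.qExpansion_mul_coe one_pos hΓ0 F₁ F₂
  · rw [ModularForm.coe_mul, sharpFun_mul, ← coe_sharpMF, ← coe_sharpMF]
    exact ModularForm.qExpansion_mul_coe one_pos hΓ0 (sharpMF F₁) (sharpMF F₂)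

theorem isPair_one : IsPair p 0 1 1 := by
  refine ⟨1, ?_, ?_⟩
  · rw [ModularForm.one_coe_eq_one]; exact qExpansion_one 1
  · rw [ModularForm.one_coe_eq_one, sharpFun_one]; exact qExpansion_one 1

theorem isPair_pow (h : IsPair p k A B) (a : ℕ) : IsPair p (a * k) (A ^ a) (B ^ a) := by
  induction a with
  | zero => simpa using (isPair_one (p := p))
  | succ a ih =>
    have e : ((a + 1 : ℕ) : ℤ) * k = (a : ℤ) * k + k := by push_cast; ring
    rw [e, pow_succ, pow_succ]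
    exact isPair_mul ih h

omit [NeZero p] in
lemma gamma0_le_SL : (Gamma0 p).map (mapGL ℝ) ≤ (𝒮ℒ : Subgroup (GL (Fin 2) ℝ)) :=
  Subgroup.map_le_range _ _

lemma S_slash_levelOne (f : ModularForm 𝒮ℒ k) : (⇑f) ∣[k] ModularGroup.S = ⇑f := by
  rw [SL_slash]
  exact SlashInvariantFormClass.slash_action_eq f _ ⟨ModularGroup.S, rfl⟩

lemma qExpansion_levelRaise (f : ModularForm 𝒮ℒ k) :
    qExpansion 1 (levelRaise p f) = V p (qExpansion 1 f) := by
  ext n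
  rw [qExpansion_levelRaise_coeff, coeff_V]

/-- A level-one form `f`, viewed on `Γ₀(p)`: `f♯ = f(p ·)`. -/
theorem isPair_ofLevelOne (f : ModularForm 𝒮ℒ k) :
    IsPair p k (qExpansion 1 f) (V p (qExpansion 1 f)) := by
  refine ⟨restrict gamma0_le_SL f, ?_, ?_⟩
  · rw [coe_restrict]
  · have h : sharpFun p k ⇑(restrict (gamma0_le_SL (p := p)) f) = ⇑(levelRaise p f) := by
      ext τ
      rw [coe_restrict, levelRaise_apply]
      unfold sharpFun
      rw [S_slash_levelOne]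
    rw [h, qExpansion_levelRaise]

/-- `F = f(p ·)` for a level-one form `f`: `F♯ = p^{-k} f`. -/
theorem isPair_ofLevelRaise (f : ModularForm 𝒮ℒ k) :
    IsPair p k (V p (qExpansion 1 f)) (((p : ℂ) ^ (-k)) • qExpansion 1 f) := by
  refine ⟨levelRaise p f, qExpansion_levelRaise f, ?_⟩
  have h : sharpFun p k ⇑(levelRaise p f) = ((p : ℂ) ^ (-k)) • ⇑f := by
    ext τ
    have hp : (p : ℂ) ≠ 0 := Nat.cast_ne_zero.mpr (NeZero.ne p)
    have hτ : (τ : ℂ) ≠ 0 := UpperHalfPlane.ne_zero τ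
    rw [sharpFun_apply, levelRaise_apply, dg_S_dg]
    have h1 := congrFun (S_slash_levelOne f) τ
    rw [SL_slash_apply, ModularGroup.denom_S] at h1
    have h2 : f (ModularGroup.S • τ) = f τ * (τ : ℂ) ^ k := by
      rw [← h1, mul_assoc, ← zpow_add₀ hτ]
      simp
    rw [h2, mul_zpow, Pi.smul_apply, smul_eq_mul, mul_assoc, mul_left_comm ((τ : ℂ) ^ k),
      ← zpow_add₀ hτ]
    simp [mul_comm]
  rw [h]
  exact ModularForm.qExpansion_smul one_pos one_mem_strictPeriods_SL _ f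

/-- `F♯♯ = p^{-k} F` for even `k`. -/
theorem isPair_symm (hk : Even k) (h : IsPair p k A B) :
    IsPair p k B (((p : ℂ) ^ (-k)) • A) := by
  obtain ⟨F, rfl, rfl⟩ := h
  refine ⟨sharpMF F, by rw [coe_sharpMF], ?_⟩
  rw [coe_sharpMF, sharpFun_sharpFun hk]
  exact ModularForm.qExpansion_smul one_pos hΓ0 _ F

end

end Fermat.Agent.S16.UB.SharpAlt
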