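import Mathlib
import Fermat.Prelude.Def_ModularForm_HeckeOperator
import Fermat.Prelude.Thm_ModularForm_heckeT_slash_eq_self_of_mem_Gamma0
import Fermat.Prelude.Thm_ModularForm_mdifferentiable_heckeT
import Fermat.Prelude.Thm_ModularFormClass_isBoundedAt_heckeT
import Fermat.Prelude.Thm_ModularFormClass_qCoeff_heckeT
import Fermat.Agent.S23.LevelOneSpan
import Fermat.Agent.S16.UB.LevelOneSturm

/-!
# S16, upper bound, brick (L1): the level-one `T₂`-trick

Let `O ⊆ ℂ` be a subring and `I ⊆ O` an additive subgroup with `O * I ⊆ I`, `1 ∉ I`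
(think `O = ` the `l`-integral algebraic numbers, `I = l O`).  If `H` is a level-one modular form of
weight `w` whose `q`-expansion is a unit mod `I` plus a series with coefficients in `I`, and `2`
and `2 ^ w - 1` are units mod `I`, we get a contradiction with the level-one Sturm bound mod `I`
(`t2_trick_of_sturm` takes it as a hypothesis, `t2_trick` plugs in `LevelOneSturm.coeff_mem_nat`).

Alternative (insurance) version of `Fermat.Agent.S16.UB.T2Trick` (helper230), with the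
`Setup O I` / `IsUnitMod` interface.
-/

set_option autoImplicit false

namespace Fermat.Agent.S16.UB.T2TrickAlt

open UpperHalfPlane ModularForm
open scoped MatrixGroups ModularForm

noncomputable section

local notation "Δ" => ModularForm.discriminant

/-- membership in level one vs `Γ₀(1)` -/
lemma mem_SL_iff_mem_Gamma0_one (γ : GL (Fin 2) ℝ) :
    γ ∈ 𝒮ℒ ↔ γ ∈ ((CongruenceSubgroup.Gamma0 1 : Subgroup SL(2, ℤ)) :
      Subgroup (GL (Fin 2) ℝ)) := by
  constructor
  · rintro ⟨g, rfl⟩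
    exact ⟨g, by simp [CongruenceSubgroup.Gamma0_mem, Subsingleton.elim _ (0 : ZMod 1)], rfl⟩
  · rintro ⟨g, -, rfl⟩
    exact ⟨g, rfl⟩

/-- The level-one Hecke operator `T₂` in weight `k`. -/
def T2 (k : ℤ) (f : ModularForm 𝒮ℒ k) : ModularForm 𝒮ℒ k where
  toFun := heckeT k 2 ⇑f
  slash_action_eq' γ hγ :=
    heckeT_slash_eq_self_of_mem_Gamma0 (N := 1) k Nat.prime_two (by norm_num)
      (fun γ hγ => SlashInvariantFormClass.slash_action_eq f γ
        ((mem_SL_iff_mem_Gamma0_one γ).mpr hγ)) γ ((mem_SL_iff_mem_Gamma0_one γ).mp hγ)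
  holo' := mdifferentiable_heckeT (ModularFormClass.holo f) k 2
  bdd_at_cusps' hc := ModularFormClass.isBoundedAt_heckeT f 2 hc

lemma coe_T2 (k : ℤ) (f : ModularForm 𝒮ℒ k) : ⇑(T2 k f) = heckeT k 2 ⇑f := rfl

/-- `q`-coefficients of `T₂ f`. -/
lemma coeff_T2 (k : ℤ) (f : ModularForm 𝒮ℒ k) (n : ℕ) :
    (qExpansion 1 (T2 k f)).coeff n =
      (qExpansion 1 f).coeff (n * 2) +
        if 2 ∣ n then (2 : ℂ) ^ (k - 1) * (qExpansion 1 f).coeff (n / 2) else 0 := by
  have h := ModularFormClass.qCoeff_heckeT f one_mem_strictPeriods_SL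
    (p := 2) (by norm_num) n
  simpa [ModularFormClass.qCoeff, coeffHeckeT_apply, coe_T2] using h


/-! ### Congruences modulo `I` -/

/-- The standing assumptions on the pair `(O, I)`. -/
structure Setup (O : Subring ℂ) (I : AddSubgroup ℂ) : Prop where
  I_le : ∀ x ∈ I, x ∈ O
  mul_mem : ∀ x ∈ O, ∀ y ∈ I, x * y ∈ I
  one_notMem : (1 : ℂ) ∉ I

/-- `x` is (an element of `O` which is) a unit modulo `I`. -/
def IsUnitMod (O : Subring ℂ) (I : AddSubgroup ℂ) (x : ℂ) : Prop :=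
  x ∈ O ∧ ∃ y ∈ O, x * y - 1 ∈ I

variable {O : Subring ℂ} {I : AddSubgroup ℂ}

lemma isUnitMod_one (O : Subring ℂ) (I : AddSubgroup ℂ) : IsUnitMod O I 1 :=
  ⟨O.one_mem, 1, O.one_mem, by simp⟩

lemma IsUnitMod.mul (hS : Setup O I) {x y : ℂ} (hx : IsUnitMod O I x) (hy : IsUnitMod O I y) :
    IsUnitMod O I (x * y) := by
  obtain ⟨hxO, x', hx', hxx⟩ := hx
  obtain ⟨hyO, y', hy', hyy⟩ := hy
  refine ⟨O.mul_mem hxO hyO, x' * y', O.mul_mem hx' hy', ?_⟩
  have h1 : (y * y') * (x * x' - 1) ∈ I := hS.mul_mem _ (O.mul_mem hyO hy') _ hxx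
  have h2 := I.add_mem h1 hyy
  have e : x * y * (x' * y') - 1 = y * y' * (x * x' - 1) + (y * y' - 1) := by ring
  rw [e]; exact h2

lemma IsUnitMod.pow (hS : Setup O I) {x : ℂ} (hx : IsUnitMod O I x) (n : ℕ) :
    IsUnitMod O I (x ^ n) := by
  induction n with
  | zero => simpa using isUnitMod_one O I
  | succ n ih => rw [pow_succ]; exact ih.mul hS hx

lemma IsUnitMod.notMem (hS : Setup O I) {x : ℂ} (hx : IsUnitMod O I x) : x ∉ I := by
  obtain ⟨-, y, hy, hxy⟩ := hx
  intro hxI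
  have h1 : y * x ∈ I := hS.mul_mem y hy x hxI
  have h2 : (1 : ℂ) = y * x - (x * y - 1) := by ring
  exact hS.one_notMem (h2 ▸ I.sub_mem h1 hxy)

/-- If `P ∈ O⟦q⟧` and `Q ∈ I⟦q⟧` then `P * Q ∈ I⟦q⟧`. -/
lemma coeff_mul_mem (hS : Setup O I) {P Q : PowerSeries ℂ}
    (hP : ∀ n, PowerSeries.coeff n P ∈ O) (hQ : ∀ n, PowerSeries.coeff n Q ∈ I) (n : ℕ) :
    PowerSeries.coeff n (P * Q) ∈ I := by
  rw [PowerSeries.coeff_mul]
  exact I.sum_mem fun x _ => hS.mul_mem _ (hP _) _ (hQ _)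

/-- If `P ∈ O⟦q⟧` and `Q ∈ O⟦q⟧` then `P * Q ∈ O⟦q⟧`. -/
lemma coeff_mul_mem_O {P Q : PowerSeries ℂ}
    (hP : ∀ n, PowerSeries.coeff n P ∈ O) (hQ : ∀ n, PowerSeries.coeff n Q ∈ O) (n : ℕ) :
    PowerSeries.coeff n (P * Q) ∈ O := by
  rw [PowerSeries.coeff_mul]
  exact O.sum_mem fun x _ => O.mul_mem (hP _) (hQ _)

/-- If `P ≡ u (mod I)` (a constant) and `Q ∈ O⟦q⟧` then `P * Q ≡ u Q (mod I)`. -/
lemma coeff_mul_sub_mem (hS : Setup O I) {P Q : PowerSeries ℂ}
    (hP : ∀ n, 1 ≤ n → PowerSeries.coeff n P ∈ I) (hQ : ∀ n, PowerSeries.coeff n Q ∈ O) (n : ℕ) :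
    PowerSeries.coeff n (P * Q) - PowerSeries.coeff 0 P * PowerSeries.coeff n Q ∈ I := by
  set u := PowerSeries.coeff 0 P with hu
  have hP1 : ∀ m, PowerSeries.coeff m (P - PowerSeries.C u) ∈ I := by
    intro m
    rcases Nat.eq_zero_or_pos m with rfl | hm
    · simp [hu]
    · have : PowerSeries.coeff m (PowerSeries.C u) = 0 := by
        rw [PowerSeries.coeff_C, if_neg (by omega)]
      rw [map_sub, this, sub_zero]
      exact hP m hm
  have h := coeff_mul_mem hS hQ hP1 n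
  have e : PowerSeries.coeff n (P * Q) - u * PowerSeries.coeff n Q
      = PowerSeries.coeff n (Q * (P - PowerSeries.C u)) := by
    have : Q * (P - PowerSeries.C u) = P * Q - PowerSeries.C u * Q := by ring
    rw [this, map_sub, PowerSeries.coeff_C_mul]
  rw [e]; exact h

/-! ### The iteration -/

/-- Coefficients of `Δ`. -/
def tau (n : ℕ) : ℂ := (qExpansion 1 Δ).coeff n

lemma tau_one : tau 1 = 1 := discriminant_qExpansion_coeff_one

lemma tau_zero : tau 0 = 0 := by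
  have h := discriminant_qExpansion_order
  have : (0 : ℕ) < (qExpansion 1 Δ).order := by rw [h]; exact_mod_cast Nat.zero_lt_one
  exact PowerSeries.coeff_of_lt_order 0 this

lemma tau_mem (O : Subring ℂ) (n : ℕ) : tau n ∈ O := by
  obtain ⟨m, hm⟩ := Fermat.Agent.S23.LevelOneSpan.isIntPS_qExpansion_discriminant n
  rw [tau, hm]
  exact intCast_mem O m

/-- Coefficients of `Δ(q ^ (2 ^ i))`. -/
def dcoef (i n : ℕ) : ℂ := if 2 ^ i ∣ n then tau (n / 2 ^ i) else 0

lemma dcoef_mem (O : Subring ℂ) (i n : ℕ) : dcoef i n ∈ O := by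
  unfold dcoef
  split_ifs
  · exact tau_mem O _
  · exact O.zero_mem

lemma dcoef_succ (i n : ℕ) :
    dcoef (i + 1) n = if 2 ∣ n then dcoef i (n / 2) else 0 := by
  unfold dcoef
  by_cases h2 : 2 ∣ n
  · obtain ⟨m, rfl⟩ := h2
    rw [if_pos (dvd_mul_right 2 m), Nat.mul_div_cancel_left m (by norm_num : 0 < 2), pow_succ']
    by_cases hm : 2 ^ i ∣ m
    · rw [if_pos hm, if_pos (Nat.mul_dvd_mul_left 2 hm),
        Nat.mul_div_mul_left _ _ (by norm_num : 0 < 2)]
    · rw [if_neg hm, if_neg]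
      intro h
      exact hm ((Nat.mul_dvd_mul_iff_left (by norm_num : 0 < 2)).mp h)
  · rw [if_neg h2, if_neg]
    intro h
    exact h2 (dvd_trans (dvd_pow_self 2 (Nat.succ_ne_zero i)) h)

lemma dcoef_of_lt {i n : ℕ} (h : n < 2 ^ i) : dcoef i n = 0 := by
  unfold dcoef
  split_ifs with hd
  · have : n = 0 := Nat.eq_zero_of_dvd_of_lt hd h
    subst this
    simpa using tau_zero
  · rfl

lemma dcoef_self (i : ℕ) : dcoef i (2 ^ i) = 1 := by
  unfold dcoef
  rw [if_pos dvd_rfl, Nat.div_self (by positivity), tau_one]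

/-- The inductive statement: there is a level-one form of weight `12 + i w` which is congruent
modulo `I` to a unit times `Δ(q ^ (2 ^ i))`. -/
theorem exists_iterate (hS : Setup O I) {w : ℕ} (H : ModularForm 𝒮ℒ (w : ℤ))
    (hu : IsUnitMod O I ((qExpansion 1 H).coeff 0))
    (hH : ∀ n : ℕ, 1 ≤ n → (qExpansion 1 H).coeff n ∈ I)
    (h2 : IsUnitMod O I 2) (hw : IsUnitMod O I ((2 : ℂ) ^ w - 1)) (i : ℕ) :
    ∃ (F : ModularForm 𝒮ℒ ((12 + i * w : ℕ) : ℤ)) (e : ℂ), IsUnitMod O I e ∧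
      (∀ n, (qExpansion 1 F).coeff n ∈ O) ∧
      ∀ n, (qExpansion 1 F).coeff n - e * dcoef i n ∈ I := by
  have hHO : ∀ n, (qExpansion 1 H).coeff n ∈ O := by
    intro n
    rcases Nat.eq_zero_or_pos n with rfl | hn
    · exact hu.1
    · exact hS.I_le _ (hH n hn)
  induction i with
  | zero =>
    have hcoe : ⇑(ModularForm.mcast (a := 12) (b := ((12 + 0 * w : ℕ) : ℤ)) (by simp)
        (CuspForm.toModularFormₗ CuspForm.discriminant : ModularForm 𝒮ℒ 12)) = Δ := rfl
    refine ⟨ModularForm.mcast (a := 12) (b := ((12 + 0 * w : ℕ) : ℤ)) (by simp)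
      (CuspForm.toModularFormₗ CuspForm.discriminant : ModularForm 𝒮ℒ 12), 1,
      isUnitMod_one O I, ?_, ?_⟩
    · intro n
      rw [hcoe]
      exact tau_mem O n
    · intro n
      rw [hcoe]
      simp [dcoef, tau]
  | succ i ih =>
    obtain ⟨F, e, he, hFO, hFe⟩ := ih
    set u : ℂ := (qExpansion 1 H).coeff 0 with hu_def
    have hwt : (w : ℤ) + ((12 + i * w : ℕ) : ℤ) = ((12 + (i + 1) * w : ℕ) : ℤ) := by
      push_cast; ring
    -- the new form
    let F' : ModularForm 𝒮ℒ ((12 + (i + 1) * w : ℕ) : ℤ) :=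
      ModularForm.mcast hwt (T2 _ (H.mul F)) - ModularForm.mcast hwt (H.mul (T2 _ F))
    have hq1 : qExpansion 1 F' =
        qExpansion 1 (T2 _ (H.mul F)) - qExpansion 1 H * qExpansion 1 (T2 _ F) := by
      show qExpansion 1 (ModularForm.mcast hwt (T2 _ (H.mul F)) -
        ModularForm.mcast hwt (H.mul (T2 _ F))) = _
      rw [ModularForm.qExpansion_sub one_pos one_mem_strictPeriods_SL,
        ModularForm.qExpansion_mcast, ModularForm.qExpansion_mcast,
        ModularForm.qExpansion_mul one_pos one_mem_strictPeriods_SL]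
    have hqHF : qExpansion 1 (H.mul F) = qExpansion 1 H * qExpansion 1 F :=
      ModularForm.qExpansion_mul one_pos one_mem_strictPeriods_SL H F
    -- powers of two
    have hpowK : (2 : ℂ) ^ (((12 + i * w : ℕ) : ℤ) - 1) = (2 : ℂ) ^ (11 + i * w) := by
      rw [show ((12 + i * w : ℕ) : ℤ) - 1 = ((11 + i * w : ℕ) : ℤ) by push_cast; ring,
        zpow_natCast]
    have hpowK' : (2 : ℂ) ^ ((w : ℤ) + ((12 + i * w : ℕ) : ℤ) - 1)
        = (2 : ℂ) ^ w * (2 : ℂ) ^ (11 + i * w) := by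
      rw [show (w : ℤ) + ((12 + i * w : ℕ) : ℤ) - 1 = ((w + (11 + i * w) : ℕ) : ℤ) by
        push_cast; ring, zpow_natCast, pow_add]
    set c : ℂ := (2 : ℂ) ^ (11 + i * w) with hc
    have hcU : IsUnitMod O I c := h2.pow hS _
    have h2wO : (2 : ℂ) ^ w ∈ O := O.pow_mem h2.1 w
    -- coefficients of T2 F lie in O
    have hT2FO : ∀ n, (qExpansion 1 (T2 _ F)).coeff n ∈ O := by
      intro n
      rw [coeff_T2, hpowK]
      refine O.add_mem (hFO _) ?_
      split_ifs
      · exact O.mul_mem hcU.1 (hFO _)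
      · exact O.zero_mem
    -- H F ≡ u F
    have hHF : ∀ n, (qExpansion 1 (H.mul F)).coeff n - u * (qExpansion 1 F).coeff n ∈ I := by
      intro n
      rw [hqHF]
      exact coeff_mul_sub_mem hS hH hFO n
    -- H (T2 F) ≡ u T2 F
    have hHT : ∀ n, (qExpansion 1 H * qExpansion 1 (T2 _ F)).coeff n
        - u * (qExpansion 1 (T2 _ F)).coeff n ∈ I := fun n => coeff_mul_sub_mem hS hH hT2FO n
    refine ⟨F', u * c * ((2 : ℂ) ^ w - 1) * e, ((hu.mul hS hcU).mul hS hw).mul hS he, ?_, ?_⟩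
    · intro n
      rw [hq1, map_sub, coeff_T2, hpowK', hqHF]
      refine O.sub_mem (O.add_mem (coeff_mul_mem_O hHO hFO _) ?_) (coeff_mul_mem_O hHO hT2FO _)
      split_ifs
      · exact O.mul_mem (O.mul_mem h2wO hcU.1) (coeff_mul_mem_O hHO hFO _)
      · exact O.zero_mem
    · intro n
      rw [hq1, map_sub, coeff_T2, hpowK', dcoef_succ]
      have hA := hHF (n * 2)
      have hC := hHT n
      rw [coeff_T2, hpowK] at hC
      by_cases hn : 2 ∣ n
      · rw [if_pos hn, if_pos hn] at *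
        have hB := hHF (n / 2)
        have hD := hFe (n / 2)
        -- combine
        have hB' : (2 : ℂ) ^ w * c * ((qExpansion 1 (H.mul F)).coeff (n / 2)
            - u * (qExpansion 1 F).coeff (n / 2)) ∈ I :=
          hS.mul_mem _ (O.mul_mem h2wO hcU.1) _ hB
        have hD' : u * c * ((2 : ℂ) ^ w - 1) * ((qExpansion 1 F).coeff (n / 2)
            - e * dcoef i (n / 2)) ∈ I :=
          hS.mul_mem _ (O.mul_mem (O.mul_mem hu.1 hcU.1) hw.1) _ hD
        have key := I.add_mem (I.sub_mem (I.add_mem hA hB') hC) hD'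
        convert key using 1
        ring
      · rw [if_neg hn, if_neg hn] at *
        have key := I.sub_mem hA hC
        convert key using 1
        ring

/-- **The `T₂`-trick**, relative to a level-one Sturm bound modulo `I`. -/
theorem t2_trick_of_sturm (hS : Setup O I)
    (hsturm : ∀ (K : ℕ) (F : ModularForm 𝒮ℒ (K : ℤ)),
      (∀ n : ℕ, 12 * n ≤ K → (qExpansion 1 F).coeff n ∈ I) →
        ∀ n, (qExpansion 1 F).coeff n ∈ I)
    {w : ℕ} (H : ModularForm 𝒮ℒ (w : ℤ))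
    (hu : IsUnitMod O I ((qExpansion 1 H).coeff 0))
    (hH : ∀ n : ℕ, 1 ≤ n → (qExpansion 1 H).coeff n ∈ I)
    (h2 : IsUnitMod O I 2) (hw : IsUnitMod O I ((2 : ℂ) ^ w - 1)) : False := by
  obtain ⟨F, e, he, -, hFe⟩ := exists_iterate hS H hu hH h2 hw (2 * w + 5)
  have hbig : 12 + (2 * w + 5) * w < 12 * 2 ^ (2 * w + 5) := by
    have h1 : w + 1 ≤ 2 ^ w := Nat.lt_two_pow_self
    have h2 : 2 ^ (2 * w + 5) = 32 * (2 ^ w * 2 ^ w) := by
      rw [pow_add, pow_mul', ← pow_two]; ring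
    rw [h2]
    nlinarith [Nat.mul_le_mul h1 h1]
  have hall := hsturm _ F (fun n hn => by
    have hlt : n < 2 ^ (2 * w + 5) := by omega
    have := hFe n
    rwa [dcoef_of_lt hlt, mul_zero, sub_zero] at this)
  have h1 := hall (2 ^ (2 * w + 5))
  have h2' := hFe (2 ^ (2 * w + 5))
  rw [dcoef_self, mul_one] at h2'
  have : e ∈ I := by
    have := I.sub_mem h1 h2'
    simpa using this
  exact he.notMem hS this

/-- **The `T₂`-trick**: a level-one form which is a unit modulo `I` forces `2 ^ w ≡ 1`. -/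
theorem t2_trick (hS : Setup O I) {w : ℕ} (H : ModularForm 𝒮ℒ (w : ℤ))
    (hu : IsUnitMod O I ((qExpansion 1 H).coeff 0))
    (hH : ∀ n : ℕ, 1 ≤ n → (qExpansion 1 H).coeff n ∈ I)
    (h2 : IsUnitMod O I 2) (hw : IsUnitMod O I ((2 : ℂ) ^ w - 1)) : False :=
  t2_trick_of_sturm hS (fun K F h => Fermat.Agent.S16.UB.LevelOneSturm.coeff_mem_nat I K F h)
    H hu hH h2 hw

end

end Fermat.Agent.S16.UB.T2TrickAlt
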