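import Mathlib
import Fermat.Prelude.Thm_CongruenceSubgroup_one_mem_strictPeriods_Gamma0
import Fermat.Agent.S16.UB.PExp

set_option autoImplicit false

noncomputable section

namespace Fermat.Agent.S16.UB.Translates

open UpperHalfPlane ModularForm Matrix.SpecialLinearGroup CongruenceSubgroup
open scoped MatrixGroups ModularForm Real
open Fermat.Agent.S16.UB.PExp

local notation "𝕢" => Function.Periodic.qParam

/-- `Γ₀(N)` inside `GL(2,ℝ)` (the spelling of the coercion used by the frozen statements). -/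
abbrev G0 (N : ℕ) : Subgroup (GL (Fin 2) ℝ) := Subgroup.map (mapGL ℝ) (Gamma0 N)

/-- The coset space used by Mathlib's `SlashInvariantForm.quotientFunc`. -/
abbrev Q0 (N : ℕ) : Type := 𝒮ℒ ⧸ (G0 N).subgroupOf 𝒮ℒ

/-- The element of `𝒮ℒ` attached to an element of `SL(2,ℤ)`. -/
def toSL (g : SL(2, ℤ)) : 𝒮ℒ := ⟨mapGL ℝ g, ⟨g, rfl⟩⟩

theorem mk_eq_mk_iff (N : ℕ) (g g' : SL(2, ℤ)) :
    (QuotientGroup.mk (toSL g) : Q0 N) = QuotientGroup.mk (toSL g') ↔ g⁻¹ * g' ∈ Gamma0 N := by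
  rw [QuotientGroup.eq, Subgroup.mem_subgroupOf]
  constructor
  · rintro ⟨γ, hγ, hγe⟩
    have h1 : mapGL ℝ γ = mapGL ℝ (g⁻¹ * g') := by
      rw [hγe]
      simp [toSL]
    have : γ = g⁻¹ * g' := mapGL_injective h1
    exact this ▸ hγ
  · intro h
    exact ⟨g⁻¹ * g', h, by simp [toSL]⟩

/-- Representatives of `SL(2,ℤ)/Γ₀(p)`: `1` and `(S T^j)⁻¹`, `j < p`. -/
def repSL (p : ℕ) : Option (Fin p) → SL(2, ℤ)
  | none => 1
  | some j => (ModularGroup.S * ModularGroup.T ^ ((j : ℕ) : ℤ))⁻¹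

/-- The corresponding cosets. -/
def rep (p : ℕ) (x : Option (Fin p)) : Q0 p := QuotientGroup.mk (toSL (repSL p x))

theorem ST_mul_apply_one_zero (j : ℤ) (g : SL(2, ℤ)) :
    (ModularGroup.S * ModularGroup.T ^ j * g) 1 0 = g 0 0 + j * g 1 0 := by
  simp [Matrix.SpecialLinearGroup.coe_mul, ModularGroup.coe_S, ModularGroup.coe_T_zpow,
    Matrix.mul_apply, Fin.sum_univ_two]

theorem ST_inv_apply_one_zero (j : ℤ) :
    ((ModularGroup.S * ModularGroup.T ^ j)⁻¹ : SL(2, ℤ)) 1 0 = -1 := by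
  simp [Matrix.SpecialLinearGroup.coe_mul, ModularGroup.coe_S, ModularGroup.coe_T_zpow,
    Matrix.SpecialLinearGroup.coe_inv, Matrix.adjugate_fin_two, Matrix.mul_apply,
    Fin.sum_univ_two]

theorem ST_mul_ST_inv_apply_one_zero (i j : ℤ) :
    (ModularGroup.S * ModularGroup.T ^ i * (ModularGroup.S * ModularGroup.T ^ j)⁻¹ : SL(2, ℤ)) 1 0
      = j - i := by
  rw [ST_mul_apply_one_zero]
  simp [Matrix.SpecialLinearGroup.coe_mul, ModularGroup.coe_S, ModularGroup.coe_T_zpow,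
    Matrix.SpecialLinearGroup.coe_inv, Matrix.adjugate_fin_two, Matrix.mul_apply,
    Fin.sum_univ_two]
  ring

theorem rep_injective (p : ℕ) [hp : Fact p.Prime] : Function.Injective (rep p) := by
  have hp1 : ¬ ((p : ℤ) ∣ 1) := by
    intro h
    have := Int.natAbs_dvd_natAbs.mpr h
    simp at this
    exact hp.out.one_lt.ne' this
  intro x y hxy
  rw [rep, rep, mk_eq_mk_iff, Gamma0_mem, ZMod.intCast_zmod_eq_zero_iff_dvd] at hxy
  rcases x with _ | i <;> rcases y with _ | j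
  · rfl
  · exfalso
    simp only [repSL, inv_one, one_mul] at hxy
    rw [ST_inv_apply_one_zero] at hxy
    exact hp1 ((Int.dvd_neg).mp hxy)
  · exfalso
    simp only [repSL, inv_inv, mul_one] at hxy
    have h1 := ST_mul_apply_one_zero ((i : ℕ) : ℤ) 1
    rw [mul_one] at h1
    rw [h1] at hxy
    simp at hxy
    exact hp1 hxy
  · simp only [repSL, inv_inv] at hxy
    rw [ST_mul_ST_inv_apply_one_zero] at hxy
    have h2 : ((j : ℕ) : ℤ) - ((i : ℕ) : ℤ) = 0 := by
      apply Int.eq_zero_of_abs_lt_dvd hxy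
      have hi := i.isLt
      have hj := j.isLt
      rw [abs_lt]
      constructor <;> omega
    congr 1
    ext
    omega

theorem rep_surjective (p : ℕ) [hp : Fact p.Prime] : Function.Surjective (rep p) := by
  intro q
  induction q using QuotientGroup.induction_on with
  | H h =>
    obtain ⟨h, ⟨g, rfl⟩⟩ := h
    by_cases hc : ((g 1 0 : ℤ) : ZMod p) = 0
    · refine ⟨none, ?_⟩
      have : (QuotientGroup.mk (toSL (repSL p none)) : Q0 p) = QuotientGroup.mk (toSL g) := by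
        rw [mk_eq_mk_iff, Gamma0_mem]
        simpa [repSL] using hc
      exact this
    · let j : Fin p :=
        ⟨(-((g 0 0 : ℤ) : ZMod p) * ((g 1 0 : ℤ) : ZMod p)⁻¹).val, ZMod.val_lt _⟩
      refine ⟨some j, ?_⟩
      have : (QuotientGroup.mk (toSL (repSL p (some j))) : Q0 p) = QuotientGroup.mk (toSL g) := by
        rw [mk_eq_mk_iff, Gamma0_mem]
        simp only [repSL, inv_inv]
        rw [ST_mul_apply_one_zero]
        push_cast
        simp only [j, ZMod.natCast_zmod_val]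
        field_simp
        ring
      exact this

/-- The enumeration of the cosets of `Γ₀(p)` in `SL(2,ℤ)`. -/
def repEquiv (p : ℕ) [Fact p.Prime] : Option (Fin p) ≃ Q0 p :=
  Equiv.ofBijective (rep p) ⟨rep_injective p, rep_surjective p⟩

theorem repEquiv_apply (p : ℕ) [Fact p.Prime] (x : Option (Fin p)) : repEquiv p x = rep p x := rfl

theorem natCard_Q0 (p : ℕ) [Fact p.Prime] : Nat.card (Q0 p) = p + 1 := by
  rw [← Nat.card_congr (repEquiv p)]
  simp

variable {p : ℕ} {k : ℤ}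

theorem quotientFunc_rep_none (F : ModularForm (G0 p) k) :
    SlashInvariantForm.quotientFunc (ℋ := 𝒮ℒ) F (rep p none) = ⇑F := by
  have h : SlashInvariantForm.quotientFunc (ℋ := 𝒮ℒ) F (rep p none) =
      (⇑F) ∣[k] (toSL (repSL p none)).val⁻¹ := rfl
  rw [h]
  simp [toSL, repSL]

theorem quotientFunc_rep_some (F : ModularForm (G0 p) k) (j : Fin p) (τ : ℍ) :
    SlashInvariantForm.quotientFunc (ℋ := 𝒮ℒ) F (rep p (some j)) τ =
      ((⇑F) ∣[k] ModularGroup.S) (((j : ℕ) : ℝ) +ᵥ τ) := by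
  have h : SlashInvariantForm.quotientFunc (ℋ := 𝒮ℒ) F (rep p (some j)) =
      (⇑F) ∣[k] (toSL (repSL p (some j))).val⁻¹ := rfl
  rw [h]
  have h2 : (toSL (repSL p (some j))).val⁻¹ =
      mapGL ℝ ModularGroup.S * mapGL ℝ (ModularGroup.T ^ ((j : ℕ) : ℤ)) := by
    simp [toSL, repSL]
  have e1 : ∀ (f : ℍ → ℂ) (γ : SL(2, ℤ)), f ∣[k] (mapGL ℝ γ) = f ∣[k] γ := fun f γ => rfl
  rw [h2, SlashAction.slash_mul, e1, e1, SL_slash_apply, modular_T_zpow_smul]
  have hd : denom (ModularGroup.T ^ ((j : ℕ) : ℤ) : SL(2, ℤ)) τ = 1 := by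
    rw [ModularGroup.denom_apply, ModularGroup.coe_T_zpow]
    simp
  rw [hd]
  simp

/-- `ζ_p = exp(2πi/p)`. -/
def zeta (p : ℕ) : ℂ := Complex.exp (2 * π * Complex.I / p)

theorem zeta_pow_self (hp : p ≠ 0) : zeta p ^ p = 1 := by
  have hp' : (p : ℂ) ≠ 0 := by exact_mod_cast hp
  rw [zeta, ← Complex.exp_nat_mul, mul_div_cancel₀ _ hp', Complex.exp_two_pi_mul_I]

theorem zeta_ne_zero (p : ℕ) : zeta p ≠ 0 := Complex.exp_ne_zero _

/-- Expansion of a translate `τ ↦ f (τ + j)`. -/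
theorem hasPExp_translate {f : ℍ → ℂ} {B : PowerSeries ℂ} (hB : HasPExp p f B) (j : ℕ) :
    HasPExp p (fun τ => f ((j : ℝ) +ᵥ τ)) (PowerSeries.rescale (zeta p ^ j) B) := by
  have h1 := hB.comp_of_qParam (N := p) (fun τ => (j : ℝ) +ᵥ τ) (zeta p ^ j) one_ne_zero
    (fun τ => by
      rw [pow_one, zeta, ← Complex.exp_nat_mul, Function.Periodic.qParam,
        Function.Periodic.qParam, ← Complex.exp_add]
      congr 1
      rw [UpperHalfPlane.coe_vadd]
      push_cast
      ring)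
  simpa using h1

variable [hpf : Fact p.Prime]

/-- The trace of `F` to level one, pointwise: `F + ∑_{j<p} (F ∣ S)(τ + j)`. -/
theorem trace_apply (F : ModularForm (G0 p) k) (τ : ℍ) :
    (ModularForm.trace 𝒮ℒ F) τ =
      F τ + ∑ j : Fin p, ((⇑F) ∣[k] ModularGroup.S) (((j : ℕ) : ℝ) +ᵥ τ) := by
  rw [ModularForm.coe_trace]
  let _ := Fintype.ofFinite (Q0 p)
  rw [Finset.sum_apply, ← Equiv.sum_comp (repEquiv p), Fintype.sum_option]
  simp only [repEquiv_apply, quotientFunc_rep_none, quotientFunc_rep_some]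

/-- The norm of `F` to level one, pointwise: `F · ∏_{j<p} (F ∣ S)(τ + j)`. -/
theorem norm_apply (F : ModularForm (G0 p) k) (τ : ℍ) :
    (ModularForm.norm 𝒮ℒ F) τ =
      F τ * ∏ j : Fin p, ((⇑F) ∣[k] ModularGroup.S) (((j : ℕ) : ℝ) +ᵥ τ) := by
  rw [ModularForm.coe_norm]
  let _ := Fintype.ofFinite (Q0 p)
  rw [Finset.prod_apply, ← Equiv.prod_comp (repEquiv p), Fintype.prod_option]
  simp only [repEquiv_apply, quotientFunc_rep_none, quotientFunc_rep_some]

/-- **Trace formula.** If `F ∣ S` has the expansion `B` in `q^{1/p}`, the trace of `F` to level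
one has `n`-th coefficient `a_n(F) + p · B_{pn}`. -/
theorem exists_trace (F : ModularForm (G0 p) k) (B : PowerSeries ℂ)
    (hB : HasPExp p ((⇑F) ∣[k] ModularGroup.S) B) :
    ∃ Tr : ModularForm 𝒮ℒ k, ∀ n : ℕ, (qExpansion 1 Tr).coeff n =
      (qExpansion 1 F).coeff n + p * B.coeff (p * n) := by
  have hp0 : p ≠ 0 := hpf.out.ne_zero
  refine ⟨ModularForm.trace 𝒮ℒ F, fun n => ?_⟩
  have hΓ : (1 : ℝ) ∈ (G0 p).strictPeriods := CongruenceSubgroup.one_mem_strictPeriods_Gamma0 p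
  have hA : HasPExp p (⇑F) (PowerSeries.expand p hp0 (qExpansion 1 F)) :=
    (hasPExp_qExpansion hΓ F).of_one hp0
  have hT : HasPExp p (⇑(ModularForm.trace 𝒮ℒ F))
      (PowerSeries.expand p hp0 (qExpansion 1 (ModularForm.trace 𝒮ℒ F))) :=
    (hasPExp_qExpansion one_mem_strictPeriods_SL (ModularForm.trace 𝒮ℒ F)).of_one hp0
  have hsum : HasPExp p (⇑(ModularForm.trace 𝒮ℒ F))
      (PowerSeries.expand p hp0 (qExpansion 1 F) +
        ∑ j : Fin p, PowerSeries.rescale (zeta p ^ (j : ℕ)) B) := by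
    have h1 := hA.add (HasPExp.finset_sum (Finset.univ : Finset (Fin p))
      (fun j τ => ((⇑F) ∣[k] ModularGroup.S) (((j : ℕ) : ℝ) +ᵥ τ))
      (fun j => PowerSeries.rescale (zeta p ^ (j : ℕ)) B)
      (fun j _ => hasPExp_translate hB j))
    refine h1.congr_fun fun τ => ?_
    rw [ModularForm.coe_trace]
    let _ := Fintype.ofFinite (Q0 p)
    rw [Finset.sum_apply, ← Equiv.sum_comp (repEquiv p), Fintype.sum_option]
    simp only [repEquiv_apply, quotientFunc_rep_none, quotientFunc_rep_some]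
  have heq := hT.unique hp0 hsum
  have h2 := congrArg (PowerSeries.coeff (p * n)) heq
  rw [PowerSeries.coeff_expand_mul, map_add, PowerSeries.coeff_expand_mul, map_sum] at h2
  rw [h2]
  congr 1
  have h3 : ∀ j : Fin p, PowerSeries.coeff (p * n) (PowerSeries.rescale (zeta p ^ (j : ℕ)) B) =
      B.coeff (p * n) := by
    intro j
    rw [PowerSeries.coeff_rescale, ← pow_mul, mul_comm (j : ℕ) (p * n), mul_assoc, pow_mul,
      zeta_pow_self hp0, one_pow, one_mul]
  rw [Finset.sum_congr rfl (fun j _ => h3 j)]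
  simp

/-- **Norm formula.** If `F ∣ S` has the expansion `B` in `x = q^{1/p}`, the norm of `F` to level
one has `q`-expansion `N` with `N(x^p) = A(x^p) · ∏_{j<p} B(ζ^j x)`. -/
theorem exists_norm (F : ModularForm (G0 p) k) (B : PowerSeries ℂ)
    (hB : HasPExp p ((⇑F) ∣[k] ModularGroup.S) B) :
    ∃ Nm : ModularForm 𝒮ℒ (k * (p + 1)),
      PowerSeries.expand p hpf.out.ne_zero (qExpansion 1 Nm) =
        PowerSeries.expand p hpf.out.ne_zero (qExpansion 1 F) *
          ∏ j ∈ Finset.range p, PowerSeries.rescale (zeta p ^ j) B := by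
  have hp0 : p ≠ 0 := hpf.out.ne_zero
  have hcard : k * (Nat.card (Q0 p) : ℤ) = k * (p + 1) := by
    rw [natCard_Q0]; push_cast; ring
  refine ⟨ModularForm.mcast hcard (ModularForm.norm 𝒮ℒ F), ?_⟩
  have hΓ : (1 : ℝ) ∈ (G0 p).strictPeriods := CongruenceSubgroup.one_mem_strictPeriods_Gamma0 p
  have hA : HasPExp p (⇑F) (PowerSeries.expand p hp0 (qExpansion 1 F)) :=
    (hasPExp_qExpansion hΓ F).of_one hp0
  have hT : HasPExp p (⇑(ModularForm.mcast hcard (ModularForm.norm 𝒮ℒ F)))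
      (PowerSeries.expand p hp0 (qExpansion 1 (ModularForm.mcast hcard (ModularForm.norm 𝒮ℒ F)))) :=
    (hasPExp_qExpansion one_mem_strictPeriods_SL _).of_one hp0
  have hprod : HasPExp p (⇑(ModularForm.mcast hcard (ModularForm.norm 𝒮ℒ F)))
      (PowerSeries.expand p hp0 (qExpansion 1 F) *
        ∏ j : Fin p, PowerSeries.rescale (zeta p ^ (j : ℕ)) B) := by
    have h1 := hA.mul (HasPExp.finset_prod (Finset.univ : Finset (Fin p))
      (fun j τ => ((⇑F) ∣[k] ModularGroup.S) (((j : ℕ) : ℝ) +ᵥ τ))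
      (fun j => PowerSeries.rescale (zeta p ^ (j : ℕ)) B)
      (fun j _ => hasPExp_translate hB j))
    refine h1.congr_fun fun τ => ?_
    rw [ModularForm.mcast_apply, ModularForm.coe_norm]
    let _ := Fintype.ofFinite (Q0 p)
    rw [Finset.prod_apply, ← Equiv.prod_comp (repEquiv p), Fintype.prod_option]
    simp only [repEquiv_apply, quotientFunc_rep_none, quotientFunc_rep_some]
  have heq := hT.unique hp0 hprod
  rw [heq, Fin.prod_univ_eq_prod_range (fun j => PowerSeries.rescale (zeta p ^ j) B) p]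

end Fermat.Agent.S16.UB.Translates
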